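/-
S05 helper library: basic definitions shared by all S05 modules.

* `OrdFn K`      : an additive, rational-valued valuation on a field `K`
                   (`ord 0` is junk, all lemmas carry `≠ 0` side conditions).
* `v.HasOrd x c` : `x ≠ 0 ∧ ord x = c`
* `v.Ge c x`     : `x = 0 ∨ c ≤ ord x`   ("x lies in the ball of radius c")
* `v.Gt c x`     : `x = 0 ∨ c < ord x`
* `IsFreyModel W A B` : `W` is the curve `y² + xy = x³ + ((B-1-A)/4) x² - (AB/16) x`
* `ptX`, `ptY`   : normalised coordinates `X = 4x`, `Y = 8y + 4x` of an affine point, so that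
                   `Y² = X (X - A) (X + B)`.
-/
import Mathlib
import Fermat.Prelude.Def_FLTPrelim_FreyPackage
import Fermat.Prelude.Def_FLTPrelim_GaloisRep
import Fermat.Prelude.Def_FLTPrelim_Ramification

set_option autoImplicit false

namespace Fermat.Agent.S05

/-- An additive rational-valued valuation on a field (value at `0` is junk). -/
structure OrdFn (K : Type*) [Field K] where
  /-- the valuation -/
  ord : K → ℚ
  map_mul' : ∀ x y : K, x ≠ 0 → y ≠ 0 → ord (x * y) = ord x + ord y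
  map_add' : ∀ x y : K, x ≠ 0 → y ≠ 0 → x + y ≠ 0 → min (ord x) (ord y) ≤ ord (x + y)

namespace OrdFn

variable {K : Type*} [Field K] (v : OrdFn K)

/-- `x ≠ 0` and `ord x = c`. -/
def HasOrd (x : K) (c : ℚ) : Prop := x ≠ 0 ∧ v.ord x = c

/-- `x = 0` or `c ≤ ord x`. -/
def Ge (c : ℚ) (x : K) : Prop := x = 0 ∨ c ≤ v.ord x

/-- `x = 0` or `c < ord x`. -/
def Gt (c : ℚ) (x : K) : Prop := x = 0 ∨ c < v.ord x

variable {v} {x y : K} {c d : ℚ}

lemma ord_mul (hx : x ≠ 0) (hy : y ≠ 0) : v.ord (x * y) = v.ord x + v.ord y :=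
  v.map_mul' x y hx hy

lemma ord_one : v.ord (1 : K) = 0 := by
  have h := v.map_mul' 1 1 one_ne_zero one_ne_zero
  rw [mul_one] at h
  linarith

lemma ord_neg_one : v.ord (-1 : K) = 0 := by
  have h := v.map_mul' (-1) (-1) (neg_ne_zero.mpr one_ne_zero) (neg_ne_zero.mpr one_ne_zero)
  rw [neg_mul_neg, mul_one, ord_one] at h
  linarith

lemma ord_neg (x : K) : v.ord (-x) = v.ord x := by
  by_cases hx : x = 0
  · simp [hx]
  · have h := v.map_mul' (-1) x (neg_ne_zero.mpr one_ne_zero) hx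
    rw [neg_one_mul, ord_neg_one] at h
    linarith

lemma ord_inv (hx : x ≠ 0) : v.ord x⁻¹ = -v.ord x := by
  have h := v.map_mul' x x⁻¹ hx (inv_ne_zero hx)
  rw [mul_inv_cancel₀ hx, ord_one] at h
  linarith

lemma ord_div (hx : x ≠ 0) (hy : y ≠ 0) : v.ord (x / y) = v.ord x - v.ord y := by
  rw [div_eq_mul_inv, ord_mul hx (inv_ne_zero hy), ord_inv hy]; ring

lemma ord_pow (hx : x ≠ 0) (n : ℕ) : v.ord (x ^ n) = n * v.ord x := by
  induction n with
  | zero => simp [ord_one]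
  | succ n ih => rw [pow_succ, ord_mul (pow_ne_zero n hx) hx, ih]; push_cast; ring

lemma ord_add_ge (hx : x ≠ 0) (hy : y ≠ 0) (hxy : x + y ≠ 0) :
    min (v.ord x) (v.ord y) ≤ v.ord (x + y) :=
  v.map_add' x y hx hy hxy

/-- If `ord x < ord y` then `x + y ≠ 0` and `ord (x + y) = ord x`. -/
lemma ord_add_eq_left (hx : x ≠ 0) (hy : y ≠ 0) (h : v.ord x < v.ord y) :
    x + y ≠ 0 ∧ v.ord (x + y) = v.ord x := by
  have hne : x + y ≠ 0 := by
    intro h0
    have : x = -y := eq_neg_of_add_eq_zero_left h0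
    rw [this, ord_neg] at h
    exact lt_irrefl _ h
  refine ⟨hne, le_antisymm ?_ ?_⟩
  · -- x = (x + y) + (-y)
    have h1 := v.map_add' (x + y) (-y) hne (neg_ne_zero.mpr hy) (by simpa using hx)
    rw [add_neg_cancel_right, ord_neg] at h1
    rcases min_le_iff.mp h1 with h2 | h2
    · exact h2
    · linarith
  · have h1 := v.map_add' x y hx hy hne
    rwa [min_eq_left h.le] at h1

/-! ### `HasOrd` -/

lemma HasOrd.ne_zero (h : v.HasOrd x c) : x ≠ 0 := h.1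

lemma HasOrd.ord_eq (h : v.HasOrd x c) : v.ord x = c := h.2

lemma hasOrd_of_ne (hx : x ≠ 0) : v.HasOrd x (v.ord x) := ⟨hx, rfl⟩

lemma HasOrd.congr (h : v.HasOrd x c) (hc : c = d) : v.HasOrd x d := hc ▸ h

lemma hasOrd_one : v.HasOrd (1 : K) 0 := ⟨one_ne_zero, ord_one⟩

lemma HasOrd.neg (h : v.HasOrd x c) : v.HasOrd (-x) c :=
  ⟨neg_ne_zero.mpr h.1, by rw [ord_neg, h.2]⟩

lemma HasOrd.mul (hx : v.HasOrd x c) (hy : v.HasOrd y d) : v.HasOrd (x * y) (c + d) :=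
  ⟨mul_ne_zero hx.1 hy.1, by rw [ord_mul hx.1 hy.1, hx.2, hy.2]⟩

lemma HasOrd.inv (hx : v.HasOrd x c) : v.HasOrd x⁻¹ (-c) :=
  ⟨inv_ne_zero hx.1, by rw [ord_inv hx.1, hx.2]⟩

lemma HasOrd.div (hx : v.HasOrd x c) (hy : v.HasOrd y d) : v.HasOrd (x / y) (c - d) :=
  ⟨div_ne_zero hx.1 hy.1, by rw [ord_div hx.1 hy.1, hx.2, hy.2]⟩

lemma HasOrd.pow (hx : v.HasOrd x c) (n : ℕ) : v.HasOrd (x ^ n) (n * c) :=
  ⟨pow_ne_zero n hx.1, by rw [ord_pow hx.1, hx.2]⟩

/-! ### `Ge` and `Gt` -/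

lemma ge_zero' (c : ℚ) : v.Ge c (0 : K) := Or.inl rfl

lemma gt_zero' (c : ℚ) : v.Gt c (0 : K) := Or.inl rfl

lemma HasOrd.ge (h : v.HasOrd x c) (hd : d ≤ c) : v.Ge d x := Or.inr (h.2 ▸ hd)

lemma HasOrd.gt (h : v.HasOrd x c) (hd : d < c) : v.Gt d x := Or.inr (h.2 ▸ hd)

lemma Gt.ge (h : v.Gt c x) : v.Ge c x := h.imp id le_of_lt

lemma Ge.mono (h : v.Ge c x) (hd : d ≤ c) : v.Ge d x := h.imp id (le_trans hd)

lemma Gt.mono (h : v.Gt c x) (hd : d ≤ c) : v.Gt d x := h.imp id (lt_of_le_of_lt hd)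

lemma Ge.gt_of_lt (h : v.Ge c x) (hd : d < c) : v.Gt d x := h.imp id (lt_of_lt_of_le hd)

lemma Ge.le_ord (h : v.Ge c x) (hx : x ≠ 0) : c ≤ v.ord x := h.resolve_left hx

lemma Gt.lt_ord (h : v.Gt c x) (hx : x ≠ 0) : c < v.ord x := h.resolve_left hx

lemma Ge.neg (h : v.Ge c x) : v.Ge c (-x) := by
  rcases h with h | h
  · exact Or.inl (by simp [h])
  · exact Or.inr (by rwa [ord_neg])

lemma Gt.neg (h : v.Gt c x) : v.Gt c (-x) := by
  rcases h with h | h
  · exact Or.inl (by simp [h])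
  · exact Or.inr (by rwa [ord_neg])

lemma Ge.add (hx : v.Ge c x) (hy : v.Ge c y) : v.Ge c (x + y) := by
  by_cases hx0 : x = 0
  · simpa [hx0] using hy
  by_cases hy0 : y = 0
  · simpa [hy0] using hx
  by_cases hxy : x + y = 0
  · exact Or.inl hxy
  · exact Or.inr (le_trans (le_min (hx.le_ord hx0) (hy.le_ord hy0)) (ord_add_ge hx0 hy0 hxy))

lemma Gt.add (hx : v.Gt c x) (hy : v.Gt c y) : v.Gt c (x + y) := by
  by_cases hx0 : x = 0
  · simpa [hx0] using hy
  by_cases hy0 : y = 0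
  · simpa [hy0] using hx
  by_cases hxy : x + y = 0
  · exact Or.inl hxy
  · exact Or.inr (lt_of_lt_of_le (lt_min (hx.lt_ord hx0) (hy.lt_ord hy0)) (ord_add_ge hx0 hy0 hxy))

lemma Ge.sub (hx : v.Ge c x) (hy : v.Ge c y) : v.Ge c (x - y) := by
  rw [sub_eq_add_neg]; exact hx.add hy.neg

lemma Gt.sub (hx : v.Gt c x) (hy : v.Gt c y) : v.Gt c (x - y) := by
  rw [sub_eq_add_neg]; exact hx.add hy.neg

lemma Ge.mul (hx : v.Ge c x) (hy : v.Ge d y) : v.Ge (c + d) (x * y) := by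
  by_cases hx0 : x = 0
  · exact Or.inl (by simp [hx0])
  by_cases hy0 : y = 0
  · exact Or.inl (by simp [hy0])
  · exact Or.inr (by rw [ord_mul hx0 hy0]; exact add_le_add (hx.le_ord hx0) (hy.le_ord hy0))

lemma Gt.mul_ge (hx : v.Gt c x) (hy : v.Ge d y) : v.Gt (c + d) (x * y) := by
  by_cases hx0 : x = 0
  · exact Or.inl (by simp [hx0])
  by_cases hy0 : y = 0
  · exact Or.inl (by simp [hy0])
  · exact Or.inr (by rw [ord_mul hx0 hy0]; exact add_lt_add_of_lt_of_le (hx.lt_ord hx0) (hy.le_ord hy0))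

lemma Ge.mul_gt (hx : v.Ge c x) (hy : v.Gt d y) : v.Gt (c + d) (x * y) := by
  rw [mul_comm, add_comm]; exact hy.mul_ge hx

lemma Ge.pow (hx : v.Ge c x) (n : ℕ) : v.Ge (n * c) (x ^ n) := by
  induction n with
  | zero => exact Or.inr (by simp [ord_one])
  | succ n ih =>
    rw [pow_succ]
    exact (ih.mul hx).mono (by push_cast; linarith)

lemma ge_one : v.Ge 0 (1 : K) := Or.inr (by rw [ord_one])

lemma ge_natCast (n : ℕ) : v.Ge 0 (n : K) := by
  induction n with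
  | zero => exact Or.inl (by simp)
  | succ n ih => rw [Nat.cast_succ]; exact ih.add ge_one

lemma ge_intCast (n : ℤ) : v.Ge 0 (n : K) := by
  rcases Int.eq_nat_or_neg n with ⟨m, rfl | rfl⟩
  · rw [Int.cast_natCast]; exact ge_natCast (v := v) m
  · rw [Int.cast_neg, Int.cast_natCast]; exact (ge_natCast (v := v) m).neg

/-- exact order of a sum when one summand dominates. -/
lemma HasOrd.add_gt (hx : v.HasOrd x c) (hy : v.Gt c y) : v.HasOrd (x + y) c := by
  by_cases hy0 : y = 0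
  · simpa [hy0] using hx
  · have h := ord_add_eq_left hx.1 hy0 (by rw [hx.2]; exact hy.lt_ord hy0)
    exact ⟨h.1, by rw [h.2, hx.2]⟩

lemma HasOrd.gt_add (hy : v.HasOrd y c) (hx : v.Gt c x) : v.HasOrd (x + y) c := by
  rw [add_comm]; exact hy.add_gt hx

lemma HasOrd.sub_gt (hx : v.HasOrd x c) (hy : v.Gt c y) : v.HasOrd (x - y) c := by
  rw [sub_eq_add_neg]; exact hx.add_gt hy.neg

lemma HasOrd.gt_sub (hy : v.HasOrd y c) (hx : v.Gt c x) : v.HasOrd (x - y) c := by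
  rw [sub_eq_add_neg]; exact hy.neg.gt_add hx

/-- If `x + y = 0`-or-large and `x` has exact order `c`, then `y` has exact order `c`. -/
lemma HasOrd.of_add_gt (hx : v.HasOrd x c) (hxy : v.Gt c (x + y)) : v.HasOrd y c := by
  have : y = -x + (x + y) := by ring
  rw [this]; exact hx.neg.add_gt hxy

lemma Ge.of_hasOrd_mul (hxy : v.Ge c (x * y)) (hy : v.HasOrd y d) : v.Ge (c - d) x := by
  by_cases hx0 : x = 0
  · exact Or.inl hx0
  · refine Or.inr ?_
    have := hxy.le_ord (mul_ne_zero hx0 hy.1)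
    rw [ord_mul hx0 hy.1, hy.2] at this
    linarith

lemma Gt.of_hasOrd_mul (hxy : v.Gt c (x * y)) (hy : v.HasOrd y d) : v.Gt (c - d) x := by
  by_cases hx0 : x = 0
  · exact Or.inl hx0
  · refine Or.inr ?_
    have := hxy.lt_ord (mul_ne_zero hx0 hy.1)
    rw [ord_mul hx0 hy.1, hy.2] at this
    linarith

lemma HasOrd.of_mul (hxy : v.HasOrd (x * y) c) (hy : v.HasOrd y d) : v.HasOrd x (c - d) := by
  have hx0 : x ≠ 0 := left_ne_zero_of_mul hxy.1
  refine ⟨hx0, ?_⟩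
  have := hxy.2
  rw [ord_mul hx0 hy.1, hy.2] at this
  linarith

/-- the "unsigned component": `ord y` clamped to the interval `[0, h]`. -/
def D (v : OrdFn K) (h : ℚ) (y : K) : ℚ := min (max (v.ord y) 0) h

end OrdFn

/-- `X k` (`1 ≤ k ≤ p - 1`) behave like the normalised `X`-coordinates of the multiples `k • P`
of a point `P` of exact odd order `p` on `Y² = X (X - A) (X + B)`. -/
structure MultSeq {K : Type*} [Field K] (A B : K) (p : ℕ) (X : ℕ → K) : Prop where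
  nondeg : ∀ k, 1 ≤ k → k ≤ p - 1 → X k * (X k - A) * (X k + B) ≠ 0
  ne_one : ∀ k, 2 ≤ k → k ≤ p - 2 → X k ≠ X 1
  dbl : X 2 * (4 * (X 1 * (X 1 - A) * (X 1 + B))) = (X 1 ^ 2 + A * B) ^ 2
  sum : ∀ k, 2 ≤ k → k ≤ p - 2 →
    (X (k + 1) + X (k - 1)) * (X k - X 1) ^ 2 =
      2 * ((X k + X 1) * (X k * X 1 - A * B) + 2 * (B - A) * X k * X 1)
  prod : ∀ k, 2 ≤ k → k ≤ p - 2 →
    X (k + 1) * X (k - 1) * (X k - X 1) ^ 2 = (X k * X 1 + A * B) ^ 2
  symm1 : X (p - 1) = X 1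
  symm2 : X (p - 2) = X 2

/-- Congruence certificate between two points `(X, Y)`, `(X', Y')` of `Y² = X (X - A) (X + B)`:
either `Y` has exact order `c ≥ 0` and `X' ≡ X`, `Y' ≡ Y` to relative precision `> c`, or
`X' ≡ X`, `Y' ≡ Y mod 𝔪` and `f'(X)` is a unit. -/
def Cert {K : Type*} [Field K] (v : OrdFn K) (A B X Y X' Y' : K) : Prop :=
  (∃ c : ℚ, 0 ≤ c ∧ v.HasOrd Y c ∧ v.Gt c (Y' - Y) ∧ v.Gt c (X' - X)) ∨
  (v.Gt 0 (Y' - Y) ∧ v.Gt 0 (X' - X) ∧ v.HasOrd (3 * X ^ 2 + 2 * (B - A) * X - A * B) 0)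

/-- `W` is the Frey model `y² + xy = x³ + ((B - 1 - A)/4) x² - (A B / 16) x`. -/
structure IsFreyModel {K : Type*} [Field K] (W : WeierstrassCurve K) (A B : K) : Prop where
  a₁ : W.a₁ = 1
  a₂ : 4 * W.a₂ = B - 1 - A
  a₃ : W.a₃ = 0
  a₄ : 16 * W.a₄ = -(A * B)
  a₆ : W.a₆ = 0

section Pt

variable {K : Type*} [Field K] {W : WeierstrassCurve K}

/-- normalised `X`-coordinate `4x` of an affine point (`0` at infinity). -/
def ptX : W.toAffine.Point → K
  | .zero => 0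
  | .some x _ _ => 4 * x

/-- normalised `Y`-coordinate `8y + 4x` of an affine point (`0` at infinity). -/
def ptY : W.toAffine.Point → K
  | .zero => 0
  | .some x y _ => 8 * y + 4 * x

end Pt

end Fermat.Agent.S05
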