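/-
S05 task T6d: congruence certificate in the good reduction case.
-/
import Fermat.Agent.S05.Defs

set_option autoImplicit false

namespace Fermat.Agent.S05

open OrdFn

section Abstract
variable {K : Type*} [Field K]

/-- Three elements of the valuation ring whose product has positive order: one of them has
positive order (all of them being nonzero). -/
lemma h69_pos_of_mul_three (v : OrdFn K) {x y z : K}
    (hx : x ≠ 0) (hy : y ≠ 0) (hz : z ≠ 0)
    (h : 0 < v.ord (x * y * z)) :
    0 < v.ord x ∨ 0 < v.ord y ∨ 0 < v.ord z := by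
  rw [ord_mul (mul_ne_zero hx hy) hz, ord_mul hx hy] at h
  rcases lt_or_ge 0 (v.ord x) with h1 | h1
  · exact Or.inl h1
  rcases lt_or_ge 0 (v.ord y) with h2 | h2
  · exact Or.inr (Or.inl h2)
  · exact Or.inr (Or.inr (by linarith))

/-- T6d: certificate in the good reduction case. -/
theorem cert_good (v : OrdFn K) {A B X Y X' Y' : K}
    (h2 : v.HasOrd (2 : K) 0) (hA : v.HasOrd A 0) (hB : v.HasOrd B 0) (hAB : v.HasOrd (A + B) 0)
    (hX : v.Ge 0 X) (hY0 : Y ≠ 0) (hcurve : Y ^ 2 = X * (X - A) * (X + B))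
    (hXX : v.Gt 0 (X' - X)) (hYY : v.Gt 0 (Y' - Y)) :
    Cert v A B X Y X' Y' := by
  -- the three factors are nonzero
  have hprod : X * (X - A) * (X + B) ≠ 0 := by
    rw [← hcurve]; exact pow_ne_zero 2 hY0
  have hX0 : X ≠ 0 := left_ne_zero_of_mul (left_ne_zero_of_mul hprod)
  have hXA0 : X - A ≠ 0 := right_ne_zero_of_mul (left_ne_zero_of_mul hprod)
  have hXB0 : X + B ≠ 0 := right_ne_zero_of_mul hprod
  -- integrality of the factors
  have hAge : v.Ge 0 A := hA.ge le_rfl
  have hBge : v.Ge 0 B := hB.ge le_rfl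
  have hXAge : v.Ge 0 (X - A) := hX.sub hAge
  have hXBge : v.Ge 0 (X + B) := hX.add hBge
  have hoX : 0 ≤ v.ord X := hX.le_ord hX0
  have hoXA : 0 ≤ v.ord (X - A) := hXAge.le_ord hXA0
  have hoXB : 0 ≤ v.ord (X + B) := hXBge.le_ord hXB0
  -- `2 * ord Y = ord (product) ≥ 0`
  have hY2 : v.ord (X * (X - A) * (X + B)) = 2 * v.ord Y := by
    rw [← hcurve, ord_pow hY0]; norm_num
  have hoprod : v.ord (X * (X - A) * (X + B)) = v.ord X + v.ord (X - A) + v.ord (X + B) := by
    rw [ord_mul (mul_ne_zero hX0 hXA0) hXB0, ord_mul hX0 hXA0]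
  have hoY : 0 ≤ v.ord Y := by linarith
  rcases hoY.eq_or_lt with hY | hY
  · -- `ord Y = 0`: left alternative with `c = 0`
    exact Or.inl ⟨0, le_rfl, ⟨hY0, hY.symm⟩, hYY, hXX⟩
  · -- `ord Y > 0`: right alternative
    refine Or.inr ⟨hYY, hXX, ?_⟩
    have hpos : 0 < v.ord (X * (X - A) * (X + B)) := by rw [hY2]; linarith
    have h3ge : v.Ge 0 (3 : K) := by
      have := ge_natCast (v := v) 3
      simpa using this
    have h2ge : v.Ge 0 (2 : K) := h2.ge le_rfl
    rcases h69_pos_of_mul_three v hX0 hXA0 hXB0 hpos with h | h | h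
    · -- `X ∈ 𝔪`: `f'(X) = -AB + X (3X + 2(B - A))`
      have hgt : v.Gt 0 X := Or.inr h
      have hunit : v.HasOrd (-(A * B)) 0 := by
        have := (hA.mul hB).neg
        simpa using this
      have hrest : v.Gt 0 (X * (3 * X + 2 * (B - A))) := by
        have h1 : v.Ge 0 (3 * X + 2 * (B - A)) := by
          have ha : v.Ge (0 + 0) (3 * X) := h3ge.mul hX
          have hb : v.Ge (0 + 0) (2 * (B - A)) := h2ge.mul (hBge.sub hAge)
          simpa using (ha.mono (by norm_num : (0 : ℚ) ≤ 0 + 0)).add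
            (hb.mono (by norm_num : (0 : ℚ) ≤ 0 + 0))
        have := hgt.mul_ge h1
        simpa using this
      have := hunit.add_gt hrest
      have heq : -(A * B) + X * (3 * X + 2 * (B - A)) = 3 * X ^ 2 + 2 * (B - A) * X - A * B := by
        ring
      rwa [heq] at this
    · -- `X - A ∈ 𝔪`: `f'(X) = A (A + B) + (X - A) (3X + A + 2B)`
      have hgt : v.Gt 0 (X - A) := Or.inr h
      have hunit : v.HasOrd (A * (A + B)) 0 := by
        have := hA.mul hAB
        simpa using this
      have hrest : v.Gt 0 ((X - A) * (3 * X + A + 2 * B)) := by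
        have h1 : v.Ge 0 (3 * X + A + 2 * B) := by
          have ha : v.Ge (0 + 0) (3 * X) := h3ge.mul hX
          have hb : v.Ge (0 + 0) (2 * B) := h2ge.mul hBge
          simpa using ((ha.mono (by norm_num : (0 : ℚ) ≤ 0 + 0)).add hAge).add
            (hb.mono (by norm_num : (0 : ℚ) ≤ 0 + 0))
        have := hgt.mul_ge h1
        simpa using this
      have := hunit.add_gt hrest
      have heq : A * (A + B) + (X - A) * (3 * X + A + 2 * B) =
          3 * X ^ 2 + 2 * (B - A) * X - A * B := by ring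
      rwa [heq] at this
    · -- `X + B ∈ 𝔪`: `f'(X) = B (A + B) + (X + B) (3X - B - 2A)`
      have hgt : v.Gt 0 (X + B) := Or.inr h
      have hunit : v.HasOrd (B * (A + B)) 0 := by
        have := hB.mul hAB
        simpa using this
      have hrest : v.Gt 0 ((X + B) * (3 * X - B - 2 * A)) := by
        have h1 : v.Ge 0 (3 * X - B - 2 * A) := by
          have ha : v.Ge (0 + 0) (3 * X) := h3ge.mul hX
          have hb : v.Ge (0 + 0) (2 * A) := h2ge.mul hAge
          simpa using ((ha.mono (by norm_num : (0 : ℚ) ≤ 0 + 0)).sub hBge).sub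
            (hb.mono (by norm_num : (0 : ℚ) ≤ 0 + 0))
        have := hgt.mul_ge h1
        simpa using this
      have := hunit.add_gt hrest
      have heq : B * (A + B) + (X + B) * (3 * X - B - 2 * A) =
          3 * X ^ 2 + 2 * (B - A) * X - A * B := by ring
      rwa [heq] at this

end Abstract

end Fermat.Agent.S05
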