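/-
S05, task T4a (helper6): valuations of the two roots of the "addition quadratic"
(`key_quadratic`), plus the duplication analogue (`h6_key_double`, same statement as the
Blueprint's `key_double`).  Pure valued-field algebra over `Defs.lean`.
-/
import Fermat.Agent.S05.Defs

set_option autoImplicit false

namespace Fermat.Agent.S05

/-- clamp of a rational number to `[0, h]` (`OrdFn.D` is `h6_clampD` of the valuation). -/
def h6_clampD (h t : ℚ) : ℚ := min (max t 0) h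

lemma h6_clampD_of_nonpos {h t : ℚ} (hh : 0 ≤ h) (ht : t ≤ 0) : h6_clampD h t = 0 := by
  unfold h6_clampD
  rw [max_eq_right ht]
  exact min_eq_left hh

lemma h6_clampD_of_ge {h t : ℚ} (hh : 0 ≤ h) (ht : h ≤ t) : h6_clampD h t = h := by
  unfold h6_clampD
  rw [max_eq_left (hh.trans ht)]
  exact min_eq_right ht

lemma h6_clampD_of_mem {h t : ℚ} (h0 : 0 ≤ t) (ht : t ≤ h) : h6_clampD h t = t := by
  unfold h6_clampD
  rw [max_eq_left h0]
  exact min_eq_left ht

lemma h6_clampD_nonneg {h : ℚ} (hh : 0 ≤ h) (t : ℚ) : 0 ≤ h6_clampD h t :=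
  le_min (le_max_right _ _) hh

lemma h6_clampD_le (h t : ℚ) : h6_clampD h t ≤ h := min_le_right _ _

namespace OrdFn

variable {K : Type*} [Field K] {v : OrdFn K}

lemma h6_D_eq (h : ℚ) (y : K) : v.D h y = h6_clampD h (v.ord y) := rfl

lemma h6_ord_sq {x : K} (hx : x ≠ 0) : v.ord (x ^ 2) = 2 * v.ord x := by
  rw [ord_pow hx]; norm_num

lemma h6_ge_of_le {t : ℚ} {x : K} (h : t ≤ v.ord x) : v.Ge t x := Or.inr h

lemma h6_ge_of_eq {t : ℚ} {x : K} (h : v.ord x = t) : v.Ge t x := Or.inr h.ge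

/-- The strict triangle inequality: a term of strictly smallest valuation dominates. -/
lemma h6_ord_add_of_lt {t : ℚ} {x y : K} (hx : x ≠ 0) (hxt : v.ord x < t) (hy : v.Ge t y) :
    x + y ≠ 0 ∧ v.ord (x + y) = v.ord x :=
  (hasOrd_of_ne hx).add_gt (hy.gt_of_lt hxt)

lemma h6_ord_add_of_lt' {t : ℚ} {x y : K} (hx : x ≠ 0) (hxt : v.ord x < t) (hy : v.Ge t y) :
    y + x ≠ 0 ∧ v.ord (y + x) = v.ord x := by
  rw [add_comm]; exact h6_ord_add_of_lt hx hxt hy

/-- Newton polygon of a quadratic: the three possible shapes. -/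
lemma h6_np_cases {r₁ r₂ : K} (h₁ : r₁ ≠ 0) (h₂ : r₂ ≠ 0) :
    (v.ord r₁ = v.ord r₂ ∧ v.Ge (v.ord r₁) (r₁ + r₂)) ∨
      (v.ord r₁ < v.ord r₂ ∧ r₁ + r₂ ≠ 0 ∧ v.ord (r₁ + r₂) = v.ord r₁) ∨
      (v.ord r₂ < v.ord r₁ ∧ r₁ + r₂ ≠ 0 ∧ v.ord (r₁ + r₂) = v.ord r₂) := by
  rcases lt_trichotomy (v.ord r₁) (v.ord r₂) with h | h | h
  · exact Or.inr (Or.inl ⟨h, h6_ord_add_of_lt h₁ h (h6_ge_of_le le_rfl)⟩)
  · exact Or.inl ⟨h, (h6_ge_of_le le_rfl).add (h6_ge_of_le h.le)⟩
  · exact Or.inr (Or.inr ⟨h, h6_ord_add_of_lt' h₂ h (h6_ge_of_le le_rfl)⟩)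

end OrdFn

private lemma h6_trop_goal {h a b c d : ℚ} (hab : a ≤ b) (hc : c = b - a)
    (hd : d = a + b ∧ a + b ≤ 2 * h - a - b ∨ d = 2 * h - a - b ∧ 2 * h - a - b ≤ a + b) :
    c = |a - b| ∧ d = min (a + b) (2 * h - a - b) := by
  refine ⟨by rw [abs_of_nonpos (by linarith)]; linarith, ?_⟩
  rcases hd with ⟨h1, h2⟩ | ⟨h1, h2⟩
  · rw [min_eq_left h2]; exact h1
  · rw [min_eq_right h2]; exact h1

namespace OrdFn

variable {K : Type*} [Field K] {v : OrdFn K}

/-- The tropical sum/difference law, under the normalisation `ord x₁ ≤ ord x₂`. -/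
private lemma h6_tropical_aux (h2 : v.ord 2 = 0) {M L : K} (hM0 : M ≠ 0)
    (hM : v.ord M = 0) (hL0 : L ≠ 0) {h : ℚ} (hL : v.ord L = h) (hh : 0 < h)
    {x₁ x₂ x₃ x₄ : K} (h₁ : x₁ ≠ 0) (h₂ : x₂ ≠ 0) (h₃ : x₃ ≠ 0) (h₄ : x₄ ≠ 0) (hne : x₁ ≠ x₂)
    (hprod : x₃ * x₄ * (x₁ - x₂) ^ 2 = (x₁ * x₂ - L) ^ 2)
    (hsum : (x₃ + x₄) * (x₁ - x₂) ^ 2 =
      2 * x₁ * x₂ * (x₁ + x₂) + M * x₁ * x₂ + 2 * L * (x₁ + x₂))
    (hle : v.ord x₁ ≤ v.ord x₂) :
    (h6_clampD h (v.ord x₃) = |h6_clampD h (v.ord x₁) - h6_clampD h (v.ord x₂)| ∧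
      h6_clampD h (v.ord x₄) = min (h6_clampD h (v.ord x₁) + h6_clampD h (v.ord x₂))
        (2 * h - h6_clampD h (v.ord x₁) - h6_clampD h (v.ord x₂))) ∨
    (h6_clampD h (v.ord x₄) = |h6_clampD h (v.ord x₁) - h6_clampD h (v.ord x₂)| ∧
      h6_clampD h (v.ord x₃) = min (h6_clampD h (v.ord x₁) + h6_clampD h (v.ord x₂))
        (2 * h - h6_clampD h (v.ord x₁) - h6_clampD h (v.ord x₂))) := by
  have hd : x₁ - x₂ ≠ 0 := sub_ne_zero.mpr hne
  have hd2 : (x₁ - x₂) ^ 2 ≠ 0 := pow_ne_zero 2 hd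
  have hg0 : x₁ * x₂ - L ≠ 0 := by
    intro h0
    rw [h0] at hprod
    exact mul_ne_zero (mul_ne_zero h₃ h₄) hd2 (by simpa using hprod)
  have e1 : v.ord x₃ + v.ord x₄ + 2 * v.ord (x₁ - x₂) = 2 * v.ord (x₁ * x₂ - L) := by
    have := congrArg v.ord hprod
    rwa [ord_mul (mul_ne_zero h₃ h₄) hd2, ord_mul h₃ h₄, h6_ord_sq hd,
      h6_ord_sq hg0] at this
  have hx12 : v.ord (x₁ * x₂) = v.ord x₁ + v.ord x₂ := ord_mul h₁ h₂
  have he : v.ord x₁ ≤ v.ord (x₁ - x₂) :=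
    ((h6_ge_of_le le_rfl : v.Ge (v.ord x₁) x₁).sub (h6_ge_of_le hle)).le_ord hd
  have he_lt : v.ord x₁ < v.ord x₂ → v.ord (x₁ - x₂) = v.ord x₁ := by
    intro hlt
    have := (h6_ord_add_of_lt h₁ hlt ((h6_ge_of_le le_rfl : v.Ge (v.ord x₂) x₂).neg)).2
    rwa [← sub_eq_add_neg] at this
  have hT2 : v.ord (M * x₁ * x₂) = v.ord x₁ + v.ord x₂ := by
    rw [mul_assoc, ord_mul hM0 (mul_ne_zero h₁ h₂), hM, hx12]; ring
  have hT2ne : M * x₁ * x₂ ≠ 0 := mul_ne_zero (mul_ne_zero hM0 h₁) h₂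
  have hs12 : v.Ge (v.ord x₁) (x₁ + x₂) := (h6_ge_of_le le_rfl).add (h6_ge_of_le hle)
  have hT1 : v.Ge (2 * v.ord x₁ + v.ord x₂) (2 * x₁ * x₂ * (x₁ + x₂)) := by
    have : v.Ge (0 + v.ord x₁ + v.ord x₂ + v.ord x₁) (2 * x₁ * x₂ * (x₁ + x₂)) :=
      (((h6_ge_of_eq h2).mul (h6_ge_of_le le_rfl)).mul (h6_ge_of_le le_rfl)).mul hs12
    exact this.mono (by linarith)
  have hT3 : v.Ge (h + v.ord x₁) (2 * L * (x₁ + x₂)) := by
    have : v.Ge (0 + h + v.ord x₁) (2 * L * (x₁ + x₂)) :=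
      ((h6_ge_of_eq h2).mul (h6_ge_of_eq hL)).mul hs12
    exact this.mono (by linarith)
  have hS : ∀ t : ℚ, v.Ge (t + 2 * v.ord (x₁ - x₂))
      (2 * x₁ * x₂ * (x₁ + x₂) + M * x₁ * x₂ + 2 * L * (x₁ + x₂)) → v.Ge t (x₃ + x₄) := by
    intro t ht
    rcases eq_or_ne (x₃ + x₄) 0 with h0 | h0
    · exact Or.inl h0
    · refine Or.inr ?_
      have hN0 : 2 * x₁ * x₂ * (x₁ + x₂) + M * x₁ * x₂ + 2 * L * (x₁ + x₂) ≠ 0 := by
        rw [← hsum]; exact mul_ne_zero h0 hd2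
      have := ht.le_ord hN0
      rw [← hsum, ord_mul h0 hd2, h6_ord_sq hd] at this
      linarith
  have hS' : 0 < v.ord x₁ → v.ord x₂ < h →
      x₃ + x₄ ≠ 0 ∧ v.ord (x₃ + x₄) = v.ord x₁ + v.ord x₂ - 2 * v.ord (x₁ - x₂) := by
    intro hpos hlt
    have hy : v.Ge (min (2 * v.ord x₁ + v.ord x₂) (h + v.ord x₁))
        (2 * x₁ * x₂ * (x₁ + x₂) + 2 * L * (x₁ + x₂)) :=
      (hT1.mono (min_le_left _ _)).add (hT3.mono (min_le_right _ _))
    have hN := h6_ord_add_of_lt hT2ne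
      (by rw [hT2]; exact lt_min (by linarith) (by linarith)) hy
    have hNeq : M * x₁ * x₂ + (2 * x₁ * x₂ * (x₁ + x₂) + 2 * L * (x₁ + x₂)) =
        (x₃ + x₄) * (x₁ - x₂) ^ 2 := by rw [hsum]; ring
    rw [hNeq, hT2] at hN
    have h0 : x₃ + x₄ ≠ 0 := left_ne_zero_of_mul hN.1
    refine ⟨h0, ?_⟩
    have := hN.2
    rw [ord_mul h0 hd2, h6_ord_sq hd] at this
    linarith
  have hg_ge : v.Ge (min (v.ord x₁ + v.ord x₂) h) (x₁ * x₂ - L) :=
    ((h6_ge_of_eq hx12).mono (min_le_left _ _)).sub ((h6_ge_of_eq hL).mono (min_le_right _ _))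
  have hg_lt : v.ord x₁ + v.ord x₂ < h → v.ord (x₁ * x₂ - L) = v.ord x₁ + v.ord x₂ := by
    intro hlt
    have := (h6_ord_add_of_lt (mul_ne_zero h₁ h₂) (by rw [hx12]; exact hlt)
      ((h6_ge_of_eq hL).neg : v.Ge h (-L))).2
    rwa [← sub_eq_add_neg, hx12] at this
  have hg_gt : h < v.ord x₁ + v.ord x₂ → v.ord (x₁ * x₂ - L) = h := by
    intro hlt
    have := (h6_ord_add_of_lt' (neg_ne_zero.mpr hL0) (by rw [ord_neg L, hL]; exact hlt)
      (h6_ge_of_eq hx12 : v.Ge _ (x₁ * x₂))).2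
    rwa [← sub_eq_add_neg, ord_neg L, hL] at this
  rcases le_or_gt (v.ord x₁) 0 with hv1 | hv1
  · -- Case I: `x₁` is not in the node region
    have hD1 : h6_clampD h (v.ord x₁) = 0 := h6_clampD_of_nonpos hh.le hv1
    rcases le_or_gt (v.ord x₂) 0 with hv2 | hv2
    · -- I.a
      have hD2 : h6_clampD h (v.ord x₂) = 0 := h6_clampD_of_nonpos hh.le hv2
      have hg := hg_lt (by linarith)
      have hN : v.Ge (2 * v.ord x₁ + v.ord x₂)
          (2 * x₁ * x₂ * (x₁ + x₂) + M * x₁ * x₂ + 2 * L * (x₁ + x₂)) :=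
        (hT1.add ((h6_ge_of_eq hT2).mono (by linarith))).add (hT3.mono (by linarith))
      have hSge := hS (2 * v.ord x₁ + v.ord x₂ - 2 * v.ord (x₁ - x₂)) (hN.mono (by linarith))
      have h3 : v.ord x₃ ≤ 0 := by
        by_contra hc
        rw [not_le] at hc
        rcases h6_np_cases (v := v) h₃ h₄ with ⟨heq, -⟩ | ⟨hlt, hne', hord⟩ | ⟨hlt, hne', hord⟩
        · linarith
        · linarith
        · have := hSge.le_ord hne'
          linarith
      have h4 : v.ord x₄ ≤ 0 := by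
        by_contra hc
        rw [not_le] at hc
        rcases h6_np_cases (v := v) h₃ h₄ with ⟨heq, -⟩ | ⟨hlt, hne', hord⟩ | ⟨hlt, hne', hord⟩
        · linarith
        · have := hSge.le_ord hne'
          linarith
        · linarith
      left
      rw [hD1, hD2, h6_clampD_of_nonpos hh.le h3, h6_clampD_of_nonpos hh.le h4]
      exact h6_trop_goal le_rfl (by ring) (Or.inl ⟨by ring, by linarith⟩)
    · have hee := he_lt (by linarith)
      rcases lt_or_ge (v.ord x₁ + v.ord x₂) h with hlt | hge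
      · -- I.b / I.c with small sum
        have hg := hg_lt hlt
        have hN : v.Ge (2 * v.ord x₁ + v.ord x₂)
            (2 * x₁ * x₂ * (x₁ + x₂) + M * x₁ * x₂ + 2 * L * (x₁ + x₂)) :=
          (hT1.add ((h6_ge_of_eq hT2).mono (by linarith))).add (hT3.mono (by linarith))
        have hSge := hS (v.ord x₂) (hN.mono (by linarith))
        have h34 : v.ord x₃ = v.ord x₂ ∧ v.ord x₄ = v.ord x₂ := by
          rcases h6_np_cases (v := v) h₃ h₄ with ⟨heq, -⟩ | ⟨hlt', hne', hord⟩ | ⟨hlt', hne', hord⟩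
          · constructor <;> linarith
          · have := hSge.le_ord hne'
            exfalso; linarith
          · have := hSge.le_ord hne'
            exfalso; linarith
        left
        rw [hD1, h34.1, h34.2]
        have hb := h6_clampD_nonneg hh.le (v.ord x₂)
        have hb' := h6_clampD_le h (v.ord x₂)
        exact h6_trop_goal hb (by ring) (Or.inl ⟨by ring, by linarith⟩)
      · -- I.c with large sum
        have hv2h : h ≤ v.ord x₂ := by linarith
        have hD2 : h6_clampD h (v.ord x₂) = h := h6_clampD_of_ge hh.le hv2h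
        have hg : h ≤ v.ord (x₁ * x₂ - L) := (hg_ge.mono (le_min hge le_rfl)).le_ord hg0
        have hN : v.Ge (h + v.ord x₁)
            (2 * x₁ * x₂ * (x₁ + x₂) + M * x₁ * x₂ + 2 * L * (x₁ + x₂)) :=
          ((hT1.mono (by linarith)).add ((h6_ge_of_eq hT2).mono (by linarith))).add hT3
        have hSge := hS (h - v.ord x₁) (hN.mono (by linarith))
        have h34 : h ≤ v.ord x₃ ∧ h ≤ v.ord x₄ := by
          rcases h6_np_cases (v := v) h₃ h₄ with ⟨heq, -⟩ | ⟨hlt', hne', hord⟩ | ⟨hlt', hne', hord⟩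
          · constructor <;> linarith
          · have := hSge.le_ord hne'
            constructor <;> linarith
          · have := hSge.le_ord hne'
            constructor <;> linarith
        left
        rw [hD1, hD2, h6_clampD_of_ge hh.le h34.1, h6_clampD_of_ge hh.le h34.2]
        exact h6_trop_goal hh.le (by ring) (Or.inl ⟨by ring, by linarith⟩)
  · rcases lt_or_ge (v.ord x₁) h with hv1h | hv1h
    · -- Case II: `0 < ord x₁ < h`
      have hD1 : h6_clampD h (v.ord x₁) = v.ord x₁ := h6_clampD_of_mem hv1.le hv1h.le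
      rcases lt_or_ge (v.ord x₂) h with hv2h | hv2h
      · -- II.a / II.b
        have hD2 : h6_clampD h (v.ord x₂) = v.ord x₂ := h6_clampD_of_mem (by linarith) hv2h.le
        obtain ⟨hS0, hSord⟩ := hS' hv1 hv2h
        have hgmin : min (v.ord x₁ + v.ord x₂) h ≤ v.ord (x₁ * x₂ - L) := hg_ge.le_ord hg0
        have hDmin : h6_clampD h (v.ord x₁ + v.ord x₂ - 2 * v.ord (x₁ - x₂)) =
            v.ord x₂ - v.ord x₁ := by
          rcases hle.lt_or_eq with hlt | heq
          · rw [he_lt hlt]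
            have : v.ord x₁ + v.ord x₂ - 2 * v.ord x₁ = v.ord x₂ - v.ord x₁ := by ring
            rw [this]
            exact h6_clampD_of_mem (by linarith) (by linarith)
          · rw [h6_clampD_of_nonpos hh.le (by linarith)]; linarith
        have key : ∀ y₃ y₄ : K, y₃ ≠ 0 → y₄ ≠ 0 → v.ord y₃ < v.ord y₄ →
            v.ord y₃ = v.ord x₁ + v.ord x₂ - 2 * v.ord (x₁ - x₂) →
            v.ord y₃ + v.ord y₄ + 2 * v.ord (x₁ - x₂) = 2 * v.ord (x₁ * x₂ - L) →
            h6_clampD h (v.ord y₃) = |h6_clampD h (v.ord x₁) - h6_clampD h (v.ord x₂)| ∧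
              h6_clampD h (v.ord y₄) = min (h6_clampD h (v.ord x₁) + h6_clampD h (v.ord x₂))
                (2 * h - h6_clampD h (v.ord x₁) - h6_clampD h (v.ord x₂)) := by
          intro y₃ y₄ _ _ _ hy3 hy34
          rw [hD1, hD2, hy3, hDmin]
          rcases lt_trichotomy (v.ord x₁ + v.ord x₂) h with hlt | heq | hgt
          · have hg := hg_lt hlt
            have hy4 : v.ord y₄ = v.ord x₁ + v.ord x₂ := by linarith
            rw [hy4, h6_clampD_of_mem (by linarith) hlt.le]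
            exact h6_trop_goal hle rfl (Or.inl ⟨rfl, by linarith⟩)
          · have hg : h ≤ v.ord (x₁ * x₂ - L) := by
              rw [heq, min_self] at hgmin; exact hgmin
            have hy4 : h ≤ v.ord y₄ := by linarith
            rw [h6_clampD_of_ge hh.le hy4]
            exact h6_trop_goal hle rfl (Or.inl ⟨by linarith, by linarith⟩)
          · have hg := hg_gt hgt
            have hy4 : v.ord y₄ = 2 * h - v.ord x₁ - v.ord x₂ := by linarith
            rw [hy4, h6_clampD_of_mem (by linarith) (by linarith)]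
            exact h6_trop_goal hle rfl (Or.inr ⟨rfl, by linarith⟩)
        have hlow : v.ord x₂ < min (v.ord x₁ + v.ord x₂) h := lt_min (by linarith) hv2h
        rcases h6_np_cases (v := v) h₃ h₄ with ⟨heq, hge⟩ | ⟨hlt', hne', hord⟩ | ⟨hlt', hne', hord⟩
        · exfalso
          have := hge.le_ord hS0
          linarith
        · left
          exact key x₃ x₄ h₃ h₄ hlt' (by linarith) e1
        · right
          exact key x₄ x₃ h₄ h₃ hlt' (by linarith) (by linarith)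
      · -- II.c
        have hD2 : h6_clampD h (v.ord x₂) = h := h6_clampD_of_ge hh.le hv2h
        have hee := he_lt (by linarith)
        have hg := hg_gt (by linarith)
        have hN : v.Ge (h + v.ord x₁)
            (2 * x₁ * x₂ * (x₁ + x₂) + M * x₁ * x₂ + 2 * L * (x₁ + x₂)) :=
          ((hT1.mono (by linarith)).add ((h6_ge_of_eq hT2).mono (by linarith))).add hT3
        have hSge := hS (h - v.ord x₁) (hN.mono (by linarith))
        have h34 : v.ord x₃ = h - v.ord x₁ ∧ v.ord x₄ = h - v.ord x₁ := by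
          rcases h6_np_cases (v := v) h₃ h₄ with ⟨heq, -⟩ | ⟨hlt', hne', hord⟩ | ⟨hlt', hne', hord⟩
          · constructor <;> linarith
          · have := hSge.le_ord hne'
            exfalso; linarith
          · have := hSge.le_ord hne'
            exfalso; linarith
        left
        rw [hD1, hD2, h34.1, h34.2, h6_clampD_of_mem (by linarith) (by linarith)]
        exact h6_trop_goal hv1h.le rfl (Or.inr ⟨by ring, by linarith⟩)
    · -- Case III: both in the middle component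
      have hv2h : h ≤ v.ord x₂ := hv1h.trans hle
      have hD1 : h6_clampD h (v.ord x₁) = h := h6_clampD_of_ge hh.le hv1h
      have hD2 : h6_clampD h (v.ord x₂) = h := h6_clampD_of_ge hh.le hv2h
      have hg := hg_gt (by linarith)
      have hN : v.Ge (2 * h)
          (2 * x₁ * x₂ * (x₁ + x₂) + M * x₁ * x₂ + 2 * L * (x₁ + x₂)) :=
        ((hT1.mono (by linarith)).add ((h6_ge_of_eq hT2).mono (by linarith))).add
          (hT3.mono (by linarith))
      have hSge := hS (2 * h - 2 * v.ord (x₁ - x₂)) (hN.mono (by linarith))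
      have h3 : v.ord x₃ ≤ 0 := by
        by_contra hc
        rw [not_le] at hc
        rcases h6_np_cases (v := v) h₃ h₄ with ⟨heq, -⟩ | ⟨hlt, hne', hord⟩ | ⟨hlt, hne', hord⟩
        · linarith
        · linarith
        · have := hSge.le_ord hne'
          linarith
      have h4 : v.ord x₄ ≤ 0 := by
        by_contra hc
        rw [not_le] at hc
        rcases h6_np_cases (v := v) h₃ h₄ with ⟨heq, -⟩ | ⟨hlt, hne', hord⟩ | ⟨hlt, hne', hord⟩
        · linarith
        · have := hSge.le_ord hne'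
          linarith
        · linarith
      left
      rw [hD1, hD2, h6_clampD_of_nonpos hh.le h3, h6_clampD_of_nonpos hh.le h4]
      exact h6_trop_goal le_rfl (by ring) (Or.inr ⟨by ring, by linarith⟩)

/-- The tropical sum/difference law for the x-coordinates on a nodal model: if
`x₃, x₄` are the x-coordinates of `P₁ ± P₂`, then the unsigned components satisfy
`{D₃, D₄} = {|D₁ - D₂|, min (D₁ + D₂) (2h - D₁ - D₂)}`. -/
theorem h6_tropical (h2 : v.ord 2 = 0) {M L : K} (hM0 : M ≠ 0)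
    (hM : v.ord M = 0) (hL0 : L ≠ 0) {h : ℚ} (hL : v.ord L = h) (hh : 0 < h)
    {x₁ x₂ x₃ x₄ : K} (h₁ : x₁ ≠ 0) (h₂ : x₂ ≠ 0) (h₃ : x₃ ≠ 0) (h₄ : x₄ ≠ 0) (hne : x₁ ≠ x₂)
    (hprod : x₃ * x₄ * (x₁ - x₂) ^ 2 = (x₁ * x₂ - L) ^ 2)
    (hsum : (x₃ + x₄) * (x₁ - x₂) ^ 2 =
      2 * x₁ * x₂ * (x₁ + x₂) + M * x₁ * x₂ + 2 * L * (x₁ + x₂)) :
    (h6_clampD h (v.ord x₃) = |h6_clampD h (v.ord x₁) - h6_clampD h (v.ord x₂)| ∧
      h6_clampD h (v.ord x₄) = min (h6_clampD h (v.ord x₁) + h6_clampD h (v.ord x₂))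
        (2 * h - h6_clampD h (v.ord x₁) - h6_clampD h (v.ord x₂))) ∨
    (h6_clampD h (v.ord x₄) = |h6_clampD h (v.ord x₁) - h6_clampD h (v.ord x₂)| ∧
      h6_clampD h (v.ord x₃) = min (h6_clampD h (v.ord x₁) + h6_clampD h (v.ord x₂))
        (2 * h - h6_clampD h (v.ord x₁) - h6_clampD h (v.ord x₂))) := by
  rcases le_total (v.ord x₁) (v.ord x₂) with hle | hle
  · exact h6_tropical_aux h2 hM0 hM hL0 hL hh h₁ h₂ h₃ h₄ hne hprod hsum hle
  · have := h6_tropical_aux h2 hM0 hM hL0 hL hh h₂ h₁ h₃ h₄ hne.symm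
      (by linear_combination hprod) (by linear_combination hsum) hle
    rw [abs_sub_comm (h6_clampD h (v.ord x₂)), add_comm (h6_clampD h (v.ord x₂)),
      sub_right_comm (2 * h)] at this
    exact this

/-- The tropical duplication law. -/
theorem h6_tropical_double (h20 : (2 : K) ≠ 0) (h2 : v.ord 2 = 0) {M L : K} (hM0 : M ≠ 0)
    (hM : v.ord M = 0) (hL0 : L ≠ 0) {h : ℚ} (hL : v.ord L = h) (hh : 0 < h)
    {x₁ x₂ : K} (h₁ : x₁ ≠ 0) (h₂ : x₂ ≠ 0)
    (hdbl : x₂ * (x₁ * (4 * x₁ ^ 2 + M * x₁ + 4 * L)) = (x₁ ^ 2 - L) ^ 2)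
    (hpos : 0 < v.ord x₁) :
    h6_clampD h (v.ord x₂) =
      min (2 * h6_clampD h (v.ord x₁)) (2 * h - 2 * h6_clampD h (v.ord x₁)) := by
  have h40 : (4 : K) ≠ 0 := by
    have : (4 : K) = 2 * 2 := by norm_num
    rw [this]; exact mul_ne_zero h20 h20
  have h4 : v.ord (4 : K) = 0 := by
    have : (4 : K) = 2 * 2 := by norm_num
    rw [this, ord_mul h20 h20, h2]; norm_num
  have hsq : v.ord (x₁ ^ 2) = 2 * v.ord x₁ := h6_ord_sq h₁
  have hsq0 : x₁ ^ 2 ≠ 0 := pow_ne_zero 2 h₁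
  have hMx : v.ord (M * x₁) = v.ord x₁ := by rw [ord_mul hM0 h₁, hM]; ring
  have hMx0 : M * x₁ ≠ 0 := mul_ne_zero hM0 h₁
  have h4x : v.Ge (2 * v.ord x₁) (4 * x₁ ^ 2) := by
    have : v.Ge (0 + 2 * v.ord x₁) (4 * x₁ ^ 2) := (h6_ge_of_eq h4).mul (h6_ge_of_eq hsq)
    exact this.mono (by linarith)
  have h4L : v.Ge h (4 * L) := by
    have : v.Ge (0 + h) (4 * L) := (h6_ge_of_eq h4).mul (h6_ge_of_eq hL)
    exact this.mono (by linarith)
  -- the two factors are nonzero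
  have hB0 : x₁ ^ 2 - L ≠ 0 := by
    intro h0
    have hA0 : 4 * x₁ ^ 2 + M * x₁ + 4 * L = 0 := by
      rw [h0] at hdbl
      have : x₂ * (x₁ * (4 * x₁ ^ 2 + M * x₁ + 4 * L)) = 0 := by simpa using hdbl
      rcases mul_eq_zero.mp this with h' | h'
      · exact absurd h' h₂
      · exact (mul_eq_zero.mp h').resolve_left h₁
    -- then `M * x₁ = -8 * x₁ ^ 2`, of valuation `≥ 2 ord x₁ > ord x₁`
    have hcontra : M * x₁ = -(4 * x₁ ^ 2) + -(4 * x₁ ^ 2) := by
      linear_combination hA0 + 4 * h0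
    have hge : v.Ge (2 * v.ord x₁) (M * x₁) := by
      rw [hcontra]; exact h4x.neg.add h4x.neg
    have := hge.le_ord hMx0
    rw [hMx] at this
    linarith
  have hA0 : 4 * x₁ ^ 2 + M * x₁ + 4 * L ≠ 0 := by
    intro h0
    rw [h0] at hdbl
    exact hB0 (by simpa using hdbl.symm)
  have e1 : v.ord x₂ + (v.ord x₁ + v.ord (4 * x₁ ^ 2 + M * x₁ + 4 * L)) =
      2 * v.ord (x₁ ^ 2 - L) := by
    have := congrArg v.ord hdbl
    rwa [ord_mul h₂ (mul_ne_zero h₁ hA0), ord_mul h₁ hA0, h6_ord_sq hB0] at this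
  have hBge : v.Ge (min (2 * v.ord x₁) h) (x₁ ^ 2 - L) :=
    ((h6_ge_of_eq hsq).mono (min_le_left _ _)).sub ((h6_ge_of_eq hL).mono (min_le_right _ _))
  have hB_lt : 2 * v.ord x₁ < h → v.ord (x₁ ^ 2 - L) = 2 * v.ord x₁ := by
    intro hlt
    have := (h6_ord_add_of_lt hsq0 (by rw [hsq]; exact hlt) ((h6_ge_of_eq hL).neg : v.Ge h (-L))).2
    rwa [← sub_eq_add_neg, hsq] at this
  have hB_gt : h < 2 * v.ord x₁ → v.ord (x₁ ^ 2 - L) = h := by
    intro hlt
    have := (h6_ord_add_of_lt' (neg_ne_zero.mpr hL0) (by rw [ord_neg L, hL]; exact hlt)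
      (h6_ge_of_eq hsq : v.Ge _ (x₁ ^ 2))).2
    rwa [← sub_eq_add_neg, ord_neg L, hL] at this
  rcases lt_or_ge (v.ord x₁) h with hv | hv
  · have hD1 : h6_clampD h (v.ord x₁) = v.ord x₁ := h6_clampD_of_mem hpos.le hv.le
    have hA : v.ord (4 * x₁ ^ 2 + M * x₁ + 4 * L) = v.ord x₁ := by
      have hy : v.Ge (min (2 * v.ord x₁) h) (4 * x₁ ^ 2 + 4 * L) :=
        (h4x.mono (min_le_left _ _)).add (h4L.mono (min_le_right _ _))
      have := (h6_ord_add_of_lt hMx0 (by rw [hMx]; exact lt_min (by linarith) hv) hy).2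
      have heq : M * x₁ + (4 * x₁ ^ 2 + 4 * L) = 4 * x₁ ^ 2 + M * x₁ + 4 * L := by ring
      rw [heq, hMx] at this
      exact this
    rw [hD1]
    rcases lt_trichotomy (2 * v.ord x₁) h with hlt | heq | hgt
    · have := hB_lt hlt
      have hx2 : v.ord x₂ = 2 * v.ord x₁ := by linarith
      rw [hx2, h6_clampD_of_mem (by linarith) hlt.le, min_eq_left (by linarith)]
    · have hB : h ≤ v.ord (x₁ ^ 2 - L) := by
        have := hBge.le_ord hB0
        rwa [heq, min_self] at this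
      have hx2 : h ≤ v.ord x₂ := by linarith
      rw [h6_clampD_of_ge hh.le hx2, min_eq_left (by linarith)]
      linarith
    · have := hB_gt hgt
      have hx2 : v.ord x₂ = 2 * h - 2 * v.ord x₁ := by linarith
      rw [hx2, h6_clampD_of_mem (by linarith) (by linarith), min_eq_right (by linarith)]
  · have hD1 : h6_clampD h (v.ord x₁) = h := h6_clampD_of_ge hh.le hv
    have hA : h ≤ v.ord (4 * x₁ ^ 2 + M * x₁ + 4 * L) :=
      (((h4x.mono (by linarith)).add ((h6_ge_of_eq hMx).mono hv)).add h4L).le_ord hA0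
    have := hB_gt (by linarith)
    have hx2 : v.ord x₂ ≤ 0 := by linarith
    rw [hD1, h6_clampD_of_nonpos hh.le hx2, min_eq_right (by linarith)]
    ring

end OrdFn

section Blueprint

variable {K : Type*} [Field K]

open OrdFn

private lemma h6_params (v : OrdFn K) {A B : K} {h : ℚ}
    (hA : v.HasOrd A h) (hh : 0 < h) (hB : v.HasOrd B 0) (h2 : v.HasOrd (2 : K) 0) :
    v.HasOrd (4 * (B - A)) 0 ∧ v.HasOrd (-(A * B)) h := by
  have h4 : v.HasOrd (4 : K) 0 := by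
    have h22 := h2.mul h2
    have e : (2 : K) * 2 = 4 := by norm_num
    rw [e] at h22
    exact h22.congr (by norm_num)
  have hBA : v.HasOrd (B - A) 0 := hB.sub_gt (hA.gt hh)
  exact ⟨(h4.mul hBA).congr (by norm_num), ((hA.mul hB).neg).congr (by ring)⟩

set_option linter.unusedVariables false in
/-- **T4a.** Valuations of the two roots of the "addition quadratic" (Newton polygon). -/
theorem key_quadratic (v : OrdFn K) {A B x₁ x₂ rp rm : K} {h : ℚ}
    (hA : v.HasOrd A h) (hh : 0 < h) (hB : v.HasOrd B 0) (h2 : v.HasOrd (2 : K) 0)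
    (hx₁ : x₁ ≠ 0) (hx₂ : x₂ ≠ 0) (hne : x₁ ≠ x₂) (hrp : rp ≠ 0) (hrm : rm ≠ 0)
    (hsum : (rp + rm) * (x₁ - x₂) ^ 2 =
      2 * ((x₁ + x₂) * (x₁ * x₂ - A * B) + 2 * (B - A) * x₁ * x₂))
    (hprod : rp * rm * (x₁ - x₂) ^ 2 = (x₁ * x₂ + A * B) ^ 2)
    (hpos : 0 < v.ord x₂) :
    (v.D h rp = |v.D h x₁ - v.D h x₂| ∧
        v.D h rm = min (v.D h x₁ + v.D h x₂) (2 * h - v.D h x₁ - v.D h x₂)) ∨
      (v.D h rm = |v.D h x₁ - v.D h x₂| ∧
        v.D h rp = min (v.D h x₁ + v.D h x₂) (2 * h - v.D h x₁ - v.D h x₂)) := by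
  obtain ⟨hM, hL⟩ := h6_params v hA hh hB h2
  have key := h6_tropical (v := v) h2.2 hM.1 hM.2 hL.1 hL.2 hh hx₁ hx₂ hrp hrm hne
    (by linear_combination hprod) (by linear_combination hsum)
  simpa only [h6_D_eq] using key

/-- **T4b** (same statement as the Blueprint's `key_double`). -/
theorem h6_key_double (v : OrdFn K) {A B x r : K} {h : ℚ}
    (hA : v.HasOrd A h) (hh : 0 < h) (hB : v.HasOrd B 0) (h2 : v.HasOrd (2 : K) 0)
    (hx : x * (x - A) * (x + B) ≠ 0) (hr : r ≠ 0)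
    (hdbl : r * (4 * (x * (x - A) * (x + B))) = (x ^ 2 + A * B) ^ 2)
    (hpos : 0 < v.ord x) :
    v.D h r = min (2 * v.D h x) (2 * h - 2 * v.D h x) := by
  obtain ⟨hM, hL⟩ := h6_params v hA hh hB h2
  have hx0 : x ≠ 0 := left_ne_zero_of_mul (left_ne_zero_of_mul hx)
  have key := h6_tropical_double (v := v) h2.1 h2.2 hM.1 hM.2 hL.1 hL.2 hh hx0 hr
    (by linear_combination hdbl) hpos
  simpa only [h6_D_eq] using key

end Blueprint

end Fermat.Agent.S05

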