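/-
S05, task T5 (helper6, backup implementation): a point of odd prime order `p` reducing to the
node has `ord X ∈ (2h/p) ℤ` and `ord X < h`.  Uses `key_quadratic` / `h6_key_double`.
-/
import Fermat.Agent.S05.KeyQuadratic

set_option autoImplicit false

namespace Fermat.Agent.S05

/-- `r ∈ [0, h]` is the distance from `t` to the lattice `2hℤ`. -/
def H6Fold (h t r : ℚ) : Prop :=
  0 ≤ r ∧ r ≤ h ∧ ∃ n : ℤ, t = 2 * h * n + r ∨ t = 2 * h * n - r

private lemma h6_int_zero {h : ℚ} (hh : 0 < h) {m : ℤ} {a : ℚ} (ha : a = 2 * h * m)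
    (h1 : -(2 * h) < a) (h2 : a < 2 * h) : m = 0 := by
  have hm1 : (m : ℚ) < 1 := by
    by_contra hc
    rw [not_lt] at hc
    nlinarith
  have hm2 : (-1 : ℚ) < m := by
    by_contra hc
    rw [not_lt] at hc
    nlinarith
  have h1' : m < 1 := by exact_mod_cast hm1
  have h2' : -1 < m := by exact_mod_cast hm2
  omega

private lemma h6_int_cases {h : ℚ} (hh : 0 < h) {m : ℤ} {a : ℚ} (ha : a = 2 * h * m)
    (h1 : 0 ≤ a) (h2 : a ≤ 2 * h) : m = 0 ∨ m = 1 := by
  have hm1 : (m : ℚ) < 2 := by
    by_contra hc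
    rw [not_lt] at hc
    nlinarith
  have hm2 : (-1 : ℚ) < m := by
    by_contra hc
    rw [not_lt] at hc
    nlinarith
  have h1' : m < 2 := by exact_mod_cast hm1
  have h2' : -1 < m := by exact_mod_cast hm2
  omega

lemma H6Fold.unique {h t r r' : ℚ} (hh : 0 < h) (hr : H6Fold h t r) (hr' : H6Fold h t r') :
    r = r' := by
  obtain ⟨h0, h1, n, hn⟩ := hr
  obtain ⟨h0', h1', n', hn'⟩ := hr'
  rcases hn with hn | hn <;> rcases hn' with hn' | hn'
  · have hm : r - r' = 2 * h * ((n' - n : ℤ) : ℚ) := by push_cast; linarith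
    have := h6_int_zero hh hm (by linarith) (by linarith)
    rw [this] at hm
    simp at hm
    linarith
  · have hm : r + r' = 2 * h * ((n' - n : ℤ) : ℚ) := by push_cast; linarith
    rcases h6_int_cases hh hm (by linarith) (by linarith) with h' | h'
    · rw [h'] at hm
      simp at hm
      linarith
    · rw [h'] at hm
      simp at hm
      linarith
  · have hm : r + r' = 2 * h * ((n - n' : ℤ) : ℚ) := by push_cast; linarith
    rcases h6_int_cases hh hm (by linarith) (by linarith) with h' | h'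
    · rw [h'] at hm
      simp at hm
      linarith
    · rw [h'] at hm
      simp at hm
      linarith
  · have hm : r - r' = 2 * h * ((n - n' : ℤ) : ℚ) := by push_cast; linarith
    have := h6_int_zero hh hm (by linarith) (by linarith)
    rw [this] at hm
    simp at hm
    linarith

lemma H6Fold.abs_sub {h r c : ℚ} (h0 : 0 ≤ r) (h1 : r ≤ h) (hc0 : 0 ≤ c) (hc1 : c ≤ h) :
    0 ≤ |r - c| ∧ |r - c| ≤ h :=
  ⟨abs_nonneg _, abs_le.mpr ⟨by linarith, by linarith⟩⟩

lemma H6Fold.min_add {h r c : ℚ} (h0 : 0 ≤ r) (h1 : r ≤ h) (hc0 : 0 ≤ c) (hc1 : c ≤ h) :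
    0 ≤ min (r + c) (2 * h - r - c) ∧ min (r + c) (2 * h - r - c) ≤ h := by
  refine ⟨le_min (by linarith) (by linarith), ?_⟩
  rcases le_total (r + c) h with hle | hle
  · exact (min_le_left _ _).trans hle
  · exact (min_le_right _ _).trans (by linarith)

/-- One step of the folding recurrence. -/
lemma H6Fold.step {h t r c : ℚ} (hc0 : 0 ≤ c) (hc1 : c ≤ h) (hr : H6Fold h t r) :
    (H6Fold h (t + c) (min (r + c) (2 * h - r - c)) ∧ H6Fold h (t - c) |r - c|) ∨
      (H6Fold h (t + c) |r - c| ∧ H6Fold h (t - c) (min (r + c) (2 * h - r - c))) := by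
  obtain ⟨h0, h1, n, hn⟩ := hr
  obtain ⟨ha0, ha1⟩ := H6Fold.abs_sub h0 h1 hc0 hc1
  obtain ⟨hm0, hm1⟩ := H6Fold.min_add h0 h1 hc0 hc1
  rcases hn with hn | hn
  · left
    constructor
    · refine ⟨hm0, hm1, ?_⟩
      rcases le_total (r + c) (2 * h - r - c) with hle | hle
      · exact ⟨n, Or.inl (by rw [min_eq_left hle]; linarith)⟩
      · exact ⟨n + 1, Or.inr (by rw [min_eq_right hle]; push_cast; linarith)⟩
    · refine ⟨ha0, ha1, n, ?_⟩
      rcases le_total c r with hle | hle
      · exact Or.inl (by rw [abs_of_nonneg (by linarith)]; linarith)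
      · exact Or.inr (by rw [abs_of_nonpos (by linarith)]; linarith)
  · right
    constructor
    · refine ⟨ha0, ha1, n, ?_⟩
      rcases le_total c r with hle | hle
      · exact Or.inr (by rw [abs_of_nonneg (by linarith)]; linarith)
      · exact Or.inl (by rw [abs_of_nonpos (by linarith)]; linarith)
    · refine ⟨hm0, hm1, ?_⟩
      rcases le_total (r + c) (2 * h - r - c) with hle | hle
      · exact ⟨n, Or.inr (by rw [min_eq_left hle]; linarith)⟩
      · exact ⟨n - 1, Or.inl (by rw [min_eq_right hle]; push_cast; linarith)⟩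

section Chain

variable {K : Type*} [Field K]

open OrdFn

/-- **T5.** (helper6 version; same statement as the Blueprint's `MultSeq.ord_pos_integral`.) -/
theorem h6_ord_pos_integral (v : OrdFn K) {A B : K} {p : ℕ} {X : ℕ → K} {h : ℚ}
    (hM : MultSeq A B p X) (hpp : p.Prime) (hp5 : 5 ≤ p)
    (hA : v.HasOrd A h) (hh : 0 < h) (hB : v.HasOrd B 0) (h2 : v.HasOrd (2 : K) 0)
    (hpos : 0 < v.ord (X 1)) :
    v.ord (X 1) < h ∧ ∃ j : ℤ, (p : ℚ) * v.ord (X 1) = j * (2 * h) := by
  have hX0 : ∀ k, 1 ≤ k → k ≤ p - 1 → X k ≠ 0 := fun k h1 h2' =>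
    left_ne_zero_of_mul (left_ne_zero_of_mul (hM.nondeg k h1 h2'))
  obtain ⟨c, hc⟩ : ∃ c : ℚ, c = v.D h (X 1) := ⟨_, rfl⟩
  have hc0 : 0 < c := by
    rw [hc, h6_D_eq]
    unfold h6_clampD
    exact lt_min (lt_max_of_lt_left hpos) hh
  have hc1 : c ≤ h := by rw [hc, h6_D_eq]; exact h6_clampD_le _ _
  have hD0 : ∀ y : K, 0 ≤ v.D h y := fun y => by
    rw [h6_D_eq]; exact h6_clampD_nonneg hh.le _
  have hD1 : ∀ y : K, v.D h y ≤ h := fun y => by
    rw [h6_D_eq]; exact h6_clampD_le _ _
  -- the chain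
  have chain : ∀ n : ℕ, (n + 1 ≤ p - 1 → H6Fold h ((n + 1 : ℕ) * c) (v.D h (X (n + 1)))) ∧
      (n + 2 ≤ p - 1 → H6Fold h ((n + 2 : ℕ) * c) (v.D h (X (n + 2)))) := by
    intro n
    induction n with
    | zero =>
      refine ⟨fun _ => ?_, fun _ => ?_⟩
      · rw [zero_add, ← hc]
        exact ⟨hc0.le, hc1, 0, Or.inl (by push_cast; ring)⟩
      have hd := h6_key_double v hA hh hB h2 (hM.nondeg 1 le_rfl (by omega))
        (hX0 2 (by omega) (by omega)) hM.dbl hpos
      obtain ⟨hm0, hm1⟩ := H6Fold.min_add hc0.le hc1 hc0.le hc1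
      have hd' : v.D h (X 2) = min (c + c) (2 * h - c - c) := by
        rw [hd, ← hc]; congr 1 <;> ring
      rw [zero_add, hd']
      refine ⟨hm0, hm1, ?_⟩
      rcases le_total (c + c) (2 * h - c - c) with hle | hle
      · exact ⟨0, Or.inl (by rw [min_eq_left hle]; push_cast; ring)⟩
      · exact ⟨1, Or.inr (by rw [min_eq_right hle]; push_cast; ring)⟩
    | succ n ih =>
      refine ⟨fun hn => ih.2 hn, fun hn => ?_⟩
      have hk1 := ih.1 (by omega)
      have hk2 := ih.2 (by omega)
      have hq := key_quadratic v hA hh hB h2 (hX0 (n + 2) (by omega) (by omega))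
        (hX0 1 le_rfl (by omega)) (hM.ne_one (n + 2) (by omega) (by omega))
        (hX0 (n + 2 + 1) (by omega) (by omega)) (hX0 (n + 2 - 1) (by omega) (by omega))
        (hM.sum (n + 2) (by omega) (by omega)) (hM.prod (n + 2) (by omega) (by omega)) hpos
      have e3 : n + 2 - 1 = n + 1 := by omega
      have e4 : n + 2 + 1 = n + 1 + 2 := by omega
      rw [e3, e4, ← hc] at hq
      have hstep := H6Fold.step hc0.le hc1 hk2
      have et1 : ((n + 2 : ℕ) : ℚ) * c + c = ((n + 1 + 2 : ℕ) : ℚ) * c := by push_cast; ring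
      have et2 : ((n + 2 : ℕ) : ℚ) * c - c = ((n + 1 : ℕ) : ℚ) * c := by push_cast; ring
      rw [et1, et2] at hstep
      rcases hstep with ⟨hs1, hs2⟩ | ⟨hs1, hs2⟩ <;> rcases hq with ⟨hq1, hq2⟩ | ⟨hq1, hq2⟩
      · -- fold(k+1) = min, fold(k-1) = abs; D(k+1) = abs, D(k-1) = min
        have := H6Fold.unique hh hk1 hs2
        rw [hq1, ← this, hq2]; exact hs1
      · rw [hq2]; exact hs1
      · rw [hq1]; exact hs1
      · have := H6Fold.unique hh hk1 hs2
        rw [hq2, ← this, hq1]; exact hs1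
  have hp1 : p - 1 = (p - 2) + 1 := by omega
  have hpm1 : H6Fold h ((p - 1 : ℕ) * c) c := by
    have := (chain (p - 2)).1 (by omega)
    rw [← hp1, hM.symm1, ← hc] at this
    exact this
  have hp2 : p - 2 = (p - 3) + 1 := by omega
  have hpm2 : H6Fold h ((p - 2 : ℕ) * c) (v.D h (X 2)) := by
    have := (chain (p - 3)).1 (by omega)
    rw [← hp2, hM.symm2] at this
    exact this
  have h2c : H6Fold h ((2 : ℕ) * c) (v.D h (X 2)) := by
    have := (chain 0).2 (by omega)
    simpa using this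
  have hodd : Odd p := hpp.odd_of_ne_two (by omega)
  have hcast1 : ((p - 1 : ℕ) : ℚ) = (p : ℚ) - 1 := by
    rw [Nat.cast_sub (by omega)]; simp
  have hcast2 : ((p - 2 : ℕ) : ℚ) = (p : ℚ) - 2 := by
    rw [Nat.cast_sub (by omega)]; simp
  -- `p * c ∈ 2hℤ`
  have hmain : ∃ j : ℤ, (p : ℚ) * c = j * (2 * h) := by
    obtain ⟨-, -, n, hn⟩ := hpm1
    rw [hcast1] at hn
    rcases hn with hn | hn
    · -- `(p - 2) c = 2 h n`
      exfalso
      have h0 : H6Fold h ((p - 2 : ℕ) * c) 0 :=
        ⟨le_rfl, hh.le, n, Or.inl (by rw [hcast2]; linarith)⟩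
      have hd2 : v.D h (X 2) = 0 := H6Fold.unique hh hpm2 h0
      rw [hd2] at h2c
      obtain ⟨-, -, m, hm⟩ := h2c
      have hcm : c = h * m := by
        rcases hm with hm | hm <;> · push_cast at hm; linarith
      have hm1 : m = 1 := by
        have h1 : (0 : ℚ) < m := by
          by_contra hc'
          rw [not_lt] at hc'
          nlinarith
        have h2' : (m : ℚ) ≤ 1 := by
          by_contra hc'
          rw [not_le] at hc'
          nlinarith
        have h1' : 0 < m := by exact_mod_cast h1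
        have h2'' : m ≤ 1 := by exact_mod_cast h2'
        omega
      rw [hm1] at hcm
      have hch : c = h := by simpa using hcm
      rw [hch] at hn
      have hpn : (p : ℚ) - 2 = 2 * n := by
        have : ((p : ℚ) - 2 - 2 * n) * h = 0 := by linarith
        rcases mul_eq_zero.mp this with h' | h'
        · linarith
        · exact absurd h' hh.ne'
      have hpn' : (p : ℤ) = 2 * n + 2 := by
        have : ((p : ℤ) : ℚ) = ((2 * n + 2 : ℤ) : ℚ) := by push_cast; linarith
        exact_mod_cast this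
      obtain ⟨k, hk⟩ := hodd
      omega
    · exact ⟨n, by linarith⟩
  -- `c < h`
  have hclt : c < h := by
    rcases hc1.lt_or_eq with hlt | heq
    · exact hlt
    · exfalso
      obtain ⟨j, hj⟩ := hmain
      rw [heq] at hj
      have hpj : (p : ℚ) = 2 * j := by
        have : ((p : ℚ) - 2 * j) * h = 0 := by linarith
        rcases mul_eq_zero.mp this with h' | h'
        · linarith
        · exact absurd h' hh.ne'
      have hpj' : (p : ℤ) = 2 * j := by
        have : ((p : ℤ) : ℚ) = ((2 * j : ℤ) : ℚ) := by push_cast; linarith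
        exact_mod_cast this
      obtain ⟨k, hk⟩ := hodd
      omega
  -- hence `c = ord (X 1)`
  have hcord : c = v.ord (X 1) := by
    have hle : v.ord (X 1) < h := by
      by_contra hge
      rw [not_lt] at hge
      have : c = h := by rw [hc, h6_D_eq]; exact h6_clampD_of_ge hh.le hge
      linarith
    rw [hc, h6_D_eq]; exact h6_clampD_of_mem hpos.le hle.le
  rw [← hcord]
  exact ⟨hclt, hmain⟩

end Chain

end Fermat.Agent.S05
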