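/-
S05, task T5: a point of odd prime order `p` reducing to the node has `ord X ∈ (2h/p) ℤ`,
`ord X < h` (proved by helper6 in `Component6.lean`; re-exported under the blueprint name).
-/
import Fermat.Agent.S05.Component6

set_option autoImplicit false

namespace Fermat.Agent.S05

theorem MultSeq.ord_pos_integral {K : Type*} [Field K] (v : OrdFn K) {A B : K} {p : ℕ}
    {X : ℕ → K} {h : ℚ}
    (hM : MultSeq A B p X) (hpp : p.Prime) (hp5 : 5 ≤ p)
    (hA : v.HasOrd A h) (hh : 0 < h) (hB : v.HasOrd B 0) (h2 : v.HasOrd (2 : K) 0)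
    (hpos : 0 < v.ord (X 1)) :
    v.ord (X 1) < h ∧ ∃ j : ℤ, (p : ℚ) * v.ord (X 1) = j * (2 * h) :=
  h6_ord_pos_integral v hM hpp hp5 hA hh hB h2 hpos

end Fermat.Agent.S05
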