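/-
S05 task T6c: translating the node to `X = 0`.
If `e` is a root of `X (X - A) (X + B)` and `T (T - A') (T + B')` is the translated cubic
(`T = X - e`), then a `MultSeq` for `(A, B)` translates to a `MultSeq` for `(A', B')`.
Pure algebra.
-/
import Fermat.Agent.S05.Defs

set_option autoImplicit false

namespace Fermat.Agent.S05

section Abstract
variable {K : Type*} [Field K]

theorem MultSeq.shift {A B A' B' e : K} {p : ℕ} {X : ℕ → K} (hM : MultSeq A B p X)
    (h1 : B' - A' = B - A + 3 * e) (h2 : -(A' * B') = 3 * e ^ 2 + 2 * e * (B - A) - A * B)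
    (h3 : e * (e - A) * (e + B) = 0) :
    MultSeq A' B' p (fun k => X k - e) := by
  have hγ : A' * B' = -(3 * e ^ 2 + 2 * e * (B - A) - A * B) := by linear_combination -h2
  have hcubic : ∀ x : K, (x - e) * (x - e - A') * (x - e + B') = x * (x - A) * (x + B) := by
    intro x
    linear_combination (x - e) ^ 2 * h1 - (x - e) * hγ - h3
  refine ⟨?_, ?_, ?_, ?_, ?_, ?_, ?_⟩
  · intro k hk1 hk2
    show (X k - e) * (X k - e - A') * (X k - e + B') ≠ 0
    rw [hcubic]
    exact hM.nondeg k hk1 hk2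
  · intro k hk1 hk2 h
    exact hM.ne_one k hk1 hk2 (sub_left_injective h)
  · show (X 2 - e) * (4 * ((X 1 - e) * (X 1 - e - A') * (X 1 - e + B'))) =
      ((X 1 - e) ^ 2 + A' * B') ^ 2
    rw [hcubic]
    linear_combination hM.dbl - (8 * X 1 + 4 * (e + (B - A))) * h3 -
      (A' * B' + -(3 * e ^ 2 + 2 * e * (B - A) - A * B) + 2 * (X 1 - e) ^ 2) * hγ
  · intro k hk1 hk2
    show (X (k + 1) - e + (X (k - 1) - e)) * (X k - e - (X 1 - e)) ^ 2 =
      2 * ((X k - e + (X 1 - e)) * ((X k - e) * (X 1 - e) - A' * B') +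
        2 * (B' - A') * (X k - e) * (X 1 - e))
    linear_combination hM.sum k hk1 hk2 + 4 * h3 + 2 * (X k + X 1 - 2 * e) * hγ -
      4 * ((X k - e) * (X 1 - e)) * h1
  · intro k hk1 hk2
    show (X (k + 1) - e) * (X (k - 1) - e) * (X k - e - (X 1 - e)) ^ 2 =
      ((X k - e) * (X 1 - e) + A' * B') ^ 2
    linear_combination hM.prod k hk1 hk2 - e * hM.sum k hk1 hk2 -
      4 * (X k + X 1 + e + (B - A)) * h3 -
      (A' * B' + -(3 * e ^ 2 + 2 * e * (B - A) - A * B) + 2 * ((X k - e) * (X 1 - e))) * hγ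
  · show X (p - 1) - e = X 1 - e
    rw [hM.symm1]
  · show X (p - 2) - e = X 2 - e
    rw [hM.symm2]

end Abstract

end Fermat.Agent.S05
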