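import Fermat.Agent.S05.CertMultAux
import Fermat.Agent.S05.Component
import Fermat.Agent.S05.Shift

/-!
# S05 — task T6e (owner: helper72): congruence certificate in the multiplicative case
-/

set_option autoImplicit false

namespace Fermat.Agent.S05

variable {K : Type*} [Field K]

theorem cert_mult (v : OrdFn K) {A B : K} {p : ℕ} {X : ℕ → K} (hM : MultSeq A B p X)
    (hpp : p.Prime) (hp5 : 5 ≤ p) (h2 : v.HasOrd (2 : K) 0) (hA : v.Ge 0 A) (hB : v.Ge 0 B)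
    (σ : K →+* K) (hσres : ∀ x, v.Ge 0 x → v.Gt 0 (σ x - x))
    (π : K) (hπ : v.HasOrd π 1) (hσπ : σ π = π)
    {e A' B' : K} {h₀ : ℕ} (hσe : σ e = e) (he : v.Ge 0 e) (hh₀ : 0 < h₀)
    (hA' : v.HasOrd A' ((p : ℚ) * h₀)) (hB' : v.HasOrd B' 0)
    (h1 : B' - A' = B - A + 3 * e) (h2' : -(A' * B') = 3 * e ^ 2 + 2 * e * (B - A) - A * B)
    (h3 : e * (e - A) * (e + B) = 0)
    (hX : v.Ge 0 (X 1)) {Y : K} (hcurve : Y ^ 2 = X 1 * (X 1 - A) * (X 1 + B)) :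
    Cert v A B (X 1) Y (σ (X 1)) (σ Y) := by
  have hM' : MultSeq A' B' p (fun k => X k - e) := hM.shift h1 h2' h3
  have hp0 : 0 < p := by omega
  have hh : (0 : ℚ) < (p : ℚ) * h₀ := by positivity
  refine h72_cert_aux v hp0 σ hσres π hπ hσπ hσe he hh₀ hA' hB' h1 h2' h3 hX hcurve ?_ ?_
  · exact hM'.nondeg 1 le_rfl (by omega)
  · intro hpos
    exact hM'.ord_pos_integral v hpp hp5 hA' hh hB' h2 hpos

end Fermat.Agent.S05
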