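/-
S05 / T7a : arithmetic of the Frey package at an odd prime `q ≠ p`
(owner: helper50).  Statements exactly as in the S05 blueprint.
-/
import Fermat.Agent.S05.Defs

set_option autoImplicit false

namespace Fermat.Agent.S05

/-- `padicValInt` of a power. -/
theorem h50_padicValInt_pow (q : ℕ) [Fact q.Prime] (z : ℤ) (n : ℕ) :
    padicValInt q (z ^ n) = n * padicValInt q z := by
  unfold padicValInt
  rw [Int.natAbs_pow, padicValNat.pow]

/-- a prime cannot divide two coprime integers. -/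
theorem h50_not_dvd_of_gcd_eq_one {q : ℕ} (hq : q.Prime) {x y : ℤ} (h : gcd x y = 1)
    (hx : (q : ℤ) ∣ x) : ¬ (q : ℤ) ∣ y := by
  intro hy
  have h1 : (q : ℤ) ∣ gcd x y := dvd_gcd hx hy
  rw [h] at h1
  have h2 : (q : ℤ) ≤ 1 := Int.le_of_dvd one_pos h1
  have h3 := hq.two_le
  omega

/-- positivity of the `q`-adic valuation of a nonzero multiple of `q`. -/
theorem h50_padicValInt_pos {q : ℕ} [hq : Fact q.Prime] {z : ℤ} (hz : z ≠ 0)
    (h : (q : ℤ) ∣ z) : 0 < padicValInt q z := by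
  rcases Nat.eq_zero_or_pos (padicValInt q z) with h0 | h0
  · exfalso
    rcases padicValInt.eq_zero_iff.mp h0 with h1 | h1 | h1
    · exact hq.out.one_lt.ne' h1
    · exact hz h1
    · exact h1 h
  · exact h0

/-- order of the `p`-th power of an integer prime to `q`. -/
theorem h50_hasOrd_pow_of_not_dvd {q : ℕ} [hq : Fact q.Prime] {K : Type*} [Field K]
    (v : OrdFn K) (hv : ∀ n : ℤ, n ≠ 0 → v.HasOrd (n : K) (padicValInt q n)) {z : ℤ}
    (hz : z ≠ 0) (h : ¬ (q : ℤ) ∣ z) (n : ℕ) : v.HasOrd ((z ^ n : ℤ) : K) 0 := by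
  have h1 := hv (z ^ n) (pow_ne_zero n hz)
  have h2 : ¬ (q : ℤ) ∣ z ^ n := fun hd =>
    h ((Nat.prime_iff_prime_int.mp hq.out).dvd_of_dvd_pow hd)
  have h3 : padicValInt q (z ^ n) = 0 := padicValInt.eq_zero_of_not_dvd h2
  rw [h3] at h1
  simpa using h1

/-- order of the `p`-th power of a nonzero multiple of `q`. -/
theorem h50_hasOrd_pow_of_dvd {q : ℕ} [Fact q.Prime] {K : Type*} [Field K] (v : OrdFn K)
    (hv : ∀ n : ℤ, n ≠ 0 → v.HasOrd (n : K) (padicValInt q n)) {z : ℤ} (hz : z ≠ 0) (n : ℕ) :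
    v.HasOrd ((z ^ n : ℤ) : K) ((n : ℚ) * (padicValInt q z : ℕ)) := by
  have h1 := hv (z ^ n) (pow_ne_zero n hz)
  rw [h50_padicValInt_pow q z n] at h1
  simpa using h1

set_option linter.unusedVariables false in
theorem frey_hred (P : FreyPackage) {q : ℕ} (hq : q.Prime) (hq2 : q ≠ 2)
    {K : Type*} [Field K] [CharZero K] (v : OrdFn K)
    (hv : ∀ n : ℤ, n ≠ 0 → v.HasOrd (n : K) (padicValInt q n)) (σ : K →+* K) :
    (v.HasOrd ((P.a ^ P.p : ℤ) : K) 0 ∧ v.HasOrd ((P.b ^ P.p : ℤ) : K) 0 ∧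
        v.HasOrd (((P.a ^ P.p : ℤ) : K) + ((P.b ^ P.p : ℤ) : K)) 0) ∨
      ∃ (e A' B' : K) (h₀ : ℕ), σ e = e ∧ v.Ge 0 e ∧ 0 < h₀ ∧
        v.HasOrd A' ((P.p : ℚ) * h₀) ∧ v.HasOrd B' 0 ∧
        B' - A' = ((P.b ^ P.p : ℤ) : K) - ((P.a ^ P.p : ℤ) : K) + 3 * e ∧
        -(A' * B') = 3 * e ^ 2 + 2 * e * (((P.b ^ P.p : ℤ) : K) - ((P.a ^ P.p : ℤ) : K)) -
          ((P.a ^ P.p : ℤ) : K) * ((P.b ^ P.p : ℤ) : K) ∧
        e * (e - ((P.a ^ P.p : ℤ) : K)) * (e + ((P.b ^ P.p : ℤ) : K)) = 0 := by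
  have : Fact q.Prime := ⟨hq⟩
  have hsum : ((P.a ^ P.p : ℤ) : K) + ((P.b ^ P.p : ℤ) : K) = ((P.c ^ P.p : ℤ) : K) := by
    rw [← Int.cast_add, P.hFLT]
  by_cases ha : (q : ℤ) ∣ P.a
  · -- `q ∣ a`
    right
    have hb : ¬ (q : ℤ) ∣ P.b := h50_not_dvd_of_gcd_eq_one hq P.hgcdab ha
    refine ⟨0, ((P.a ^ P.p : ℤ) : K), ((P.b ^ P.p : ℤ) : K), padicValInt q P.a,
      map_zero σ, OrdFn.ge_zero' 0, h50_padicValInt_pos P.ha0 ha,
      h50_hasOrd_pow_of_dvd v hv P.ha0 P.p, h50_hasOrd_pow_of_not_dvd v hv P.hb0 hb P.p,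
      by ring, by ring, by ring⟩
  by_cases hb : (q : ℤ) ∣ P.b
  · -- `q ∣ b`
    right
    refine ⟨0, -((P.b ^ P.p : ℤ) : K), -((P.a ^ P.p : ℤ) : K), padicValInt q P.b,
      map_zero σ, OrdFn.ge_zero' 0, h50_padicValInt_pos P.hb0 hb,
      (h50_hasOrd_pow_of_dvd v hv P.hb0 P.p).neg,
      (h50_hasOrd_pow_of_not_dvd v hv P.ha0 ha P.p).neg, by ring, by ring, by ring⟩
  by_cases hc : (q : ℤ) ∣ P.c
  · -- `q ∣ c`
    right
    have hA0 := h50_hasOrd_pow_of_not_dvd v hv P.ha0 ha P.p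
    refine ⟨((P.a ^ P.p : ℤ) : K), -(((P.a ^ P.p : ℤ) : K) + ((P.b ^ P.p : ℤ) : K)),
      ((P.a ^ P.p : ℤ) : K), padicValInt q P.c, map_intCast σ _, hA0.ge le_rfl,
      h50_padicValInt_pos P.hc0 hc, ?_, hA0, by ring, by ring, by ring⟩
    rw [hsum]
    exact (h50_hasOrd_pow_of_dvd v hv P.hc0 P.p).neg
  · -- `q ∤ abc`
    left
    refine ⟨h50_hasOrd_pow_of_not_dvd v hv P.ha0 ha P.p,
      h50_hasOrd_pow_of_not_dvd v hv P.hb0 hb P.p, ?_⟩
    rw [hsum]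
    exact h50_hasOrd_pow_of_not_dvd v hv P.hc0 hc P.p

/-- the base change of the Frey curve to any field of characteristic zero is a Frey model. -/
theorem isFreyModel_freyCurve (P : FreyPackage) (K : Type*) [Field K] [Algebra ℚ K] :
    IsFreyModel (P.freyCurve.map (algebraMap ℚ K))
      ((P.a ^ P.p : ℤ) : K) ((P.b ^ P.p : ℤ) : K) := by
  have h4 : (4 : K) = algebraMap ℚ K 4 := by simp
  have h16 : (16 : K) = algebraMap ℚ K 16 := by simp
  have hA : ((P.a ^ P.p : ℤ) : K) = algebraMap ℚ K ((P.a : ℚ) ^ P.p) := by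
    rw [Int.cast_pow, map_pow, map_intCast]
  have hB : ((P.b ^ P.p : ℤ) : K) = algebraMap ℚ K ((P.b : ℚ) ^ P.p) := by
    rw [Int.cast_pow, map_pow, map_intCast]
  refine ⟨?_, ?_, ?_, ?_, ?_⟩
  · simp [FreyPackage.freyCurve]
  · rw [hA, hB, h4]
    simp only [WeierstrassCurve.map_a₂, FreyPackage.freyCurve]
    rw [← map_mul, ← map_one (algebraMap ℚ K), ← map_sub, ← map_sub]
    congr 1
    ring
  · simp [FreyPackage.freyCurve]
  · rw [hA, hB, h16]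
    simp only [WeierstrassCurve.map_a₄, FreyPackage.freyCurve]
    rw [← map_mul, ← map_mul, ← map_neg]
    congr 1
    ring
  · simp [FreyPackage.freyCurve]

end Fermat.Agent.S05
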