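/-
S05, task T6a (helper7): two congruent points differ by a point of the kernel of reduction
(its X-coordinate `XQ` has negative order).  Pure valued-field algebra on top of `OrdFn`.
-/
import Fermat.Agent.S05.Defs

set_option autoImplicit false

namespace Fermat.Agent.S05

section Abstract
variable {K : Type*} [Field K]

/-- "unit `Y`" version, at level `c`:  `Y' + Y = 2Y + (Y' - Y)` has exact order `c`,
`X' - X` has order `> c`, so the slope `L = (Y'+Y)/(X'-X)` has negative order. -/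
theorem ord_neg_of_congr_unitY (v : OrdFn K) {A B X Y X' Y' XQ : K} {c : ℚ}
    (h2 : v.HasOrd (2 : K) 0) (hA : v.Ge 0 A) (hB : v.Ge 0 B)
    (hX : v.Ge 0 X) (hX' : v.Ge 0 X')
    (hY : v.HasOrd Y c) (hYY : v.Gt c (Y' - Y)) (hXX : v.Gt c (X' - X)) (hne : X' ≠ X)
    (hQ : XQ * (X' - X) ^ 2 = (Y' + Y) ^ 2 - (B - A + X' + X) * (X' - X) ^ 2) :
    XQ ≠ 0 ∧ v.ord XQ < 0 := by
  have hD0 : X' - X ≠ 0 := sub_ne_zero.mpr hne
  have hDc : c < v.ord (X' - X) := hXX.lt_ord hD0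
  have hD : v.HasOrd (X' - X) (v.ord (X' - X)) := OrdFn.hasOrd_of_ne hD0
  have hS : v.HasOrd (Y' + Y) c := by
    have e : Y' + Y = 2 * Y + (Y' - Y) := by ring
    rw [e]
    exact ((h2.mul hY).congr (zero_add c)).add_gt hYY
  have hS2 : v.HasOrd ((Y' + Y) ^ 2) (2 * c) := (hS.pow 2).congr (by push_cast; ring)
  have hD2 : v.HasOrd ((X' - X) ^ 2) (2 * v.ord (X' - X)) :=
    (hD.pow 2).congr (by push_cast; ring)
  have hG : v.Ge 0 (B - A + X' + X) := ((hB.sub hA).add hX').add hX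
  have hT : v.Gt (2 * c) ((B - A + X' + X) * (X' - X) ^ 2) :=
    (hG.mul_gt (hD2.gt (d := 2 * c) (by linarith))).mono (by linarith)
  have hR : v.HasOrd ((Y' + Y) ^ 2 - (B - A + X' + X) * (X' - X) ^ 2) (2 * c) := hS2.sub_gt hT
  rw [← hQ] at hR
  have hXQ := hR.of_mul hD2
  exact ⟨hXQ.ne_zero, by rw [hXQ.ord_eq]; linarith⟩

/-- "unit `f'(X)`" version:  `(Y'+Y)(Y'-Y) = (X'-X) g` with
`g = X'^2 + X' X + X^2 + (B-A)(X'+X) - A B ≡ f'(X)` a unit, so `L = g/(Y'-Y)`. -/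
theorem ord_neg_of_congr_unitF (v : OrdFn K) {A B X Y X' Y' XQ : K}
    (h2 : v.HasOrd (2 : K) 0) (hA : v.Ge 0 A) (hB : v.Ge 0 B)
    (hX : v.Ge 0 X) (hX' : v.Ge 0 X')
    (hcurve : Y ^ 2 = X * (X - A) * (X + B)) (hcurve' : Y' ^ 2 = X' * (X' - A) * (X' + B))
    (hYY : v.Gt 0 (Y' - Y)) (hXX : v.Gt 0 (X' - X)) (hne : X' ≠ X)
    (hF : v.HasOrd (3 * X ^ 2 + 2 * (B - A) * X - A * B) 0)
    (hQ : XQ * (X' - X) ^ 2 = (Y' + Y) ^ 2 - (B - A + X' + X) * (X' - X) ^ 2) :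
    XQ ≠ 0 ∧ v.ord XQ < 0 := by
  have hD0 : X' - X ≠ 0 := sub_ne_zero.mpr hne
  have hDpos : 0 < v.ord (X' - X) := hXX.lt_ord hD0
  have hD : v.HasOrd (X' - X) (v.ord (X' - X)) := OrdFn.hasOrd_of_ne hD0
  have h2' : v.Ge 0 (2 : K) := h2.ge le_rfl
  -- `g ≡ f'(X)` is a unit
  have hgF : X' ^ 2 + X' * X + X ^ 2 + (B - A) * (X' + X) - A * B =
      (3 * X ^ 2 + 2 * (B - A) * X - A * B) + (X' - X) * (X' + 2 * X + (B - A)) := by ring
  have hH : v.Ge 0 (X' + 2 * X + (B - A)) :=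
    (hX'.add ((h2'.mul hX).mono (by norm_num))).add (hB.sub hA)
  have hg : v.HasOrd (X' ^ 2 + X' * X + X ^ 2 + (B - A) * (X' + X) - A * B) 0 := by
    rw [hgF]
    exact hF.add_gt ((hXX.mul_ge hH).mono (by norm_num))
  have hSE : (Y' + Y) * (Y' - Y) =
      (X' - X) * (X' ^ 2 + X' * X + X ^ 2 + (B - A) * (X' + X) - A * B) := by
    linear_combination hcurve' - hcurve
  have hDg : v.HasOrd ((Y' + Y) * (Y' - Y)) (v.ord (X' - X)) := by
    rw [hSE]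
    exact (hD.mul hg).congr (add_zero _)
  have hS0 : Y' + Y ≠ 0 := left_ne_zero_of_mul hDg.ne_zero
  have hE0 : Y' - Y ≠ 0 := right_ne_zero_of_mul hDg.ne_zero
  have hEpos : 0 < v.ord (Y' - Y) := hYY.lt_ord hE0
  have hord : v.ord (Y' + Y) + v.ord (Y' - Y) = v.ord (X' - X) := by
    rw [← OrdFn.ord_mul hS0 hE0]
    exact hDg.ord_eq
  have hS : v.HasOrd (Y' + Y) (v.ord (Y' + Y)) := OrdFn.hasOrd_of_ne hS0
  have hS2 : v.HasOrd ((Y' + Y) ^ 2) (2 * v.ord (Y' + Y)) :=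
    (hS.pow 2).congr (by push_cast; ring)
  have hD2 : v.HasOrd ((X' - X) ^ 2) (2 * v.ord (X' - X)) :=
    (hD.pow 2).congr (by push_cast; ring)
  have hG : v.Ge 0 (B - A + X' + X) := ((hB.sub hA).add hX').add hX
  have hT : v.Gt (2 * v.ord (Y' + Y)) ((B - A + X' + X) * (X' - X) ^ 2) :=
    (hG.mul_gt (hD2.gt (d := 2 * v.ord (Y' + Y)) (by linarith))).mono (by linarith)
  have hR : v.HasOrd ((Y' + Y) ^ 2 - (B - A + X' + X) * (X' - X) ^ 2) (2 * v.ord (Y' + Y)) :=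
    hS2.sub_gt hT
  rw [← hQ] at hR
  have hXQ := hR.of_mul hD2
  exact ⟨hXQ.ne_zero, by rw [hXQ.ord_eq]; linarith⟩

end Abstract

end Fermat.Agent.S05
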