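/-
S05, task T2: the Frey model `y² + xy = x³ + ((B-1-A)/4) x² - (AB/16) x` in the normalised
coordinates `X = 4x`, `Y = 8y + 4x` (`Y² = X (X - A) (X + B)`): x-only addition formulas derived
from Mathlib's affine group law, and the `MultSeq` of multiples of a point of prime order.
-/
import Fermat.Agent.S05.Defs

set_option autoImplicit false
open WeierstrassCurve WeierstrassCurve.Affine WeierstrassCurve.Affine.Point

namespace Fermat.Agent.S05

section T2
variable {K : Type*} [Field K] {W : WeierstrassCurve K} {A B : K}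

theorem ptY_sq (hW : IsFreyModel W A B) (P : W.toAffine.Point) :
    ptY P ^ 2 = ptX P * (ptX P - A) * (ptX P + B) := by
  rcases P with _ | ⟨x, y, h⟩
  · simp [ptX, ptY]
  · simp only [ptX, ptY]
    have heq := h.1
    rw [Affine.equation_iff] at heq
    rw [hW.a₁, hW.a₃, hW.a₆] at heq
    linear_combination 64 * heq + 16 * x ^ 2 * hW.a₂ + 4 * x * hW.a₄

theorem ptX_zero : ptX (0 : W.toAffine.Point) = 0 := rfl

theorem ptY_zero : ptY (0 : W.toAffine.Point) = 0 := rfl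

theorem ptX_neg (P : W.toAffine.Point) : ptX (-P) = ptX P := by
  rcases P with _ | ⟨x, y, h⟩
  · rfl
  · rfl

theorem ptY_neg (hW : IsFreyModel W A B) (P : W.toAffine.Point) : ptY (-P) = -ptY P := by
  rcases P with _ | ⟨x, y, h⟩
  · simp [ptY, ← Point.zero_def]
  · simp only [Point.neg_some, ptY, negY, hW.a₁, hW.a₃]
    ring

theorem eq_or_eq_neg_of_ptX_eq (h2 : (2 : K) ≠ 0) {P Q : W.toAffine.Point}
    (hP : P ≠ 0) (hQ : Q ≠ 0) (h : ptX P = ptX Q) : P = Q ∨ P = -Q := by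
  rcases P with _ | ⟨x₁, y₁, h₁⟩
  · exact absurd rfl hP
  rcases Q with _ | ⟨x₂, y₂, h₂⟩
  · exact absurd rfl hQ
  simp only [ptX] at h
  have h4 : (4 : K) ≠ 0 := by
    have : (4 : K) = 2 * 2 := by norm_num
    rw [this]; exact mul_ne_zero h2 h2
  exact Point.X_eq_iff.mp (mul_left_cancel₀ h4 h)

/-- if moreover `ptY P = ptY Q` then `P = Q`. -/
theorem eq_of_ptX_eq_of_ptY_eq (h2 : (2 : K) ≠ 0) {P Q : W.toAffine.Point}
    (hP : P ≠ 0) (hQ : Q ≠ 0) (hX : ptX P = ptX Q) (hY : ptY P = ptY Q) : P = Q := by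
  rcases P with _ | ⟨x₁, y₁, h₁⟩
  · exact absurd rfl hP
  rcases Q with _ | ⟨x₂, y₂, h₂⟩
  · exact absurd rfl hQ
  simp only [ptX, ptY] at hX hY
  have h4 : (4 : K) ≠ 0 := by
    have : (4 : K) = 2 * 2 := by norm_num
    rw [this]; exact mul_ne_zero h2 h2
  have h8 : (8 : K) ≠ 0 := by
    have : (8 : K) = 2 * 4 := by norm_num
    rw [this]; exact mul_ne_zero h2 h4
  have hx : x₁ = x₂ := mul_left_cancel₀ h4 hX
  subst hx
  have hy : y₁ = y₂ := mul_left_cancel₀ h8 (by linear_combination hY)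
  subst hy
  rfl

variable [DecidableEq K]

theorem ptX_add_mul (hW : IsFreyModel W A B) {P Q : W.toAffine.Point}
    (hP : P ≠ 0) (hQ : Q ≠ 0) (h : ptX P ≠ ptX Q) :
    P + Q ≠ 0 ∧ ptX (P + Q) * (ptX P - ptX Q) ^ 2 =
      (ptY P - ptY Q) ^ 2 - (B - A + ptX P + ptX Q) * (ptX P - ptX Q) ^ 2 := by
  rcases P with _ | ⟨x₁, y₁, h₁⟩
  · exact absurd rfl hP
  rcases Q with _ | ⟨x₂, y₂, h₂⟩
  · exact absurd rfl hQ
  have hx : x₁ ≠ x₂ := by
    intro hx; apply h; simp [ptX, hx]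
  rw [add_of_X_ne hx]
  refine ⟨some_ne_zero _, ?_⟩
  simp only [ptX, ptY]
  rw [slope_of_X_ne hx, addX, hW.a₁]
  have hx' : x₁ - x₂ ≠ 0 := sub_ne_zero.mpr hx
  field_simp
  linear_combination (-16 * (x₁ - x₂) ^ 2) * hW.a₂

theorem ptX_sub_mul (hW : IsFreyModel W A B) {P Q : W.toAffine.Point}
    (hP : P ≠ 0) (hQ : Q ≠ 0) (h : ptX P ≠ ptX Q) :
    P - Q ≠ 0 ∧ ptX (P - Q) * (ptX P - ptX Q) ^ 2 =
      (ptY P + ptY Q) ^ 2 - (B - A + ptX P + ptX Q) * (ptX P - ptX Q) ^ 2 := by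
  have hQ' : -Q ≠ 0 := neg_ne_zero.mpr hQ
  have h' : ptX P ≠ ptX (-Q) := by rwa [ptX_neg]
  have := ptX_add_mul hW hP hQ' h'
  rw [ptX_neg, ptY_neg hW, ← sub_eq_add_neg, sub_neg_eq_add] at this
  exact this

theorem ptX_two_mul (hW : IsFreyModel W A B) {P : W.toAffine.Point}
    (hP : P ≠ 0) (hY : ptY P ≠ 0) :
    P + P ≠ 0 ∧ ptX (P + P) * (4 * ptY P ^ 2) = (ptX P ^ 2 + A * B) ^ 2 := by
  rcases P with _ | ⟨x, y, h⟩
  · exact absurd rfl hP
  simp only [ptY] at hY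
  have hy : y ≠ W.toAffine.negY x y := by
    intro hy
    apply hY
    simp only [negY, hW.a₁, hW.a₃] at hy
    linear_combination 4 * hy
  rw [add_self_of_Y_ne hy]
  refine ⟨some_ne_zero _, ?_⟩
  simp only [ptX, ptY]
  rw [slope_of_Y_ne rfl hy, addX, negY, hW.a₁, hW.a₃]
  have heq := h.1
  rw [Affine.equation_iff] at heq
  rw [hW.a₁, hW.a₃, hW.a₆] at heq
  have hd : 2 * y + x ≠ 0 := by
    intro hd; apply hY; linear_combination 4 * hd
  have e1 : y - (-y - 1 * x - 0) = 2 * y + x := by ring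
  have hAB : A * B = -16 * W.toAffine.a₄ := by linear_combination hW.a₄
  rw [e1, hAB]
  field_simp
  linear_combination (-256 * (1 + 4 * W.toAffine.a₂ + 8 * x) * (2 * y + x) ^ 2) * heq

theorem add_self_eq_zero_of_ptY_eq_zero (hW : IsFreyModel W A B) (h2 : (2 : K) ≠ 0)
    {P : W.toAffine.Point} (h : ptY P = 0) : P + P = 0 := by
  rcases P with _ | ⟨x, y, hns⟩
  · rfl
  · simp only [ptY] at h
    apply add_self_of_Y_eq
    simp only [negY, hW.a₁, hW.a₃]
    have h4 : (4 : K) ≠ 0 := by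
      have : (4 : K) = 2 * 2 := by norm_num
      rw [this]; exact mul_ne_zero h2 h2
    apply mul_left_cancel₀ h4
    linear_combination h

theorem ptY_eq_zero_of_add_self (hW : IsFreyModel W A B)
    {P : W.toAffine.Point} (hP : P ≠ 0) (h : P + P = 0) : ptY P = 0 := by
  by_contra hY
  exact (ptX_two_mul hW hP hY).1 h

/-- the multiples of a point of prime order `p ≥ 5` form a `MultSeq`. -/
theorem multSeq_of_torsion (hW : IsFreyModel W A B) (h2 : (2 : K) ≠ 0) {p : ℕ} (hpp : p.Prime)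
    (hp5 : 5 ≤ p) {P : W.toAffine.Point} (hP : P ≠ 0) (hpP : p • P = 0) :
    MultSeq A B p (fun k => ptX (k • P)) := by
  have : Fact p.Prime := ⟨hpp⟩
  have hord : addOrderOf P = p := addOrderOf_eq_prime hpP hP
  have hk : ∀ k : ℕ, k • P = 0 ↔ p ∣ k := by
    intro k; rw [← hord]; exact addOrderOf_dvd_iff_nsmul_eq_zero.symm
  have hk0 : ∀ k : ℕ, 1 ≤ k → k ≤ p - 1 → k • P ≠ 0 := by
    intro k h1 h2 h0
    have := Nat.le_of_dvd (by omega) ((hk k).mp h0)
    omega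
  have hkY : ∀ k : ℕ, 1 ≤ k → k ≤ p - 1 → ptY (k • P) ≠ 0 := by
    intro k h1 hk2 hY
    have h0 := add_self_eq_zero_of_ptY_eq_zero hW h2 hY
    rw [← two_nsmul, ← mul_nsmul'] at h0
    have hdvd := (hk _).mp h0
    rcases (Nat.Prime.dvd_mul hpp).mp hdvd with h | h
    · have := Nat.le_of_dvd (by omega) h; omega
    · have := Nat.le_of_dvd (by omega) h; omega
  have hsucc : ∀ k : ℕ, (k + 1) • P = k • P + P := fun k => succ_nsmul P k
  have hpred : ∀ k : ℕ, 1 ≤ k → (k - 1) • P = k • P - P := by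
    intro k h1
    obtain ⟨m, rfl⟩ : ∃ m, k = m + 1 := ⟨k - 1, by omega⟩
    rw [Nat.add_sub_cancel, hsucc, add_sub_cancel_right]
  have hne : ∀ k : ℕ, 2 ≤ k → k ≤ p - 2 → ptX (k • P) ≠ ptX P := by
    intro k h1 hk2 hX
    rcases eq_or_eq_neg_of_ptX_eq h2 (hk0 k (by omega) (by omega)) hP hX with h | h
    · have h0 : (k - 1) • P = 0 := by rw [hpred k (by omega), h, sub_self]
      have := Nat.le_of_dvd (by omega) ((hk _).mp h0)
      omega
    · have h0 : (k + 1) • P = 0 := by rw [hsucc, h, neg_add_cancel]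
      have := Nat.le_of_dvd (by omega) ((hk _).mp h0)
      omega
  refine ⟨?_, ?_, ?_, ?_, ?_, ?_, ?_⟩
  · intro k h1 hk2
    rw [← ptY_sq hW]
    exact pow_ne_zero 2 (hkY k h1 hk2)
  · intro k h1 hk2
    simp only [one_smul]
    exact hne k h1 hk2
  · simp only [one_smul]
    have := (ptX_two_mul hW hP (by simpa using hkY 1 le_rfl (by omega))).2
    rw [ptY_sq hW, ← two_nsmul] at this
    exact this
  · intro k h1 hk2
    simp only [one_smul]
    have hadd := (ptX_add_mul hW (hk0 k (by omega) (by omega)) hP (hne k h1 hk2)).2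
    have hsub := (ptX_sub_mul hW (hk0 k (by omega) (by omega)) hP (hne k h1 hk2)).2
    rw [hsucc, hpred k (by omega)]
    have e1 := ptY_sq hW (k • P)
    have e2 := ptY_sq hW P
    linear_combination hadd + hsub + 2 * e1 + 2 * e2
  · intro k h1 hk2
    simp only [one_smul]
    have hadd := (ptX_add_mul hW (hk0 k (by omega) (by omega)) hP (hne k h1 hk2)).2
    have hsub := (ptX_sub_mul hW (hk0 k (by omega) (by omega)) hP (hne k h1 hk2)).2
    rw [hsucc, hpred k (by omega)]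
    have e1 := ptY_sq hW (k • P)
    have e2 := ptY_sq hW P
    have hd : (ptX (k • P) - ptX P) ^ 2 ≠ 0 := pow_ne_zero 2 (sub_ne_zero.mpr (hne k h1 hk2))
    apply mul_right_cancel₀ hd
    generalize ptX (k • P) = x₁ at *
    generalize ptX P = x₂ at *
    generalize ptY (k • P) = Y₁ at *
    generalize ptY P = Y₂ at *
    generalize ptX (k • P + P) = Xp at *
    generalize ptX (k • P - P) = Xm at *
    have hmul : Xp * (x₁ - x₂) ^ 2 * (Xm * (x₁ - x₂) ^ 2) =
        ((Y₁ - Y₂) ^ 2 - (B - A + x₁ + x₂) * (x₁ - x₂) ^ 2) *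
          ((Y₁ + Y₂) ^ 2 - (B - A + x₁ + x₂) * (x₁ - x₂) ^ 2) := by
      rw [hadd, hsub]
    linear_combination hmul +
      ((Y₁ ^ 2 - Y₂ ^ 2 + x₁ * (x₁ - A) * (x₁ + B) - x₂ * (x₂ - A) * (x₂ + B)) -
        2 * ((B - A + x₁ + x₂) * (x₁ - x₂) ^ 2)) * e1 +
      (-(Y₁ ^ 2 - Y₂ ^ 2 + x₁ * (x₁ - A) * (x₁ + B) - x₂ * (x₂ - A) * (x₂ + B)) -
        2 * ((B - A + x₁ + x₂) * (x₁ - x₂) ^ 2)) * e2
  · simp only [one_smul]
    have h0 : (p - 1) • P = -P := by
      rw [hpred p (by omega), hpP, zero_sub]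
    rw [h0, ptX_neg]
  · have h0 : (p - 2) • P = -(2 • P) := by
      have e : p - 2 = (p - 1) - 1 := by omega
      rw [e, hpred (p - 1) (by omega), hpred p (by omega), hpP, two_nsmul]
      abel
    rw [h0, ptX_neg]

end T2

end Fermat.Agent.S05
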