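/-
S05 / T3 (helper13): no point of order `p` in the kernel of reduction, abstract `MultSeq` form.

If `ord (X 1) < 0`, put `ξ k := (X k)⁻¹` and `γ := ord (ξ 1) > 0`.  By induction
`ξ k ≡ k² ξ 1` modulo elements of order `> γ` for `1 ≤ k ≤ p - 1`
(`k = 2` from `dbl`, the step from `sum`/`prod`).  Then `symm1` gives `p (p - 2) ∈ 𝔪`,
`symm2` gives `p (p - 4) ∈ 𝔪`, hence `2 ∈ 𝔪`, contradiction.
-/
import Fermat.Agent.S05.Defs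

set_option autoImplicit false

namespace Fermat.Agent.S05

variable {K : Type*} [Field K]

/-- algebraic form of the sum/product relations in terms of inverses -/
lemma h13_nt_alg_sum {x₁ x₂ x₃ x₄ d c₂ c₄ c₆ c₈ : K} (hx₁ : x₁ ≠ 0) (hx₂ : x₂ ≠ 0)
    (hx₃ : x₃ ≠ 0) (hx₄ : x₄ ≠ 0)
    (hS : (x₃ + x₄) * d ^ 2 = 2 * x₁ * x₂ * (x₁ + x₂) + c₂ * x₁ * x₂ + c₄ * (x₁ + x₂) + c₆)
    (hT : x₃ * x₄ * d ^ 2 = x₁ ^ 2 * x₂ ^ 2 - c₄ * x₁ * x₂ - c₆ * (x₁ + x₂) - c₈) :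
    (x₃⁻¹ + x₄⁻¹ - 2 * (x₁⁻¹ + x₂⁻¹)) *
        (1 - x₁⁻¹ * x₂⁻¹ * (c₄ + c₆ * (x₁⁻¹ + x₂⁻¹) + c₈ * (x₁⁻¹ * x₂⁻¹))) =
      x₁⁻¹ * x₂⁻¹ * ((c₂ + c₄ * (x₁⁻¹ + x₂⁻¹) + c₆ * (x₁⁻¹ * x₂⁻¹)) +
        2 * (x₁⁻¹ + x₂⁻¹) * (c₄ + c₆ * (x₁⁻¹ + x₂⁻¹) + c₈ * (x₁⁻¹ * x₂⁻¹))) := by
  have h2 : (x₃ + x₄) * (x₁ ^ 2 * x₂ ^ 2 - c₄ * x₁ * x₂ - c₆ * (x₁ + x₂) - c₈) =
      x₃ * x₄ * (2 * x₁ * x₂ * (x₁ + x₂) + c₂ * x₁ * x₂ + c₄ * (x₁ + x₂) + c₆) := by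
    rw [← hS, ← hT]; ring
  field_simp
  linear_combination (x₁ * x₂) * h2

/-- algebraic form of the duplication relation in terms of inverses -/
lemma h13_nt_alg_dup {x x₃ c₂ c₄ c₆ c₈ : K} (hx : x ≠ 0) (hx₃ : x₃ ≠ 0)
    (hD : x₃ * (4 * x ^ 3 + c₂ * x ^ 2 + 2 * c₄ * x + c₆) =
      x ^ 4 - c₄ * x ^ 2 - 2 * c₆ * x - c₈) :
    (x₃⁻¹ - 4 * x⁻¹) * (1 - x⁻¹ ^ 2 * (c₄ + 2 * c₆ * x⁻¹ + c₈ * x⁻¹ ^ 2)) =
      x⁻¹ ^ 2 * ((c₂ + 2 * c₄ * x⁻¹ + c₆ * x⁻¹ ^ 2) +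
        4 * x⁻¹ * (c₄ + 2 * c₆ * x⁻¹ + c₈ * x⁻¹ ^ 2)) := by
  field_simp
  linear_combination (-x) * hD

namespace OrdFn

variable {v : OrdFn K}

lemma h13_ge_two : v.Ge 0 (2 : K) := by
  have := ge_natCast (v := v) 2
  simpa using this

lemma h13_ge_four : v.Ge 0 (4 : K) := by
  have := ge_natCast (v := v) 4
  simpa using this

lemma h13_ge_zero_mul {x y : K} (hx : v.Ge 0 x) (hy : v.Ge 0 y) : v.Ge 0 (x * y) :=
  (hx.mul hy).mono (by norm_num)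

lemma h13_ge_zero_pow {x : K} (hx : v.Ge 0 x) (n : ℕ) : v.Ge 0 (x ^ n) :=
  (hx.pow n).mono (by simp)

lemma h13_not_gt_of_hasOrd {x : K} {c : ℚ} (hx : v.HasOrd x c) : ¬ v.Gt c x := by
  rintro (h | h)
  · exact hx.1 h
  · rw [hx.2] at h
    exact lt_irrefl _ h

end OrdFn

open OrdFn in
theorem MultSeq.ord_nonneg (v : OrdFn K) {A B : K} {p : ℕ} {X : ℕ → K}
    (hM : MultSeq A B p X) (hp5 : 5 ≤ p)
    (hA : v.Ge 0 A) (hB : v.Ge 0 B) (h2 : v.HasOrd (2 : K) 0) (hp : v.HasOrd (p : K) 0) :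
    0 ≤ v.ord (X 1) := by
  by_contra hneg
  rw [not_le] at hneg
  -- nonvanishing of the `X k`
  have hX0 : ∀ k, 1 ≤ k → k ≤ p - 1 → X k ≠ 0 := fun k h1 h2 =>
    left_ne_zero_of_mul (left_ne_zero_of_mul (hM.nondeg k h1 h2))
  have hx0 : X 1 ≠ 0 := hX0 1 le_rfl (by omega)
  -- `ξ = (X 1)⁻¹` has order `γ > 0`
  obtain ⟨γ, hγ⟩ : ∃ γ : ℚ, γ = -v.ord (X 1) := ⟨_, rfl⟩
  have hγ0 : 0 < γ := by linarith
  have hξ : v.HasOrd (X 1)⁻¹ γ := ⟨inv_ne_zero hx0, by rw [ord_inv hx0, hγ]⟩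
  have hξge : v.Ge 0 (X 1)⁻¹ := hξ.ge hγ0.le
  have hξgt : v.Gt 0 (X 1)⁻¹ := hξ.gt hγ0
  -- the constants
  have h4 : v.Ge 0 (4 : K) := h13_ge_four
  have h2' : v.Ge 0 (2 : K) := h13_ge_two
  have hc₂ : v.Ge 0 (4 * (B - A)) := h13_ge_zero_mul h4 (hB.sub hA)
  have hc₄ : v.Ge 0 (-2 * (A * B)) := h13_ge_zero_mul h2'.neg (h13_ge_zero_mul hA hB)
  have hc₈ : v.Ge 0 (-(A ^ 2 * B ^ 2)) :=
    (h13_ge_zero_mul (h13_ge_zero_pow hA 2) (h13_ge_zero_pow hB 2)).neg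
  have hc₆ : v.Ge 0 (0 : K) := ge_zero' 0
  -- main claim
  have claim : ∀ k, 1 ≤ k → k ≤ p - 1 → v.Gt γ ((X k)⁻¹ - (k : K) ^ 2 * (X 1)⁻¹) := by
    intro k
    induction k using Nat.strong_induction_on with
    | _ k ih =>
    intro hk1 hkp
    rcases Nat.lt_or_ge k 2 with hk | hk
    · -- k = 1
      have : k = 1 := by omega
      subst this
      simp only [Nat.cast_one, one_pow, one_mul, sub_self]
      exact gt_zero' γ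
    rcases Nat.lt_or_ge k 3 with hk3 | hk3
    · -- k = 2 : duplication
      have : k = 2 := by omega
      subst this
      have hx2 : X 2 ≠ 0 := hX0 2 (by omega) hkp
      have hD : X 2 * (4 * X 1 ^ 3 + (4 * (B - A)) * X 1 ^ 2 + 2 * (-2 * (A * B)) * X 1 + 0) =
          X 1 ^ 4 - (-2 * (A * B)) * X 1 ^ 2 - 2 * 0 * X 1 - (-(A ^ 2 * B ^ 2)) := by
        linear_combination hM.dbl
      have key := h13_nt_alg_dup hx0 hx2 hD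
      have ht : v.Ge 0 (-2 * (A * B) + 2 * 0 * (X 1)⁻¹ + -(A ^ 2 * B ^ 2) * (X 1)⁻¹ ^ 2) :=
        (hc₄.add (h13_ge_zero_mul (h13_ge_zero_mul h2' hc₆) hξge)).add
          (h13_ge_zero_mul hc₈ (h13_ge_zero_pow hξge 2))
      have hs : v.Ge 0 ((4 * (B - A) + 2 * (-2 * (A * B)) * (X 1)⁻¹ + 0 * (X 1)⁻¹ ^ 2) +
          4 * (X 1)⁻¹ * (-2 * (A * B) + 2 * 0 * (X 1)⁻¹ + -(A ^ 2 * B ^ 2) * (X 1)⁻¹ ^ 2)) :=
        ((hc₂.add (h13_ge_zero_mul (h13_ge_zero_mul h2' hc₄) hξge)).add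
          (h13_ge_zero_mul hc₆ (h13_ge_zero_pow hξge 2))).add
          (h13_ge_zero_mul (h13_ge_zero_mul h4 hξge) ht)
      have hξ2 : v.HasOrd ((X 1)⁻¹ ^ 2) (2 * γ) := by
        have := hξ.pow 2
        simpa using this
      have hu : v.HasOrd
          (1 - (X 1)⁻¹ ^ 2 * (-2 * (A * B) + 2 * 0 * (X 1)⁻¹ + -(A ^ 2 * B ^ 2) * (X 1)⁻¹ ^ 2)) 0 :=
        hasOrd_one.sub_gt (((hξ2.gt (by linarith : (0 : ℚ) < 2 * γ)).mul_ge ht).mono (by norm_num))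
      have hrhs : v.Ge (2 * γ + 0) ((X 1)⁻¹ ^ 2 *
          ((4 * (B - A) + 2 * (-2 * (A * B)) * (X 1)⁻¹ + 0 * (X 1)⁻¹ ^ 2) +
          4 * (X 1)⁻¹ * (-2 * (A * B) + 2 * 0 * (X 1)⁻¹ + -(A ^ 2 * B ^ 2) * (X 1)⁻¹ ^ 2))) :=
        (hξ2.ge le_rfl).mul hs
      rw [← key] at hrhs
      have hE := hrhs.of_hasOrd_mul hu
      have hE' : v.Gt γ ((X 2)⁻¹ - 4 * (X 1)⁻¹) := hE.gt_of_lt (by linarith)
      have e : (X 2)⁻¹ - ((2 : ℕ) : K) ^ 2 * (X 1)⁻¹ = (X 2)⁻¹ - 4 * (X 1)⁻¹ := by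
        push_cast; ring
      rw [e]
      exact hE'
    · -- k ≥ 3 : step from `m = k - 1`
      obtain ⟨m, rfl⟩ : ∃ m, k = m + 1 := ⟨k - 1, by omega⟩
      have hm2 : 2 ≤ m := by omega
      have hmp : m ≤ p - 2 := by omega
      have ihm := ih m (by omega) (by omega) (by omega)
      have ihm1 := ih (m - 1) (by omega) (by omega) (by omega)
      have hxm : X m ≠ 0 := hX0 m (by omega) (by omega)
      have hxm1 : X (m - 1) ≠ 0 := hX0 (m - 1) (by omega) (by omega)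
      have hxk : X (m + 1) ≠ 0 := hX0 (m + 1) (by omega) hkp
      -- `(X m)⁻¹` has order `≥ γ`
      have hξm : v.Ge γ (X m)⁻¹ := by
        have e : (X m)⁻¹ = ((X m)⁻¹ - (m : K) ^ 2 * (X 1)⁻¹) + (m : K) ^ 2 * (X 1)⁻¹ := by ring
        rw [e]
        refine ihm.ge.add ?_
        exact ((h13_ge_zero_pow (ge_natCast m) 2).mul (hξ.ge le_rfl)).mono (by norm_num)
      have hξm0 : v.Ge 0 (X m)⁻¹ := hξm.mono hγ0.le
      have hS : (X (m + 1) + X (m - 1)) * (X m - X 1) ^ 2 =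
          2 * X m * X 1 * (X m + X 1) + (4 * (B - A)) * X m * X 1 +
            (-2 * (A * B)) * (X m + X 1) + 0 := by
        linear_combination hM.sum m hm2 hmp
      have hT : X (m + 1) * X (m - 1) * (X m - X 1) ^ 2 =
          X m ^ 2 * X 1 ^ 2 - (-2 * (A * B)) * X m * X 1 - 0 * (X m + X 1) -
            (-(A ^ 2 * B ^ 2)) := by
        linear_combination hM.prod m hm2 hmp
      have key := h13_nt_alg_sum hxm hx0 hxk hxm1 hS hT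
      have hsum : v.Ge 0 ((X m)⁻¹ + (X 1)⁻¹) := hξm0.add hξge
      have hprod : v.Ge 0 ((X m)⁻¹ * (X 1)⁻¹) := h13_ge_zero_mul hξm0 hξge
      have ht : v.Ge 0 (-2 * (A * B) + 0 * ((X m)⁻¹ + (X 1)⁻¹) +
          -(A ^ 2 * B ^ 2) * ((X m)⁻¹ * (X 1)⁻¹)) :=
        (hc₄.add (h13_ge_zero_mul hc₆ hsum)).add (h13_ge_zero_mul hc₈ hprod)
      have hs : v.Ge 0 ((4 * (B - A) + -2 * (A * B) * ((X m)⁻¹ + (X 1)⁻¹) +
          0 * ((X m)⁻¹ * (X 1)⁻¹)) + 2 * ((X m)⁻¹ + (X 1)⁻¹) *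
          (-2 * (A * B) + 0 * ((X m)⁻¹ + (X 1)⁻¹) + -(A ^ 2 * B ^ 2) * ((X m)⁻¹ * (X 1)⁻¹))) :=
        ((hc₂.add (h13_ge_zero_mul hc₄ hsum)).add (h13_ge_zero_mul hc₆ hprod)).add
          (h13_ge_zero_mul (h13_ge_zero_mul h2' hsum) ht)
      have hmx : v.Ge (γ + γ) ((X m)⁻¹ * (X 1)⁻¹) := hξm.mul (hξ.ge le_rfl)
      have hu : v.HasOrd (1 - (X m)⁻¹ * (X 1)⁻¹ * (-2 * (A * B) + 0 * ((X m)⁻¹ + (X 1)⁻¹) +
          -(A ^ 2 * B ^ 2) * ((X m)⁻¹ * (X 1)⁻¹))) 0 :=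
        hasOrd_one.sub_gt (((hmx.gt_of_lt (by linarith : (0 : ℚ) < γ + γ)).mul_ge ht).mono
          (by norm_num))
      have hrhs := hmx.mul hs
      rw [← key] at hrhs
      have hE := hrhs.of_hasOrd_mul hu
      have hE' : v.Gt γ ((X (m + 1))⁻¹ + (X (m - 1))⁻¹ - 2 * ((X m)⁻¹ + (X 1)⁻¹)) :=
        hE.gt_of_lt (by linarith)
      have hcast : ((m - 1 : ℕ) : K) = (m : K) - 1 := by
        rw [Nat.cast_sub (by omega)]; simp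
      have e : (X (m + 1))⁻¹ - ((m + 1 : ℕ) : K) ^ 2 * (X 1)⁻¹ =
          ((X (m + 1))⁻¹ + (X (m - 1))⁻¹ - 2 * ((X m)⁻¹ + (X 1)⁻¹)) +
            2 * ((X m)⁻¹ - (m : K) ^ 2 * (X 1)⁻¹) -
            ((X (m - 1))⁻¹ - ((m - 1 : ℕ) : K) ^ 2 * (X 1)⁻¹) := by
        rw [hcast]; push_cast; ring
      rw [e]
      refine (hE'.add ?_).sub ihm1
      exact (h2'.mul_gt ihm).mono (by norm_num)
  -- `symm1`
  have hcast1 : ((p - 1 : ℕ) : K) = (p : K) - 1 := by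
    rw [Nat.cast_sub (by omega)]; simp
  have hcast2 : ((p - 2 : ℕ) : K) = (p : K) - 2 := by
    rw [Nat.cast_sub (by omega)]; simp
  have hA' : v.Gt 0 ((p : K) - 2) := by
    have h1 := claim (p - 1) (by omega) le_rfl
    rw [hM.symm1, hcast1] at h1
    have e : (X 1)⁻¹ - ((p : K) - 1) ^ 2 * (X 1)⁻¹ = -(((p : K) - 2) * (p : K)) * (X 1)⁻¹ := by
      ring
    rw [e] at h1
    have h3 := (h1.of_hasOrd_mul hξ).neg
    rw [neg_neg] at h3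
    exact (h3.of_hasOrd_mul hp).mono (by norm_num)
  -- `symm2`
  have hB' : v.Gt 0 ((p : K) - 4) := by
    have h1 := claim (p - 2) (by omega) (by omega)
    have h1' := claim 2 (by omega) (by omega)
    rw [hM.symm2, hcast2] at h1
    have e : (((p : K) - 4) * (p : K)) * (X 1)⁻¹ =
        ((X 2)⁻¹ - ((2 : ℕ) : K) ^ 2 * (X 1)⁻¹) - ((X 2)⁻¹ - ((p : K) - 2) ^ 2 * (X 1)⁻¹) := by
      push_cast; ring
    have h3 := h1'.sub h1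
    rw [← e] at h3
    exact ((h3.of_hasOrd_mul hξ).of_hasOrd_mul hp).mono (by norm_num)
  have h2gt : v.Gt 0 (2 : K) := by
    have e : (2 : K) = ((p : K) - 2) - ((p : K) - 4) := by ring
    rw [e]
    exact hA'.sub hB'
  exact h13_not_gt_of_hasOrd h2 h2gt

end Fermat.Agent.S05
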