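/-
S05, task T6b (helper8): two `p`-torsion points of a Frey model with a congruence certificate
are equal.
-/
import Fermat.Agent.S05.FreyModel
import Fermat.Agent.S05.NoTorsion
import Fermat.Agent.S05.Congr

set_option autoImplicit false
open WeierstrassCurve WeierstrassCurve.Affine WeierstrassCurve.Affine.Point

namespace Fermat.Agent.S05

theorem local_core {K : Type*} [Field K] [DecidableEq K] (v : OrdFn K)
    {W : WeierstrassCurve K} {A B : K} (hW : IsFreyModel W A B)
    {p : ℕ} (hpp : p.Prime) (hp5 : 5 ≤ p)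
    (h2 : v.HasOrd (2 : K) 0) (hpv : v.HasOrd (p : K) 0) (hA : v.Ge 0 A) (hB : v.Ge 0 B)
    {P P' : W.toAffine.Point} (hP0 : P ≠ 0) (hP'0 : P' ≠ 0) (hP : p • P = 0) (hP' : p • P' = 0)
    (hX : v.Ge 0 (ptX P)) (hX' : v.Ge 0 (ptX P'))
    (hcert : Cert v A B (ptX P) (ptY P) (ptX P') (ptY P')) :
    P' = P := by
  by_contra hne
  have hQ0 : P' - P ≠ 0 := sub_ne_zero.mpr hne
  have hpQ : p • (P' - P) = 0 := by rw [smul_sub, hP, hP', sub_zero]
  have h20 : (2 : K) ≠ 0 := h2.ne_zero
  have hM := multSeq_of_torsion hW h20 hpp hp5 hQ0 hpQ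
  have hnn : 0 ≤ v.ord (ptX (P' - P)) := by
    have := MultSeq.ord_nonneg v hM hp5 hA hB h2 hpv
    simpa using this
  have hcurve := ptY_sq hW P
  have hcurve' := ptY_sq hW P'
  by_cases hXX : ptX P' = ptX P
  · rcases eq_or_eq_neg_of_ptX_eq h20 hP'0 hP0 hXX with h | h
    · exact hne h
    · have hY' : ptY P' = -ptY P := by rw [h, ptY_neg hW]
      have e : ptY P' - ptY P = ptY P * (-2) := by rw [hY']; ring
      have h2' : v.HasOrd (-2 : K) 0 := h2.neg
      rcases hcert with ⟨c, -, hY, hYY, -⟩ | ⟨hYY, -, hF⟩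
      · -- left certificate: `Y' - Y = -2Y` has exact order `c`, not `> c`
        have h2Y : v.HasOrd (ptY P' - ptY P) c := by
          rw [e]
          exact (hY.mul h2').congr (add_zero c)
        have := hYY.lt_ord h2Y.ne_zero
        rw [h2Y.ord_eq] at this
        exact lt_irrefl _ this
      · -- right certificate
        have hYm : v.Gt 0 (ptY P) := by
          rw [e] at hYY
          exact (hYY.of_hasOrd_mul h2').mono (by norm_num)
        by_cases hY0 : ptY P = 0
        · -- then `-P = P`, so `P' - P = 0`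
          have hneg : -P = P := by
            apply eq_of_ptX_eq_of_ptY_eq h20 (neg_ne_zero.mpr hP0) hP0 (ptX_neg P)
            rw [ptY_neg hW, hY0, _root_.neg_zero]
          apply hQ0
          rw [h, hneg, sub_self]
        · have hYpos : 0 < v.ord (ptY P) := hYm.lt_ord hY0
          obtain ⟨-, hdbl⟩ := ptX_two_mul hW hP0 hY0
          have hQ : P' - P = -(P + P) := by rw [h]; abel
          rw [hQ, ptX_neg] at hnn
          have hid : (ptX P ^ 2 + A * B) ^ 2 =
              (3 * ptX P ^ 2 + 2 * (B - A) * ptX P - A * B) ^ 2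
                - 4 * (B - A + 2 * ptX P) * ptY P ^ 2 := by
            rw [hcurve]; ring
          have h4 : v.HasOrd (4 : K) 0 := by
            have := h2.mul h2
            norm_num at this
            exact this
          have hY2 : v.HasOrd (ptY P ^ 2) (2 * v.ord (ptY P)) := by
            have := (OrdFn.hasOrd_of_ne (v := v) hY0).pow 2
            exact_mod_cast this
          have hunit : v.HasOrd ((ptX P ^ 2 + A * B) ^ 2) 0 := by
            rw [hid]
            have h1 : v.HasOrd ((3 * ptX P ^ 2 + 2 * (B - A) * ptX P - A * B) ^ 2) 0 := by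
              have := hF.pow 2
              simpa using this
            apply h1.sub_gt
            have hg : v.Ge 0 (4 * (B - A + 2 * ptX P)) := by
              have h2X : v.Ge 0 (2 * ptX P) := ((h2.ge le_rfl).mul hX).mono (by norm_num)
              exact ((h4.ge le_rfl).mul ((hB.sub hA).add h2X)).mono (by norm_num)
            have hY2' : v.Gt 0 (ptY P ^ 2) := hY2.gt (by linarith)
            exact (hg.mul_gt hY2').mono (by norm_num)
          have h4Y : v.HasOrd (4 * ptY P ^ 2) (0 + 2 * v.ord (ptY P)) := h4.mul hY2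
          have hXPP : v.HasOrd (ptX (P + P)) (0 - (0 + 2 * v.ord (ptY P))) := by
            rw [← hdbl] at hunit
            exact hunit.of_mul h4Y
          rw [hXPP.ord_eq] at hnn
          linarith
  · obtain ⟨-, hQ⟩ := ptX_sub_mul hW hP'0 hP0 hXX
    rcases hcert with ⟨c, -, hY, hYY, hXc⟩ | ⟨hYY, hXc, hF⟩
    · have := ord_neg_of_congr_unitY v h2 hA hB hX hX' hY hYY hXc hXX hQ
      linarith [this.2]
    · have := ord_neg_of_congr_unitF v h2 hA hB hX hX' hcurve hcurve' hYY hXc hXX hF hQ
      linarith [this.2]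

end Fermat.Agent.S05
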