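/-
S05, task T1: the rational valuation `ord` attached to a valuation subring `A` of `ℚ̄` lying over
a prime `q` (normalised by `ord q = 1`), and its compatibility with the inertia subgroup.
-/
import Fermat.Agent.S05.Defs

set_option autoImplicit false

namespace Fermat.Agent.S05

section Abstract

variable {L : Type*} [Field L] {Γ₀ : Type*} [LinearOrderedCommGroupWithZero Γ₀]
  (v : Valuation L Γ₀) (π : L)

/-- every nonzero element has a power whose valuation is a power of `v π`. -/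
def h5_Comm : Prop := ∀ x : L, x ≠ 0 → ∃ e : ℕ, e ≠ 0 ∧ ∃ m : ℤ, v x ^ e = v π ^ m

open Classical in
/-- the rational valuation normalised by `ord π = 1`. -/
noncomputable def h5_ordRaw (H : h5_Comm v π) (x : L) : ℚ :=
  if hx : x = 0 then 0 else
    ((H x hx).choose_spec.2.choose : ℚ) / ((H x hx).choose : ℚ)

variable {v π}

theorem h5_ordRaw_eq (H : h5_Comm v π) (hπ0 : π ≠ 0) (hπ1 : v π < 1) {x : L} (hx : x ≠ 0)
    {e : ℕ} (he : e ≠ 0) {m : ℤ} (h : v x ^ e = v π ^ m) : h5_ordRaw v π H x = (m : ℚ) / e := by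
  unfold h5_ordRaw
  rw [dif_neg hx]
  set e' := (H x hx).choose with he'
  have he'0 : e' ≠ 0 := (H x hx).choose_spec.1
  set m' := (H x hx).choose_spec.2.choose with hm'
  have h' : v x ^ e' = v π ^ m' := (H x hx).choose_spec.2.choose_spec
  have hvπ0 : 0 < v π := by
    rw [pos_iff_ne_zero, Valuation.ne_zero_iff]; exact hπ0
  have key : v π ^ (m' * e) = v π ^ (m * e') := by
    calc v π ^ (m' * e) = (v π ^ m') ^ (e : ℤ) := by rw [zpow_mul]
      _ = (v x ^ e') ^ e := by rw [← h', zpow_natCast]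
      _ = (v x ^ e) ^ e' := by rw [← pow_mul, ← pow_mul, mul_comm]
      _ = (v π ^ m) ^ (e' : ℤ) := by rw [h, zpow_natCast]
      _ = v π ^ (m * e') := by rw [zpow_mul]
  have hinj := zpow_right_injective₀ hvπ0 hπ1.ne key
  have he0 : (e : ℚ) ≠ 0 := by exact_mod_cast he
  have he'0' : (e' : ℚ) ≠ 0 := by exact_mod_cast he'0
  rw [div_eq_div_iff he'0' he0]
  exact_mod_cast hinj

theorem h5_ordRaw_le_iff (H : h5_Comm v π) (hπ0 : π ≠ 0) (hπ1 : v π < 1) {x y : L} (hx : x ≠ 0)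
    (hy : y ≠ 0) : h5_ordRaw v π H y ≤ h5_ordRaw v π H x ↔ v x ≤ v y := by
  obtain ⟨e, he, m, h⟩ := H x hx
  obtain ⟨e', he', m', h'⟩ := H y hy
  rw [h5_ordRaw_eq H hπ0 hπ1 hx he h, h5_ordRaw_eq H hπ0 hπ1 hy he' h']
  have hvπ0 : 0 < v π := by
    rw [pos_iff_ne_zero, Valuation.ne_zero_iff]; exact hπ0
  have he0 : (0 : ℚ) < e := by exact_mod_cast Nat.pos_of_ne_zero he
  have he'0 : (0 : ℚ) < e' := by exact_mod_cast Nat.pos_of_ne_zero he'
  rw [div_le_div_iff₀ he'0 he0]
  have h1 : v x ≤ v y ↔ v x ^ (e * e') ≤ v y ^ (e * e') :=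
    (pow_le_pow_iff_left₀ zero_le zero_le (Nat.mul_ne_zero he he')).symm
  have h2 : v x ^ (e * e') = v π ^ (m * e') := by
    rw [pow_mul, h, ← zpow_natCast, ← zpow_mul]
  have h3 : v y ^ (e * e') = v π ^ (m' * e) := by
    rw [mul_comm, pow_mul, h', ← zpow_natCast, ← zpow_mul]
  rw [h1, h2, h3, zpow_le_zpow_iff_right_of_lt_one₀ hvπ0 hπ1]
  exact_mod_cast Iff.rfl

/-- the `OrdFn` attached to a valuation commensurable with `v π`. -/
noncomputable def h5_ordFn (H : h5_Comm v π) (hπ0 : π ≠ 0) (hπ1 : v π < 1) : OrdFn L where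
  ord := h5_ordRaw v π H
  map_mul' := by
    intro x y hx hy
    obtain ⟨e, he, m, h⟩ := H x hx
    obtain ⟨e', he', m', h'⟩ := H y hy
    have hxy : v (x * y) ^ (e * e') = v π ^ (m * e' + m' * e) := by
      rw [map_mul, mul_pow, pow_mul, h, mul_comm e e', pow_mul, h', ← zpow_natCast, ← zpow_mul,
        ← zpow_natCast, ← zpow_mul, ← zpow_add₀ ((Valuation.ne_zero_iff v).mpr hπ0)]
    rw [h5_ordRaw_eq H hπ0 hπ1 hx he h, h5_ordRaw_eq H hπ0 hπ1 hy he' h',
      h5_ordRaw_eq H hπ0 hπ1 (mul_ne_zero hx hy) (Nat.mul_ne_zero he he') hxy]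
    have he0 : (e : ℚ) ≠ 0 := by exact_mod_cast he
    have he'0 : (e' : ℚ) ≠ 0 := by exact_mod_cast he'
    push_cast
    field_simp
  map_add' := by
    intro x y hx hy hxy
    rcases le_total (v x) (v y) with hle | hle
    · -- v (x+y) ≤ v y
      have h1 : v (x + y) ≤ v y := (v.map_add x y).trans (max_le hle le_rfl)
      exact (min_le_right _ _).trans ((h5_ordRaw_le_iff H hπ0 hπ1 hxy hy).mpr h1)
    · have h1 : v (x + y) ≤ v x := (v.map_add x y).trans (max_le le_rfl hle)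
      exact (min_le_left _ _).trans ((h5_ordRaw_le_iff H hπ0 hπ1 hxy hx).mpr h1)

theorem h5_ordFn_eq (H : h5_Comm v π) (hπ0 : π ≠ 0) (hπ1 : v π < 1) {x : L} (hx : x ≠ 0)
    {e : ℕ} (he : e ≠ 0) {m : ℤ} (h : v x ^ e = v π ^ m) :
    (h5_ordFn H hπ0 hπ1).ord x = (m : ℚ) / e :=
  h5_ordRaw_eq H hπ0 hπ1 hx he h

theorem h5_ordFn_le_iff (H : h5_Comm v π) (hπ0 : π ≠ 0) (hπ1 : v π < 1) {x y : L} (hx : x ≠ 0)
    (hy : y ≠ 0) : (h5_ordFn H hπ0 hπ1).ord y ≤ (h5_ordFn H hπ0 hπ1).ord x ↔ v x ≤ v y :=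
  h5_ordRaw_le_iff H hπ0 hπ1 hx hy

end Abstract

section Sum

variable {L : Type*} [Field L] {Γ₀ : Type*} [LinearOrderedCommGroupWithZero Γ₀]
  (v : Valuation L Γ₀)

/-- in a vanishing sum of nonzero terms, two distinct terms have the same valuation. -/
theorem h5_exists_eq_of_sum_eq_zero {ι : Type*} [DecidableEq ι] (s : Finset ι) (t : ι → L)
    (hs : s.Nonempty) (hsum : ∑ i ∈ s, t i = 0) (hne : ∀ i ∈ s, t i ≠ 0) :
    ∃ i ∈ s, ∃ j ∈ s, i ≠ j ∧ v (t i) = v (t j) := by
  obtain ⟨i₀, hi₀, hmax⟩ := Finset.exists_max_image s (fun i => v (t i)) hs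
  by_contra hcon
  simp only [not_exists, not_and] at hcon
  have hlt : ∀ j ∈ s.erase i₀, v (t j) < v (t i₀) := by
    intro j hj
    have hj' := Finset.mem_erase.mp hj
    exact lt_of_le_of_ne (hmax j hj'.2) (fun h => hcon i₀ hi₀ j hj'.2 (Ne.symm hj'.1) h.symm)
  have h0 : v (t i₀) ≠ 0 := (Valuation.ne_zero_iff v).mpr (hne i₀ hi₀)
  have h1 : v (∑ j ∈ s.erase i₀, t j) < v (t i₀) := Valuation.map_sum_lt v h0 hlt
  have h2 : t i₀ = -∑ j ∈ s.erase i₀, t j := by
    rw [← Finset.add_sum_erase s t hi₀] at hsum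
    exact eq_neg_of_add_eq_zero_left hsum
  rw [h2, Valuation.map_neg] at h1
  exact lt_irrefl _ h1

end Sum

section Concrete

variable {L : Type*} [Field L] (A : ValuationSubring L) {q : ℕ}

theorem h5_val_intCast_le_one (n : ℤ) : A.valuation (n : L) ≤ 1 :=
  (A.valuation_le_one_iff _).mpr (intCast_mem A n)

theorem h5_val_natCast_le_one (n : ℕ) : A.valuation (n : L) ≤ 1 :=
  (A.valuation_le_one_iff _).mpr (natCast_mem A n)

/-- integers prime to `q` are units. -/
theorem h5_val_natCast_of_not_dvd (hq : q.Prime) (hA : A.valuation (q : L) < 1) {n : ℕ}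
    (hn : ¬ q ∣ n) : A.valuation (n : L) = 1 := by
  have hcop : Nat.Coprime q n := (Nat.Prime.coprime_iff_not_dvd hq).mpr hn
  have hbez : (q : ℤ) * Nat.gcdA q n + n * Nat.gcdB q n = 1 := by
    have := Nat.gcd_eq_gcd_ab q n
    rw [hcop] at this
    exact_mod_cast this.symm
  have hL : (q : L) * (Nat.gcdA q n : L) + (n : L) * (Nat.gcdB q n : L) = 1 := by
    exact_mod_cast congrArg (Int.cast : ℤ → L) hbez
  by_contra hne
  have hlt : A.valuation (n : L) < 1 := lt_of_le_of_ne (h5_val_natCast_le_one A n) hne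
  have h1 : A.valuation ((q : L) * (Nat.gcdA q n : L)) < 1 := by
    rw [map_mul]
    exact mul_lt_one_of_lt_of_le hA (h5_val_intCast_le_one A _)
  have h2 : A.valuation ((n : L) * (Nat.gcdB q n : L)) < 1 := by
    rw [map_mul]
    exact mul_lt_one_of_lt_of_le hlt (h5_val_intCast_le_one A _)
  have := Valuation.map_add_lt A.valuation h1 h2
  rw [hL, map_one] at this
  exact lt_irrefl _ this

theorem h5_val_natCast (hq : q.Prime) (hA : A.valuation (q : L) < 1) {n : ℕ} (hn : n ≠ 0) :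
    A.valuation (n : L) = A.valuation (q : L) ^ padicValNat q n := by
  have : Fact q.Prime := ⟨hq⟩
  obtain ⟨m, hm⟩ := pow_padicValNat_dvd (p := q) (n := n)
  have hm' : ¬ q ∣ m := by
    intro hdvd
    apply pow_succ_padicValNat_not_dvd (p := q) hn
    have h1 : q ^ padicValNat q n * q ∣ q ^ padicValNat q n * m := mul_dvd_mul_left _ hdvd
    rw [← hm] at h1
    rwa [pow_succ]
  have : (n : L) = (q : L) ^ padicValNat q n * (m : L) := by
    conv_lhs => rw [hm]
    push_cast; ring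
  rw [this, map_mul, map_pow, h5_val_natCast_of_not_dvd A hq hA hm', mul_one]

theorem h5_val_intCast (hq : q.Prime) (hA : A.valuation (q : L) < 1) {n : ℤ} (hn : n ≠ 0) :
    A.valuation (n : L) = A.valuation (q : L) ^ padicValInt q n := by
  have h1 : A.valuation (n : L) = A.valuation ((n.natAbs : ℕ) : L) := by
    rcases Int.natAbs_eq n with h | h
    · conv_lhs => rw [h]
      simp
    · conv_lhs => rw [h]
      simp
  rw [h1, h5_val_natCast A hq hA (Int.natAbs_ne_zero.mpr hn)]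
  rfl


theorem h5_val_ratCast [CharZero L] (hq : q.Prime) (hA : A.valuation (q : L) < 1) {r : ℚ} (hr : r ≠ 0) :
    ∃ m : ℤ, A.valuation (r : L) = A.valuation (q : L) ^ m := by
  refine ⟨(padicValInt q r.num : ℤ) - (padicValNat q r.den : ℤ), ?_⟩
  have hq0 : A.valuation (q : L) ≠ 0 := by
    rw [Valuation.ne_zero_iff]; exact_mod_cast hq.ne_zero
  have hnum : r.num ≠ 0 := Rat.num_ne_zero.mpr hr
  have hden : r.den ≠ 0 := r.den_ne_zero
  have hr' : (r : L) = (r.num : L) / (r.den : L) := by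
    conv_lhs => rw [← Rat.num_div_den r]
    push_cast; rfl
  rw [hr', map_div₀, h5_val_intCast A hq hA hnum, h5_val_natCast A hq hA hden,
    zpow_sub₀ hq0, zpow_natCast, zpow_natCast]

/-- every nonzero algebraic element has a power whose valuation is a power of `v q`. -/
theorem h5_comm [CharZero L] [Algebra ℚ L] [Algebra.IsAlgebraic ℚ L] (hq : q.Prime) (hA : A.valuation (q : L) < 1) :
    h5_Comm A.valuation (q : L) := by
  intro x hx
  classical
  have hq0 : A.valuation (q : L) ≠ 0 := by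
    rw [Valuation.ne_zero_iff]; exact_mod_cast hq.ne_zero
  have hint : IsIntegral ℚ x := Algebra.IsIntegral.isIntegral x
  set f := minpoly ℚ x with hf
  have hf0 : f ≠ 0 := minpoly.ne_zero hint
  have hsum : ∑ i ∈ f.support, algebraMap ℚ L (f.coeff i) * x ^ i = 0 := by
    have := minpoly.aeval ℚ x
    rw [Polynomial.aeval_def, Polynomial.eval₂_eq_sum, Polynomial.sum_def] at this
    exact this
  have hne : ∀ i ∈ f.support, algebraMap ℚ L (f.coeff i) * x ^ i ≠ 0 := by
    intro i hi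
    refine mul_ne_zero ?_ (pow_ne_zero i hx)
    rw [Ne, map_eq_zero]
    exact Polynomial.mem_support_iff.mp hi
  have hs : f.support.Nonempty := Polynomial.nonempty_support_iff.mpr hf0
  obtain ⟨i, hi, j, hj, hij, heq⟩ := h5_exists_eq_of_sum_eq_zero A.valuation f.support _ hs hsum hne
  -- wlog i < j
  have key : ∀ i j : ℕ, i ∈ f.support → j ∈ f.support → i < j →
      A.valuation (algebraMap ℚ L (f.coeff i) * x ^ i) =
        A.valuation (algebraMap ℚ L (f.coeff j) * x ^ j) →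
      ∃ e : ℕ, e ≠ 0 ∧ ∃ m : ℤ, A.valuation x ^ e = A.valuation (q : L) ^ m := by
    intro i j hi hj hlt heq
    obtain ⟨mi, hmi⟩ := h5_val_ratCast A hq hA (Polynomial.mem_support_iff.mp hi)
    obtain ⟨mj, hmj⟩ := h5_val_ratCast A hq hA (Polynomial.mem_support_iff.mp hj)
    have hvx : A.valuation x ≠ 0 := (Valuation.ne_zero_iff _).mpr hx
    refine ⟨j - i, by omega, mi - mj, ?_⟩
    rw [map_mul, map_mul, map_pow, map_pow, eq_ratCast, eq_ratCast, hmi, hmj] at heq
    have hj' : j = (j - i) + i := by omega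
    rw [hj', pow_add, ← mul_assoc] at heq
    have h2 := mul_right_cancel₀ (pow_ne_zero i hvx) heq
    rw [zpow_sub₀ hq0, h2]
    field_simp
  rcases lt_or_gt_of_ne hij with h | h
  · exact key i j hi hj h heq
  · exact key j i hj hi h heq.symm

end Concrete

section
variable {L : Type*} [Field L] (K : Type*) [Field K] [Algebra K L] (A : ValuationSubring L)

/-- elements of the decomposition group preserve `A`. -/
theorem h5_decomp_mem {σ : L ≃ₐ[K] L} (hσ : σ ∈ A.decompositionSubgroup K) {x : L} (hx : x ∈ A) :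
    σ x ∈ A := by
  have h := (A.subMulAction K).smul_mem ⟨σ, hσ⟩ (x := x) hx
  exact h

/-- elements of the inertia group act trivially on the residue field. -/
theorem h5_inertia {σ : L ≃ₐ[K] L} (hσ : σ ∈ A.inertiaSubgroupIn K) :
    σ ∈ A.decompositionSubgroup K ∧ ∀ x : L, x ∈ A → σ x - x ∈ A.nonunits := by
  obtain ⟨τ, hτ, rfl⟩ := Subgroup.mem_map.mp hσ
  refine ⟨τ.2, ?_⟩
  intro x hx
  have h1 : MulSemiringAction.toRingAut (A.decompositionSubgroup K) (IsLocalRing.ResidueField A) τ = 1 :=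
    MonoidHom.mem_ker.mp hτ
  have h2 : τ • (IsLocalRing.residue A ⟨x, hx⟩) = IsLocalRing.residue A ⟨x, hx⟩ := by
    have := congrArg (fun f => f (IsLocalRing.residue A ⟨x, hx⟩)) h1
    simpa using this
  rw [← IsLocalRing.ResidueField.residue_smul] at h2
  have h3 : IsLocalRing.residue A (τ • (⟨x, hx⟩ : A) - ⟨x, hx⟩) = 0 := by
    rw [map_sub, h2, sub_self]
  rw [IsLocalRing.residue_eq_zero_iff] at h3
  exact ValuationSubring.coe_mem_nonunits_iff.mpr h3

end


section Final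

open WeierstrassCurve in
theorem exists_ordFn (q : ℕ) (hq : q.Prime) (A : ValuationSubring (AlgebraicClosure ℚ))
    (hA : A.LiesOverPrime q) :
    ∃ v : OrdFn (AlgebraicClosure ℚ),
      v.HasOrd (q : AlgebraicClosure ℚ) 1 ∧
      (∀ n : ℤ, n ≠ 0 → v.HasOrd (n : AlgebraicClosure ℚ) (padicValInt q n)) ∧
      (∀ σ ∈ A.inertiaSubgroupIn ℚ, ∀ x : AlgebraicClosure ℚ, v.ord (σ x) = v.ord x) ∧
      (∀ σ ∈ A.inertiaSubgroupIn ℚ, ∀ x : AlgebraicClosure ℚ, v.Ge 0 x → v.Gt 0 (σ x - x)) := by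
  have hA' : A.valuation (q : AlgebraicClosure ℚ) < 1 := (A.mem_nonunits_iff).mp hA
  have hq0 : (q : AlgebraicClosure ℚ) ≠ 0 := by exact_mod_cast hq.ne_zero
  have hvq0 : A.valuation (q : AlgebraicClosure ℚ) ≠ 0 := (Valuation.ne_zero_iff _).mpr hq0
  have halg : Algebra.IsAlgebraic ℚ (AlgebraicClosure ℚ) := AlgebraicClosure.isAlgebraic ℚ
  have H := h5_comm A hq hA'
  refine ⟨h5_ordFn H hq0 hA', ⟨hq0, ?_⟩, ?_, ?_, ?_⟩
  · rw [h5_ordFn_eq H hq0 hA' hq0 one_ne_zero (m := 1) (by simp)]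
    simp
  · intro n hn
    have hn0 : (n : AlgebraicClosure ℚ) ≠ 0 := by exact_mod_cast hn
    refine ⟨hn0, ?_⟩
    rw [h5_ordFn_eq H hq0 hA' hn0 one_ne_zero (m := (padicValInt q n : ℕ))
      (by rw [pow_one, zpow_natCast]; exact h5_val_intCast A hq hA' hn)]
    simp
  · intro σ hσ x
    obtain ⟨hdec, -⟩ := h5_inertia ℚ A hσ
    by_cases hx : x = 0
    · rw [hx, map_zero]
    obtain ⟨e, he, m, h⟩ := H x hx
    have hσx : σ x ≠ 0 := by
      rw [Ne, map_eq_zero_iff σ σ.injective]; exact hx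
    rw [h5_ordFn_eq H hq0 hA' hx he h]
    refine h5_ordFn_eq H hq0 hA' hσx he ?_
    set u : AlgebraicClosure ℚ := x ^ e * ((q : AlgebraicClosure ℚ) ^ m)⁻¹ with hu
    have hvu : A.valuation u = 1 := by
      rw [hu, map_mul, map_pow, map_inv₀, map_zpow₀, h]
      exact mul_inv_cancel₀ (zpow_ne_zero m hvq0)
    have hu_mem : u ∈ A := (A.valuation_le_one_iff _).mp hvu.le
    have hu_inv_mem : u⁻¹ ∈ A := by
      rw [← A.valuation_le_one_iff, map_inv₀, hvu, inv_one]
    have h1 : A.valuation (σ u) ≤ 1 :=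
      (A.valuation_le_one_iff _).mpr (h5_decomp_mem ℚ A hdec hu_mem)
    have h2 : A.valuation (σ u⁻¹) ≤ 1 :=
      (A.valuation_le_one_iff _).mpr (h5_decomp_mem ℚ A hdec hu_inv_mem)
    rw [map_inv₀, map_inv₀] at h2
    have hσu0 : A.valuation (σ u) ≠ 0 := by
      rw [Valuation.ne_zero_iff, Ne, map_eq_zero_iff σ σ.injective, hu]
      exact mul_ne_zero (pow_ne_zero e hx) (inv_ne_zero (zpow_ne_zero m hq0))
    have h3 : A.valuation (σ u) = 1 :=
      le_antisymm h1 ((inv_le_one₀ (pos_iff_ne_zero.mpr hσu0)).mp h2)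
    rw [hu, map_mul, map_pow, map_inv₀, map_zpow₀, map_natCast, map_mul, map_pow, map_inv₀,
      map_zpow₀] at h3
    exact eq_of_mul_inv_eq_one h3
  · intro σ hσ x hx
    obtain ⟨-, hin⟩ := h5_inertia ℚ A hσ
    by_cases hx0 : x = 0
    · left; rw [hx0, map_zero, sub_zero]
    have hxA : x ∈ A := by
      rw [← A.valuation_le_one_iff, ← map_one A.valuation,
        ← h5_ordFn_le_iff H hq0 hA' hx0 one_ne_zero, OrdFn.ord_one]
      exact hx.le_ord hx0
    have hnu := hin x hxA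
    rw [A.mem_nonunits_iff] at hnu
    by_cases hd : σ x - x = 0
    · exact Or.inl hd
    · right
      by_contra hcon
      rw [not_lt] at hcon
      rw [← OrdFn.ord_one (v := h5_ordFn H hq0 hA'), h5_ordFn_le_iff H hq0 hA' one_ne_zero hd,
        map_one] at hcon
      exact absurd hnu (not_lt.mpr hcon)

end Final

end Fermat.Agent.S05
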