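import Fermat.Agent.S05.Defs

/-!
# S05 — task T6e (owner: helper72), abstract core of `cert_mult`

`h72_cert_aux` is `cert_mult` with the two inputs coming from the `MultSeq` (non-degeneracy of the
shifted point and the conclusion of `MultSeq.ord_pos_integral`) abstracted as hypotheses.
-/

set_option autoImplicit false

namespace Fermat.Agent.S05

open OrdFn

variable {K : Type*} [Field K]

/-- transport of a congruence `σ u ≡ u` from the unit `x / π ^ n` back to `x`. -/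
lemma h72_gt_of_unit (v : OrdFn K) (σ : K →+* K) (hσres : ∀ x, v.Ge 0 x → v.Gt 0 (σ x - x))
    (π : K) (hπ : v.HasOrd π 1) (hσπ : σ π = π) {x : K} {n : ℕ} (hx : v.HasOrd x n) :
    v.Gt n (σ x - x) := by
  have hπn : v.HasOrd (π ^ n) n := (hπ.pow n).congr (by ring)
  have hu : v.HasOrd (x / π ^ n) 0 := (hx.div hπn).congr (by ring)
  have h1 := hσres (x / π ^ n) (hu.ge le_rfl)
  have h2 : σ (x / π ^ n) - x / π ^ n = (σ x - x) / π ^ n := by
    rw [map_div₀, map_pow, hσπ, sub_div]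
  rw [h2] at h1
  have h3 := h1.mul_ge (hπn.ge le_rfl)
  rw [div_mul_cancel₀ _ hπn.ne_zero, zero_add] at h3
  exact h3

lemma h72_cert_aux (v : OrdFn K) {A B : K} {p : ℕ} (hp0 : 0 < p)
    (σ : K →+* K) (hσres : ∀ x, v.Ge 0 x → v.Gt 0 (σ x - x))
    (π : K) (hπ : v.HasOrd π 1) (hσπ : σ π = π)
    {e A' B' : K} {h₀ : ℕ} (hσe : σ e = e) (he : v.Ge 0 e) (hh₀ : 0 < h₀)
    (hA' : v.HasOrd A' ((p : ℚ) * h₀)) (hB' : v.HasOrd B' 0)
    (h1 : B' - A' = B - A + 3 * e) (h2' : -(A' * B') = 3 * e ^ 2 + 2 * e * (B - A) - A * B)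
    (h3 : e * (e - A) * (e + B) = 0)
    {X1 Y : K} (hX : v.Ge 0 X1) (hcurve : Y ^ 2 = X1 * (X1 - A) * (X1 + B))
    (hnd : (X1 - e) * (X1 - e - A') * (X1 - e + B') ≠ 0)
    (hT5 : 0 < v.ord (X1 - e) → v.ord (X1 - e) < (p : ℚ) * h₀ ∧
      ∃ j : ℤ, (p : ℚ) * v.ord (X1 - e) = j * (2 * ((p : ℚ) * h₀))) :
    Cert v A B X1 Y (σ X1) (σ Y) := by
  obtain ⟨T, hT⟩ : ∃ T, T = X1 - e := ⟨_, rfl⟩
  rw [← hT] at hnd hT5
  have hX1 : X1 = T + e := by rw [hT]; ring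
  have hT0 : T ≠ 0 := fun h => hnd (by rw [h]; ring)
  have hTA0 : T - A' ≠ 0 := fun h => hnd (by rw [h]; ring)
  have hTB0 : T + B' ≠ 0 := fun h => hnd (by rw [h]; ring)
  have hcurve' : Y ^ 2 = T * (T - A') * (T + B') := by
    rw [hX1] at hcurve
    linear_combination hcurve - T ^ 2 * h1 - T * h2' + h3
  have hY0 : Y ≠ 0 := by
    intro h
    rw [h] at hcurve'
    exact hnd (by rw [← hcurve']; ring)
  have hGeT : v.Ge 0 T := hT ▸ hX.sub he
  have hordT : 0 ≤ v.ord T := hGeT.le_ord hT0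
  have hσT : σ T - T = σ X1 - X1 := by
    rw [hT, map_sub, hσe]; ring
  have hh : (0 : ℚ) < (p : ℚ) * h₀ := by positivity
  have hpQ : (p : ℚ) ≠ 0 := by exact_mod_cast hp0.ne'
  have hXX0 : v.Gt 0 (σ X1 - X1) := hσres X1 hX
  have hGtA' : v.Gt 0 A' := hA'.gt hh
  rcases hordT.lt_or_eq with hpos | hzero
  · -- the point reduces to the node
    obtain ⟨hlt, j, hj⟩ := hT5 hpos
    have hm : v.ord T = ((2 * j * h₀ : ℤ) : ℚ) := by
      have h4 : (p : ℚ) * v.ord T = (p : ℚ) * ((2 * j * h₀ : ℤ) : ℚ) := by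
        rw [hj]; push_cast; ring
      exact mul_left_cancel₀ hpQ h4
    have hzpos : (0 : ℤ) < 2 * j * h₀ := by
      have h5 : (0 : ℚ) < ((2 * j * h₀ : ℤ) : ℚ) := hm ▸ hpos
      exact_mod_cast h5
    obtain ⟨n, hn⟩ : ∃ n : ℕ, (n : ℤ) = 2 * j * h₀ := ⟨(2 * j * h₀).toNat, Int.toNat_of_nonneg hzpos.le⟩
    have hmn : v.ord T = (n : ℚ) := by
      rw [hm, ← hn]; push_cast; ring
    have hTn : v.HasOrd T n := ⟨hT0, hmn⟩
    have hTAn : v.HasOrd (T - A') n := hTn.sub_gt (hA'.gt (hmn ▸ hlt))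
    have hTB : v.HasOrd (T + B') 0 := hB'.gt_add (Or.inr hpos)
    have hY2 : v.HasOrd (Y ^ 2) ((n : ℚ) + n + 0) := by
      rw [hcurve']; exact (hTn.mul hTAn).mul hTB
    have hYn : v.HasOrd Y n := by
      refine ⟨hY0, ?_⟩
      have h6 := hY2.ord_eq
      rw [ord_pow hY0] at h6
      push_cast at h6
      linarith
    refine Or.inl ⟨n, Nat.cast_nonneg n, hYn, ?_, ?_⟩
    · exact h72_gt_of_unit v σ hσres π hπ hσπ hYn
    · rw [← hσT]
      exact h72_gt_of_unit v σ hσres π hπ hσπ hTn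
  · -- `T` is a unit
    have hT' : v.HasOrd T 0 := ⟨hT0, hzero.symm⟩
    have hTA : v.HasOrd (T - A') 0 := hT'.sub_gt hGtA'
    have hGeTB : v.Ge 0 (T + B') := hGeT.add (hB'.ge le_rfl)
    have hordTB : 0 ≤ v.ord (T + B') := hGeTB.le_ord hTB0
    have hY2 : v.ord (Y ^ 2) = v.ord (T + B') := by
      rw [hcurve', ord_mul (mul_ne_zero hT0 hTA0) hTB0, ord_mul hT0 hTA0, hT'.ord_eq, hTA.ord_eq]
      ring
    rw [ord_pow hY0] at hY2
    push_cast at hY2
    have hordY : 0 ≤ v.ord Y := by linarith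
    have hGeY : v.Ge 0 Y := Or.inr hordY
    have hYY0 : v.Gt 0 (σ Y - Y) := hσres Y hGeY
    rcases hordY.lt_or_eq with hYpos | hYzero
    · -- `Y ∈ 𝔪`: `f'(X)` is a unit
      have hGtTB : v.Gt 0 (T + B') := Or.inr (by linarith)
      have hF : 3 * X1 ^ 2 + 2 * (B - A) * X1 - A * B =
          T * (T - A') + ((T - A') * (T + B') + T * (T + B')) := by
        rw [hX1]
        linear_combination (-2 * T) * h1 - h2'
      refine Or.inr ⟨hYY0, hXX0, ?_⟩
      rw [hF]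
      have h7 : v.HasOrd (T * (T - A')) 0 := (hT'.mul hTA).congr (by ring)
      have h8 : v.Gt 0 ((T - A') * (T + B')) :=
        ((hTA.ge le_rfl).mul_gt hGtTB).mono (by norm_num)
      have h9 : v.Gt 0 (T * (T + B')) := (hGeT.mul_gt hGtTB).mono (by norm_num)
      exact h7.add_gt (h8.add h9)
    · exact Or.inl ⟨0, le_rfl, ⟨hY0, hYzero.symm⟩, hYY0, hXX0⟩

end Fermat.Agent.S05
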