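import Mathlib

/-!
# S05, step (4): curve-independent "tropical" core (helper9)

`ord : K → ℚ` is an additive valuation on the nonzero elements of a field `K`
(junk value at `0`).  We prove the Newton-polygon lemma for a quadratic, the
"unsigned component" addition rule for the model `Y^2 = X (X + M) (X + N)` with
`ord M = h > 0`, `ord N = 0`, and deduce that a point of odd order `p` whose
`X`-coordinate has `0 < ord X < h` satisfies `p * ord X ∈ 2 h ℤ`.
-/

set_option autoImplicit false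
set_option linter.unusedSectionVars false

namespace Fermat.Agent.S05

section Tropical

variable {K : Type*} [Field K]

/-- `ord` behaves like an additive valuation on nonzero elements. -/
structure H9Ord (ord : K → ℚ) : Prop where
  mul : ∀ {x y : K}, x ≠ 0 → y ≠ 0 → ord (x * y) = ord x + ord y
  add : ∀ {x y : K}, x ≠ 0 → y ≠ 0 → x + y ≠ 0 → min (ord x) (ord y) ≤ ord (x + y)

/-- `x ≠ 0` and `ord x = t`. -/
def H9EQ (ord : K → ℚ) (x : K) (t : ℚ) : Prop := x ≠ 0 ∧ ord x = t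

/-- `x = 0` or `t ≤ ord x`. -/
def H9GE (ord : K → ℚ) (x : K) (t : ℚ) : Prop := x = 0 ∨ t ≤ ord x

variable {ord : K → ℚ}

theorem H9Ord.one (ho : H9Ord ord) : ord 1 = 0 := by
  have h := ho.mul (x := (1 : K)) (y := 1) one_ne_zero one_ne_zero
  rw [mul_one] at h
  linarith

theorem H9Ord.neg_one (ho : H9Ord ord) : ord (-1) = 0 := by
  have h := ho.mul (x := (-1 : K)) (y := -1) (neg_ne_zero.mpr one_ne_zero)
    (neg_ne_zero.mpr one_ne_zero)
  rw [neg_mul_neg, mul_one, ho.one] at h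
  linarith

theorem H9Ord.neg (ho : H9Ord ord) {x : K} (hx : x ≠ 0) : ord (-x) = ord x := by
  have h := ho.mul (x := (-1 : K)) (y := x) (neg_ne_zero.mpr one_ne_zero) hx
  rw [neg_one_mul, ho.neg_one] at h
  linarith

theorem H9Ord.inv (ho : H9Ord ord) {x : K} (hx : x ≠ 0) : ord x⁻¹ = - ord x := by
  have h := ho.mul (x := x) (y := x⁻¹) hx (inv_ne_zero hx)
  rw [mul_inv_cancel₀ hx, ho.one] at h
  linarith

theorem H9EQ.ne_zero {x : K} {t : ℚ} (h : H9EQ ord x t) : x ≠ 0 := h.1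

theorem H9EQ.ord_eq {x : K} {t : ℚ} (h : H9EQ ord x t) : ord x = t := h.2

theorem H9EQ.mul (ho : H9Ord ord) {x y : K} {s t : ℚ} (hx : H9EQ ord x s) (hy : H9EQ ord y t) :
    H9EQ ord (x * y) (s + t) :=
  ⟨mul_ne_zero hx.1 hy.1, by rw [ho.mul hx.1 hy.1, hx.2, hy.2]⟩

theorem H9EQ.neg (ho : H9Ord ord) {x : K} {s : ℚ} (hx : H9EQ ord x s) : H9EQ ord (-x) s :=
  ⟨neg_ne_zero.mpr hx.1, by rw [ho.neg hx.1, hx.2]⟩

theorem H9EQ.inv (ho : H9Ord ord) {x : K} {s : ℚ} (hx : H9EQ ord x s) : H9EQ ord x⁻¹ (-s) :=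
  ⟨inv_ne_zero hx.1, by rw [ho.inv hx.1, hx.2]⟩

theorem H9EQ.sq (ho : H9Ord ord) {x : K} {s : ℚ} (hx : H9EQ ord x s) : H9EQ ord (x ^ 2) (2 * s) := by
  have h := hx.mul ho hx
  rw [← pow_two] at h
  convert h using 1
  ring

theorem H9EQ.congr {x : K} {s t : ℚ} (hx : H9EQ ord x s) (h : s = t) : H9EQ ord x t := h ▸ hx

theorem H9EQ.toGE {x : K} {s t : ℚ} (hx : H9EQ ord x s) (h : t ≤ s) : H9GE ord x t :=
  Or.inr (hx.2 ▸ h)

theorem H9GE.mono {x : K} {s t : ℚ} (hx : H9GE ord x s) (h : t ≤ s) : H9GE ord x t :=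
  hx.imp id (fun h' => le_trans h h')

theorem H9GE.zero (t : ℚ) : H9GE ord (0 : K) t := Or.inl rfl

theorem H9GE.le_of_ne {x : K} {s : ℚ} (hx : H9GE ord x s) (h : x ≠ 0) : s ≤ ord x :=
  hx.resolve_left h

theorem H9GE.mul (ho : H9Ord ord) {x y : K} {s t : ℚ} (hx : H9GE ord x s) (hy : H9GE ord y t) :
    H9GE ord (x * y) (s + t) := by
  rcases hx with rfl | hx
  · left; simp
  rcases hy with rfl | hy
  · left; simp
  by_cases hx0 : x = 0
  · left; simp [hx0]
  by_cases hy0 : y = 0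
  · left; simp [hy0]
  right
  rw [ho.mul hx0 hy0]
  linarith

theorem H9GE.neg (ho : H9Ord ord) {x : K} {s : ℚ} (hx : H9GE ord x s) : H9GE ord (-x) s := by
  rcases hx with rfl | hx
  · left; simp
  by_cases hx0 : x = 0
  · left; simp [hx0]
  right
  rw [ho.neg hx0]; exact hx

theorem H9GE.add (ho : H9Ord ord) {x y : K} {s : ℚ} (hx : H9GE ord x s) (hy : H9GE ord y s) :
    H9GE ord (x + y) s := by
  by_cases hx0 : x = 0
  · rw [hx0, zero_add]; exact hy
  by_cases hy0 : y = 0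
  · rw [hy0, add_zero]; exact hx
  by_cases hxy : x + y = 0
  · left; exact hxy
  right
  have h := ho.add hx0 hy0 hxy
  have h1 := hx.le_of_ne hx0
  have h2 := hy.le_of_ne hy0
  exact le_trans (le_min h1 h2) h

theorem H9GE.sub (ho : H9Ord ord) {x y : K} {s : ℚ} (hx : H9GE ord x s) (hy : H9GE ord y s) :
    H9GE ord (x - y) s := by
  rw [sub_eq_add_neg]; exact hx.add ho (hy.neg ho)

/-- The ultrametric equality: a term of strictly smaller `ord` dominates. -/
theorem H9EQ.add_of_lt (ho : H9Ord ord) {x y : K} {s t : ℚ} (hx : H9EQ ord x s)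
    (hy : H9GE ord y t) (hst : s < t) : H9EQ ord (x + y) s := by
  by_cases hy0 : y = 0
  · rw [hy0, add_zero]; exact hx
  have hyt := hy.le_of_ne hy0
  have hxy : x + y ≠ 0 := by
    intro h
    have hxe : x = -y := eq_neg_of_add_eq_zero_left h
    have : ord x = ord y := by rw [hxe, ho.neg hy0]
    linarith [hx.2]
  refine ⟨hxy, le_antisymm ?_ ?_⟩
  · -- ord (x+y) ≤ s : otherwise x = (x+y) + (-y) has ord > s
    by_contra hcon
    have hcon := not_le.mp hcon
    have h := ho.add (x := x + y) (y := -y) hxy (neg_ne_zero.mpr hy0) (by simpa using hx.1)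
    rw [add_neg_cancel_right, ho.neg hy0, hx.2] at h
    have : s < min (ord (x + y)) (ord y) := lt_min hcon (lt_of_lt_of_le hst hyt)
    linarith
  · have h := ho.add hx.1 hy0 hxy
    rw [hx.2] at h
    have : s ≤ min s (ord y) := le_min le_rfl (le_trans hst.le hyt)
    linarith

theorem H9EQ.add_of_lt' (ho : H9Ord ord) {x y : K} {s t : ℚ} (hy : H9EQ ord y s)
    (hx : H9GE ord x t) (hst : s < t) : H9EQ ord (x + y) s := by
  rw [add_comm]; exact hy.add_of_lt ho hx hst

theorem H9EQ.sub_of_lt (ho : H9Ord ord) {x y : K} {s t : ℚ} (hx : H9EQ ord x s)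
    (hy : H9GE ord y t) (hst : s < t) : H9EQ ord (x - y) s := by
  rw [sub_eq_add_neg]; exact hx.add_of_lt ho (hy.neg ho) hst

theorem H9EQ.sub_of_lt' (ho : H9Ord ord) {x y : K} {s t : ℚ} (hy : H9EQ ord y s)
    (hx : H9GE ord x t) (hst : s < t) : H9EQ ord (x - y) s := by
  rw [sub_eq_add_neg]; exact (hy.neg ho).add_of_lt' ho hx hst

/-- From `S * D = n` with known `ord D` and `ord n`. -/
theorem H9EQ.of_mul_eq (ho : H9Ord ord) {S D n : K} {e t : ℚ} (h : S * D = n)
    (hD : H9EQ ord D e) (hn : H9EQ ord n t) : H9EQ ord S (t - e) := by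
  have hS : S ≠ 0 := by
    rintro rfl; rw [zero_mul] at h; exact hn.1 h.symm
  refine ⟨hS, ?_⟩
  have := ho.mul hS hD.1
  rw [h, hn.2, hD.2] at this
  linarith

theorem H9GE.of_mul_eq (ho : H9Ord ord) {S D n : K} {e t : ℚ} (h : S * D = n)
    (hD : H9EQ ord D e) (hn : H9GE ord n t) : H9GE ord S (t - e) := by
  by_cases hS : S = 0
  · left; exact hS
  right
  have hn0 : n ≠ 0 := by rw [← h]; exact mul_ne_zero hS hD.1
  have := ho.mul hS hD.1
  rw [h, hD.2] at this
  have := hn.le_of_ne hn0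
  linarith

/-- Newton polygon of a quadratic, two distinct slopes. -/
theorem h9_newton_lt (ho : H9Ord ord) {X3 X4 S P : K} {s t : ℚ} (hS : X3 + X4 = S)
    (hP : X3 * X4 = P) (hs : H9EQ ord S s) (ht : H9EQ ord P t) (hlt : 2 * s < t) :
    (H9EQ ord X3 s ∧ H9EQ ord X4 (t - s)) ∨ (H9EQ ord X4 s ∧ H9EQ ord X3 (t - s)) := by
  have h3 : X3 ≠ 0 := by rintro rfl; rw [zero_mul] at hP; exact ht.1 hP.symm
  have h4 : X4 ≠ 0 := by rintro rfl; rw [mul_zero] at hP; exact ht.1 hP.symm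
  have hsum : ord X3 + ord X4 = t := by rw [← ho.mul h3 h4, hP, ht.2]
  rcases lt_trichotomy (ord X3) (ord X4) with hlt' | heq | hgt
  · left
    have : H9EQ ord (X3 + X4) (ord X3) :=
      H9EQ.add_of_lt ho ⟨h3, rfl⟩ (Or.inr le_rfl : H9GE ord X4 (ord X4)) hlt'
    rw [hS] at this
    have h3s : ord X3 = s := by rw [← this.2, hs.2]
    exact ⟨⟨h3, h3s⟩, ⟨h4, by linarith⟩⟩
  · exfalso
    have hge : H9GE ord (X3 + X4) (ord X3) :=
      H9GE.add ho (Or.inr le_rfl) (Or.inr heq.le)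
    rw [hS] at hge
    have := hge.le_of_ne hs.1
    rw [hs.2] at this
    linarith
  · right
    have : H9EQ ord (X3 + X4) (ord X4) :=
      H9EQ.add_of_lt' ho ⟨h4, rfl⟩ (Or.inr le_rfl : H9GE ord X3 (ord X3)) hgt
    rw [hS] at this
    have h4s : ord X4 = s := by rw [← this.2, hs.2]
    exact ⟨⟨h4, h4s⟩, ⟨h3, by linarith⟩⟩

/-- Newton polygon of a quadratic, one slope. -/
theorem h9_newton_ge (ho : H9Ord ord) {X3 X4 S P : K} {s t : ℚ} (hS : X3 + X4 = S)
    (hP : X3 * X4 = P) (hs : H9GE ord S s) (ht : H9EQ ord P t) (hge : t ≤ 2 * s) :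
    H9EQ ord X3 (t / 2) ∧ H9EQ ord X4 (t / 2) := by
  have h3 : X3 ≠ 0 := by rintro rfl; rw [zero_mul] at hP; exact ht.1 hP.symm
  have h4 : X4 ≠ 0 := by rintro rfl; rw [mul_zero] at hP; exact ht.1 hP.symm
  have hsum : ord X3 + ord X4 = t := by rw [← ho.mul h3 h4, hP, ht.2]
  rcases lt_trichotomy (ord X3) (ord X4) with hlt' | heq | hgt
  · exfalso
    have : H9EQ ord (X3 + X4) (ord X3) :=
      H9EQ.add_of_lt ho ⟨h3, rfl⟩ (Or.inr le_rfl : H9GE ord X4 (ord X4)) hlt'
    rw [hS] at this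
    have := hs.le_of_ne this.1
    rw [‹H9EQ ord S (ord X3)›.2] at this
    linarith
  · exact ⟨⟨h3, by linarith⟩, ⟨h4, by linarith⟩⟩
  · exfalso
    have : H9EQ ord (X3 + X4) (ord X4) :=
      H9EQ.add_of_lt' ho ⟨h4, rfl⟩ (Or.inr le_rfl : H9GE ord X3 (ord X3)) hgt
    rw [hS] at this
    have := hs.le_of_ne this.1
    rw [‹H9EQ ord S (ord X4)›.2] at this
    linarith


/-! ### The unsigned component function -/

/-- "Unsigned component": `ord x` clamped to `[0, h]`. -/
noncomputable def h9D (ord : K → ℚ) (h : ℚ) (x : K) : ℚ := max 0 (min (ord x) h)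

theorem h9D_eq_zero {x : K} {h : ℚ} (hh : 0 < h) (hx : ord x ≤ 0) : h9D ord h x = 0 := by
  unfold h9D
  rw [min_eq_left (by linarith), max_eq_left hx]

theorem h9D_eq_top {x : K} {h : ℚ} (hh : 0 < h) (hx : h ≤ ord x) : h9D ord h x = h := by
  unfold h9D
  rw [min_eq_right hx, max_eq_right hh.le]

theorem h9D_eq_self {x : K} {h : ℚ} (hx0 : 0 ≤ ord x) (hxh : ord x ≤ h) :
    h9D ord h x = ord x := by
  unfold h9D
  rw [min_eq_left hxh, max_eq_right hx0]

theorem h9D_nonneg {x : K} {h : ℚ} : 0 ≤ h9D ord h x := le_max_left _ _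

theorem h9D_le {x : K} {h : ℚ} (hh : 0 < h) : h9D ord h x ≤ h :=
  max_le hh.le (min_le_right _ _)

theorem h9_finish {X3 X4 : K} {h a b A B : ℚ}
    (hv : (H9EQ ord X3 a ∧ H9EQ ord X4 b) ∨ (H9EQ ord X4 a ∧ H9EQ ord X3 b))
    (ha : max 0 (min a h) = A) (hb : max 0 (min b h) = B) :
    (h9D ord h X3 = A ∧ h9D ord h X4 = B) ∨ (h9D ord h X4 = A ∧ h9D ord h X3 = B) := by
  rcases hv with ⟨h3, h4⟩ | ⟨h4, h3⟩
  · left; unfold h9D; rw [h3.2, h4.2]; exact ⟨ha, hb⟩
  · right; unfold h9D; rw [h3.2, h4.2]; exact ⟨ha, hb⟩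

/-- Component addition rule for `Y^2 = X (X + M) (X + N)`, `ord M = h > 0`, `ord N = 0`:
if `X3, X4` are the `X`-coordinates of `P ± Q`, where `X1 = X(P)` has `0 < ord X1 = c < h`
and `X2 = X(Q)`, then the unsigned components of `P ± Q` are `|D(Q) - c|` and
`min (D(Q) + c) (2h - D(Q) - c)`, in some order. -/
theorem h9_comp_add (ho : H9Ord ord) {M N X1 X2 X3 X4 : K} {h c : ℚ}
    (hM : H9EQ ord M h) (hh : 0 < h) (hN : H9EQ ord N 0) (h2 : H9EQ ord (2 : K) 0)
    (h1 : H9EQ ord X1 c) (hc0 : 0 < c) (hch : c < h) (hX2 : X2 ≠ 0) (hne : X1 ≠ X2)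
    (hX3 : X3 ≠ 0) (hX4 : X4 ≠ 0)
    (hS : (X3 + X4) * (X1 - X2) ^ 2 =
      2 * ((X1 + X2) * (X1 * X2 + M * N) + 2 * (M + N) * X1 * X2))
    (hP : X3 * X4 * (X1 - X2) ^ 2 = (X1 * X2 - M * N) ^ 2) :
    (h9D ord h X3 = |h9D ord h X2 - c| ∧
        h9D ord h X4 = min (h9D ord h X2 + c) (2 * h - h9D ord h X2 - c)) ∨
      (h9D ord h X4 = |h9D ord h X2 - c| ∧
        h9D ord h X3 = min (h9D ord h X2 + c) (2 * h - h9D ord h X2 - c)) := by
  -- basic data
  set d := ord X2 with hd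
  have hx2 : H9EQ ord X2 d := ⟨hX2, rfl⟩
  have hMN : H9EQ ord (M * N) h := (hM.mul ho hN).congr (by ring)
  have hMpN : H9EQ ord (M + N) 0 := H9EQ.add_of_lt' ho hN (hM.toGE le_rfl) hh
  have hD0 : X1 - X2 ≠ 0 := sub_ne_zero.mpr hne
  set δ := ord (X1 - X2) with hδ
  have hDn : H9EQ ord ((X1 - X2) ^ 2) (2 * δ) := H9EQ.sq ho ⟨hD0, rfl⟩
  have hμ0 : X1 * X2 - M * N ≠ 0 := by
    intro h0
    rw [h0] at hP
    have : X3 * X4 * (X1 - X2) ^ 2 ≠ 0 := mul_ne_zero (mul_ne_zero hX3 hX4) hDn.1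
    exact this (by rw [hP]; ring)
  set μ := ord (X1 * X2 - M * N) with hμ
  have hPi : H9EQ ord (X3 * X4) (2 * μ - 2 * δ) :=
    H9EQ.of_mul_eq ho hP hDn (H9EQ.sq ho ⟨hμ0, rfl⟩)
  have hX12 : H9EQ ord (X1 * X2) (c + d) := h1.mul ho hx2
  have hT2 : H9EQ ord (2 * (M + N) * X1 * X2) (c + d) :=
    (((h2.mul ho hMpN).mul ho h1).mul ho hx2).congr (by ring)
  have h2ge : H9GE ord (2 : K) 0 := h2.toGE le_rfl
  -- the numerator, given a lower bound on the first term that exceeds `c + d`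
  have key_lt : ∀ {t : ℚ}, H9GE ord ((X1 + X2) * (X1 * X2 + M * N)) t → c + d < t →
      H9EQ ord (X3 + X4) (c + d - 2 * δ) := by
    intro t ht hlt
    have hsum : H9EQ ord ((X1 + X2) * (X1 * X2 + M * N) + 2 * (M + N) * X1 * X2) (c + d) :=
      H9EQ.add_of_lt' ho hT2 ht hlt
    exact H9EQ.of_mul_eq ho hS hDn ((h2.mul ho hsum).congr (by ring))
  have key_ge : ∀ {t : ℚ}, H9GE ord ((X1 + X2) * (X1 * X2 + M * N)) t → t ≤ c + d →
      H9GE ord (X3 + X4) (t - 2 * δ) := by
    intro t ht hle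
    have hsum : H9GE ord ((X1 + X2) * (X1 * X2 + M * N) + 2 * (M + N) * X1 * X2) t :=
      H9GE.add ho ht (hT2.toGE hle)
    exact H9GE.of_mul_eq ho hS hDn ((h2ge.mul ho hsum).mono (by linarith))
  have hδμ : δ = ord (X1 - X2) := hδ
  have hμμ : μ = ord (X1 * X2 - M * N) := hμ
  -- case analysis on `d = ord X2`
  rcases le_or_gt d 0 with hd0 | hd0
  · -- (i) d ≤ 0
    have e1 : H9EQ ord (X1 - X2) d := H9EQ.sub_of_lt' ho hx2 (h1.toGE le_rfl) (by linarith)
    have e2 : H9EQ ord (X1 * X2 - M * N) (c + d) :=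
      H9EQ.sub_of_lt ho hX12 (hMN.toGE le_rfl) (by linarith)
    have hδv : δ = d := e1.2
    have hμv : μ = c + d := e2.2
    have g1 : H9GE ord (X1 + X2) d := (H9EQ.add_of_lt' ho hx2 (h1.toGE le_rfl) (by linarith)).toGE le_rfl
    have g2 : H9GE ord (X1 * X2 + M * N) (c + d) :=
      (H9EQ.add_of_lt ho hX12 (hMN.toGE le_rfl) (by linarith)).toGE le_rfl
    have hSge := key_ge ((g1.mul ho g2).mono (le_refl (d + (c + d)))) (by linarith)
    have hn := h9_newton_ge ho rfl rfl (hSge.mono (show c ≤ d + (c + d) - 2 * δ by linarith))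
      hPi (by linarith)
    have hDX2 : h9D ord h X2 = 0 := h9D_eq_zero hh hd0
    rw [hDX2]
    refine h9_finish (a := c) (b := c) (Or.inl ⟨hn.1.congr (by linarith), hn.2.congr (by linarith)⟩) ?_ ?_
    · rw [min_eq_left hch.le, max_eq_right hc0.le, zero_sub, abs_neg, abs_of_pos hc0]
    · rw [min_eq_left hch.le, max_eq_right hc0.le, zero_add, min_eq_left (by linarith)]
  rcases le_or_gt h d with hdh | hdh
  · -- (v) h ≤ d
    have e1 : H9EQ ord (X1 - X2) c := H9EQ.sub_of_lt ho h1 (hx2.toGE le_rfl) (by linarith)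
    have e2 : H9EQ ord (X1 * X2 - M * N) h :=
      H9EQ.sub_of_lt' ho hMN (hX12.toGE le_rfl) (by linarith)
    have hδv : δ = c := e1.2
    have hμv : μ = h := e2.2
    have g1 : H9GE ord (X1 + X2) c := (H9EQ.add_of_lt ho h1 (hx2.toGE le_rfl) (by linarith)).toGE le_rfl
    have g2 : H9GE ord (X1 * X2 + M * N) h :=
      H9GE.add ho (hX12.toGE (by linarith)) (hMN.toGE le_rfl)
    have hSge := key_ge (g1.mul ho g2) (by linarith)
    have hn := h9_newton_ge ho rfl rfl (hSge.mono (show h - c ≤ c + h - 2 * δ by linarith))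
      hPi (by linarith)
    have hDX2 : h9D ord h X2 = h := h9D_eq_top hh hdh
    rw [hDX2]
    refine h9_finish (a := h - c) (b := h - c)
      (Or.inl ⟨hn.1.congr (by linarith), hn.2.congr (by linarith)⟩) ?_ ?_
    · rw [min_eq_left (by linarith), max_eq_right (by linarith), abs_of_pos (by linarith)]
    · rw [min_eq_left (by linarith), max_eq_right (by linarith), min_eq_right (by linarith)]
      ring
  -- now 0 < d < h
  have hDX2 : h9D ord h X2 = d := h9D_eq_self hd0.le hdh.le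
  rw [hDX2]
  rcases eq_or_ne d c with hdc | hdc
  · -- (iii) d = c
    have hδc : c ≤ δ := (H9GE.sub ho (h1.toGE le_rfl) (hx2.toGE hdc.ge)).le_of_ne hD0
    have g1 : H9GE ord (X1 + X2) c := H9GE.add ho (h1.toGE le_rfl) (hx2.toGE hdc.ge)
    rcases lt_trichotomy (2 * c) h with h2c | h2c | h2c
    · have e2 : H9EQ ord (X1 * X2 - M * N) (c + d) :=
        H9EQ.sub_of_lt ho hX12 (hMN.toGE le_rfl) (by linarith)
      have hμv : μ = c + d := e2.2
      have g2 : H9GE ord (X1 * X2 + M * N) (c + d) :=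
        (H9EQ.add_of_lt ho hX12 (hMN.toGE le_rfl) (by linarith)).toGE le_rfl
      have hSe := key_lt (g1.mul ho g2) (by linarith)
      have hn := h9_newton_lt ho rfl rfl hSe hPi (by linarith)
      refine h9_finish (a := c + d - 2 * δ) (b := 2 * μ - 2 * δ - (c + d - 2 * δ)) hn ?_ ?_
      · rw [min_eq_left (by linarith), max_eq_left (by linarith), hdc, sub_self, abs_zero]
      · rw [min_eq_left (by linarith), max_eq_right (by linarith), min_eq_left (by linarith)]
        linarith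
    · have hμh : h ≤ μ := (H9GE.sub ho (hX12.toGE (by linarith)) (hMN.toGE le_rfl)).le_of_ne hμ0
      have g2 : H9GE ord (X1 * X2 + M * N) h :=
        H9GE.add ho (hX12.toGE (by linarith)) (hMN.toGE le_rfl)
      have hSe := key_lt (g1.mul ho g2) (by linarith)
      have hn := h9_newton_lt ho rfl rfl hSe hPi (by linarith)
      refine h9_finish (a := c + d - 2 * δ) (b := 2 * μ - 2 * δ - (c + d - 2 * δ)) hn ?_ ?_
      · rw [min_eq_left (by linarith), max_eq_left (by linarith), hdc, sub_self, abs_zero]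
      · rw [min_eq_right (by linarith), max_eq_right (by linarith), min_eq_left (by linarith)]
        linarith
    · have e2 : H9EQ ord (X1 * X2 - M * N) h :=
        H9EQ.sub_of_lt' ho hMN (hX12.toGE le_rfl) (by linarith)
      have hμv : μ = h := e2.2
      have g2 : H9GE ord (X1 * X2 + M * N) h :=
        H9GE.add ho (hX12.toGE (by linarith)) (hMN.toGE le_rfl)
      have hSe := key_lt (g1.mul ho g2) (by linarith)
      have hn := h9_newton_lt ho rfl rfl hSe hPi (by linarith)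
      refine h9_finish (a := c + d - 2 * δ) (b := 2 * μ - 2 * δ - (c + d - 2 * δ)) hn ?_ ?_
      · rw [min_eq_left (by linarith), max_eq_left (by linarith), hdc, sub_self, abs_zero]
      · rw [min_eq_left (by linarith), max_eq_right (by linarith), min_eq_right (by linarith)]
        linarith
  -- d ≠ c : δ = min c d
  have hδm : (δ = c ∧ c < d) ∨ (δ = d ∧ d < c) := by
    rcases lt_or_gt_of_ne hdc with hlt | hlt
    · right
      exact ⟨(H9EQ.sub_of_lt' ho hx2 (h1.toGE le_rfl) hlt).2, hlt⟩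
    · left
      exact ⟨(H9EQ.sub_of_lt ho h1 (hx2.toGE le_rfl) hlt).2, hlt⟩
  have g1 : H9GE ord (X1 + X2) δ := by
    rcases hδm with ⟨hδe, hlt⟩ | ⟨hδe, hlt⟩
    · exact H9GE.add ho (h1.toGE hδe.le) (hx2.toGE (by linarith))
    · exact H9GE.add ho (h1.toGE (by linarith)) (hx2.toGE hδe.le)
  rcases lt_trichotomy (c + d) h with hcd | hcd | hcd
  · -- (ii) c + d < h
    have e2 : H9EQ ord (X1 * X2 - M * N) (c + d) :=
      H9EQ.sub_of_lt ho hX12 (hMN.toGE le_rfl) hcd
    have hμv : μ = c + d := e2.2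
    have g2 : H9GE ord (X1 * X2 + M * N) (c + d) :=
      (H9EQ.add_of_lt ho hX12 (hMN.toGE le_rfl) hcd).toGE le_rfl
    have hSe := key_lt (g1.mul ho g2) (by rcases hδm with ⟨hδe, hlt⟩ | ⟨hδe, hlt⟩ <;> linarith)
    have hn := h9_newton_lt ho rfl rfl hSe hPi
      (by rcases hδm with ⟨hδe, hlt⟩ | ⟨hδe, hlt⟩ <;> linarith)
    refine h9_finish (a := c + d - 2 * δ) (b := 2 * μ - 2 * δ - (c + d - 2 * δ)) hn ?_ ?_
    · rcases hδm with ⟨hδe, hlt⟩ | ⟨hδe, hlt⟩
      · rw [min_eq_left (by linarith), max_eq_right (by linarith), abs_of_pos (by linarith)]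
        linarith
      · rw [min_eq_left (by linarith), max_eq_right (by linarith), abs_of_neg (by linarith)]
        linarith
    · rw [min_eq_left (by linarith), max_eq_right (by linarith), min_eq_left (by linarith)]
      linarith
  · -- (iv) c + d = h
    have hμh : h ≤ μ := (H9GE.sub ho (hX12.toGE hcd.ge) (hMN.toGE le_rfl)).le_of_ne hμ0
    have g2 : H9GE ord (X1 * X2 + M * N) h :=
      H9GE.add ho (hX12.toGE hcd.ge) (hMN.toGE le_rfl)
    have hSe := key_lt (g1.mul ho g2) (by rcases hδm with ⟨hδe, hlt⟩ | ⟨hδe, hlt⟩ <;> linarith)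
    have hn := h9_newton_lt ho rfl rfl hSe hPi
      (by rcases hδm with ⟨hδe, hlt⟩ | ⟨hδe, hlt⟩ <;> linarith)
    refine h9_finish (a := c + d - 2 * δ) (b := 2 * μ - 2 * δ - (c + d - 2 * δ)) hn ?_ ?_
    · rcases hδm with ⟨hδe, hlt⟩ | ⟨hδe, hlt⟩
      · rw [min_eq_left (by linarith), max_eq_right (by linarith), abs_of_pos (by linarith)]
        linarith
      · rw [min_eq_left (by linarith), max_eq_right (by linarith), abs_of_neg (by linarith)]
        linarith
    · rw [min_eq_right (by linarith), max_eq_right (by linarith), min_eq_left (by linarith)]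
      linarith
  · -- (ii') h < c + d
    have e2 : H9EQ ord (X1 * X2 - M * N) h :=
      H9EQ.sub_of_lt' ho hMN (hX12.toGE le_rfl) hcd
    have hμv : μ = h := e2.2
    have g2 : H9GE ord (X1 * X2 + M * N) h :=
      H9GE.add ho (hX12.toGE hcd.le) (hMN.toGE le_rfl)
    have hSe := key_lt (g1.mul ho g2) (by rcases hδm with ⟨hδe, hlt⟩ | ⟨hδe, hlt⟩ <;> linarith)
    have hn := h9_newton_lt ho rfl rfl hSe hPi
      (by rcases hδm with ⟨hδe, hlt⟩ | ⟨hδe, hlt⟩ <;> linarith)
    refine h9_finish (a := c + d - 2 * δ) (b := 2 * μ - 2 * δ - (c + d - 2 * δ)) hn ?_ ?_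
    · rcases hδm with ⟨hδe, hlt⟩ | ⟨hδe, hlt⟩
      · rw [min_eq_left (by linarith), max_eq_right (by linarith), abs_of_pos (by linarith)]
        linarith
      · rw [min_eq_left (by linarith), max_eq_right (by linarith), abs_of_neg (by linarith)]
        linarith
    · rw [min_eq_left (by linarith), max_eq_right (by linarith), min_eq_right (by linarith)]
      linarith


/-- Duplication rule for the unsigned component. -/
theorem h9_comp_dup (ho : H9Ord ord) {M N X1 X' : K} {h c : ℚ}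
    (hM : H9EQ ord M h) (hN : H9EQ ord N 0) (h2 : H9EQ ord (2 : K) 0)
    (h1 : H9EQ ord X1 c) (hc0 : 0 < c) (hch : c < h) (hX' : X' ≠ 0)
    (hdup : X' * (4 * X1 * (X1 + M) * (X1 + N)) = (X1 ^ 2 - M * N) ^ 2) :
    h9D ord h X' = min (2 * c) (2 * h - 2 * c) := by
  have hh : 0 < h := lt_trans hc0 hch
  have hMN : H9EQ ord (M * N) h := (hM.mul ho hN).congr (by ring)
  have h4 : H9EQ ord (4 : K) 0 := by
    have := h2.mul ho h2
    have e : (2 : K) * 2 = 4 := by norm_num
    rw [e] at this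
    exact this.congr (by ring)
  have hXM : H9EQ ord (X1 + M) c := H9EQ.add_of_lt ho h1 (hM.toGE le_rfl) hch
  have hXN : H9EQ ord (X1 + N) 0 := H9EQ.add_of_lt' ho hN (h1.toGE le_rfl) hc0
  have hden : H9EQ ord (4 * X1 * (X1 + M) * (X1 + N)) (2 * c) :=
    (((h4.mul ho h1).mul ho hXM).mul ho hXN).congr (by ring)
  have hν0 : X1 ^ 2 - M * N ≠ 0 := by
    intro h0
    rw [h0] at hdup
    exact (mul_ne_zero hX' hden.1) (by rw [hdup]; ring)
  set ν := ord (X1 ^ 2 - M * N) with hν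
  have hX'e : H9EQ ord X' (2 * ν - 2 * c) := H9EQ.of_mul_eq ho hdup hden (H9EQ.sq ho ⟨hν0, rfl⟩)
  have hsq : H9EQ ord (X1 ^ 2) (2 * c) := H9EQ.sq ho h1
  unfold h9D
  rw [hX'e.2]
  rcases lt_trichotomy (2 * c) h with h2c | h2c | h2c
  · have : ν = 2 * c := (H9EQ.sub_of_lt ho hsq (hMN.toGE le_rfl) h2c).2
    rw [min_eq_left (by linarith), max_eq_right (by linarith), min_eq_left (by linarith)]
    linarith
  · have : h ≤ ν := (H9GE.sub ho (hsq.toGE h2c.ge) (hMN.toGE le_rfl)).le_of_ne hν0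
    rw [min_eq_right (by linarith), max_eq_right (by linarith), min_eq_left (by linarith)]
    linarith
  · have : ν = h := (H9EQ.sub_of_lt' ho hMN (hsq.toGE le_rfl) h2c).2
    rw [min_eq_left (by linarith), max_eq_right (by linarith), min_eq_right (by linarith)]
    linarith

/-! ### Folding modulo `2h` -/

/-- `f` is `± t` modulo `2 h ℤ`. -/
def h9Fold (h t f : ℚ) : Prop := ∃ n : ℤ, t = 2 * h * n + f ∨ t = 2 * h * n - f

theorem h9Fold_unique {h t a b : ℚ} (hh : 0 < h) (ha0 : 0 ≤ a) (hah : a ≤ h) (hb0 : 0 ≤ b)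
    (hbh : b ≤ h) (hfa : h9Fold h t a) (hfb : h9Fold h t b) : a = b := by
  obtain ⟨n, hn⟩ := hfa
  obtain ⟨m, hm⟩ := hfb
  -- k = n - m
  have key : ∀ (k : ℤ) (x : ℚ), 2 * h * (k : ℚ) = x → -(2 * h) ≤ x → x ≤ 2 * h →
      (k = -1 ∧ x = -(2 * h)) ∨ (k = 0 ∧ x = 0) ∨ (k = 1 ∧ x = 2 * h) := by
    intro k x hkx hlo hhi
    have h1 : (-1 : ℚ) ≤ k := by
      by_contra hc
      have hc := not_le.mp hc
      have : (k : ℚ) ≤ -2 := by
        have : k ≤ -2 := by
          have : k < -1 := by exact_mod_cast hc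
          omega
        exact_mod_cast this
      nlinarith
    have h2 : (k : ℚ) ≤ 1 := by
      by_contra hc
      have hc := not_le.mp hc
      have : (2 : ℚ) ≤ k := by
        have : 2 ≤ k := by
          have : 1 < k := by exact_mod_cast hc
          omega
        exact_mod_cast this
      nlinarith
    have h1' : -1 ≤ k := by exact_mod_cast h1
    have h2' : k ≤ 1 := by exact_mod_cast h2
    have : k = -1 ∨ k = 0 ∨ k = 1 := by omega
    rcases this with rfl | rfl | rfl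
    · left; refine ⟨rfl, ?_⟩; rw [← hkx]; push_cast; ring
    · right; left; refine ⟨rfl, ?_⟩; rw [← hkx]; push_cast; ring
    · right; right; refine ⟨rfl, ?_⟩; rw [← hkx]; push_cast; ring
  rcases hn with hn | hn <;> rcases hm with hm | hm
  · -- 2hn + a = 2hm + b
    rcases key (n - m) (b - a) (by push_cast; linarith) (by linarith) (by linarith) with
      ⟨-, hx⟩ | ⟨-, hx⟩ | ⟨-, hx⟩ <;> linarith
  · -- 2hn + a = 2hm - b
    rcases key (n - m) (-b - a) (by push_cast; linarith) (by linarith) (by linarith) with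
      ⟨-, hx⟩ | ⟨-, hx⟩ | ⟨-, hx⟩ <;> linarith
  · rcases key (n - m) (b + a) (by push_cast; linarith) (by linarith) (by linarith) with
      ⟨-, hx⟩ | ⟨-, hx⟩ | ⟨-, hx⟩ <;> linarith
  · rcases key (n - m) (a - b) (by push_cast; linarith) (by linarith) (by linarith) with
      ⟨-, hx⟩ | ⟨-, hx⟩ | ⟨-, hx⟩ <;> linarith

theorem h9Fold_step {h t f c : ℚ} (hf : h9Fold h t f) :
    (h9Fold h (t + c) (min (f + c) (2 * h - f - c)) ∧ h9Fold h (t - c) |f - c|) ∨
      (h9Fold h (t + c) |f - c| ∧ h9Fold h (t - c) (min (f + c) (2 * h - f - c))) := by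
  obtain ⟨n, hn | hn⟩ := hf
  · left
    constructor
    · rcases le_total (f + c) (2 * h - f - c) with hle | hle
      · rw [min_eq_left hle]; exact ⟨n, Or.inl (by linarith)⟩
      · rw [min_eq_right hle]; exact ⟨n + 1, Or.inr (by push_cast; linarith)⟩
    · rcases le_total 0 (f - c) with hle | hle
      · rw [abs_of_nonneg hle]; exact ⟨n, Or.inl (by linarith)⟩
      · rw [abs_of_nonpos hle]; exact ⟨n, Or.inr (by linarith)⟩
  · right
    constructor
    · rcases le_total 0 (f - c) with hle | hle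
      · rw [abs_of_nonneg hle]; exact ⟨n, Or.inr (by linarith)⟩
      · rw [abs_of_nonpos hle]; exact ⟨n, Or.inl (by linarith)⟩
    · rcases le_total (f + c) (2 * h - f - c) with hle | hle
      · rw [min_eq_left hle]; exact ⟨n, Or.inr (by linarith)⟩
      · rw [min_eq_right hle]; exact ⟨n - 1, Or.inl (by push_cast; linarith)⟩

/-- **Main tropical statement.**  Let `X k` be the `X`-coordinate of `k • P`
(`1 ≤ k ≤ p - 1`) for a point `P` of order `p` on `Y^2 = X (X + M) (X + N)`, with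
`ord M = h > 0`, `ord N = 0`, and `0 < c = ord (X 1) < h`.  Then `p * c ∈ 2 h ℤ`. -/
theorem h9_torsion_comp (ho : H9Ord ord) {M N : K} {h c : ℚ}
    (hM : H9EQ ord M h) (hN : H9EQ ord N 0) (h2 : H9EQ ord (2 : K) 0)
    (p : ℕ) (hp : 4 ≤ p) (X : ℕ → K)
    (hX0 : ∀ k, 1 ≤ k → k ≤ p - 1 → X k ≠ 0)
    (h1 : H9EQ ord (X 1) c) (hc0 : 0 < c) (hch : c < h)
    (hdup : X 2 * (4 * X 1 * (X 1 + M) * (X 1 + N)) = (X 1 ^ 2 - M * N) ^ 2)
    (hne : ∀ k, 2 ≤ k → k ≤ p - 2 → X 1 ≠ X k)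
    (hS : ∀ k, 2 ≤ k → k ≤ p - 2 → (X (k + 1) + X (k - 1)) * (X 1 - X k) ^ 2 =
      2 * ((X 1 + X k) * (X 1 * X k + M * N) + 2 * (M + N) * X 1 * X k))
    (hP : ∀ k, 2 ≤ k → k ≤ p - 2 → X (k + 1) * X (k - 1) * (X 1 - X k) ^ 2 =
      (X 1 * X k - M * N) ^ 2)
    (hend1 : X (p - 1) = X 1) (hend2 : X (p - 2) = X 2) :
    ∃ j : ℤ, (p : ℚ) * c = 2 * h * j := by
  have hh : 0 < h := lt_trans hc0 hch
  have hf1 : h9D ord h (X 1) = c := by
    rw [h9D_eq_self (by rw [h1.2]; exact hc0.le) (by rw [h1.2]; exact hch.le), h1.2]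
  have hf2 : h9D ord h (X 2) = min (2 * c) (2 * h - 2 * c) :=
    h9_comp_dup ho hM hN h2 h1 hc0 hch (hX0 2 (by omega) (by omega)) hdup
  have hfold2 : h9Fold h (2 * c) (h9D ord h (X 2)) := by
    rw [hf2]
    rcases le_total (2 * c) (2 * h - 2 * c) with hle | hle
    · rw [min_eq_left hle]; exact ⟨0, Or.inl (by push_cast; ring)⟩
    · rw [min_eq_right hle]; exact ⟨1, Or.inr (by push_cast; ring)⟩
  -- the main induction
  have main : ∀ k : ℕ, 1 ≤ k → k ≤ p - 1 →
      h9Fold h ((k : ℚ) * c) (h9D ord h (X k)) ∧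
        (2 ≤ k → h9Fold h (((k - 1 : ℕ) : ℚ) * c) (h9D ord h (X (k - 1)))) := by
    intro k hk1
    induction k, hk1 using Nat.le_induction with
    | base =>
      intro _
      refine ⟨?_, fun h => absurd h (by norm_num)⟩
      rw [hf1]; exact ⟨0, Or.inl (by push_cast; ring)⟩
    | succ k hk ih =>
      intro hkp
      have ihk := ih (by omega)
      refine ⟨?_, fun _ => by simpa using ihk.1⟩
      rcases Nat.eq_or_lt_of_le hk with hk1 | hk2
      · -- k = 1
        subst hk1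
        have : ((1 + 1 : ℕ) : ℚ) * c = 2 * c := by push_cast; ring
        rw [this]; exact hfold2
      · -- 2 ≤ k ≤ p - 2
        have hk2' : 2 ≤ k := hk2
        have hkp2 : k ≤ p - 2 := by omega
        have hprev := ihk.2 hk2'
        have hcomp := h9_comp_add ho hM hh hN h2 h1 hc0 hch (hX0 k (by omega) (by omega))
          (hne k hk2' hkp2) (hX0 (k + 1) (by omega) (by omega))
          (hX0 (k - 1) (by omega) (by omega)) (hS k hk2' hkp2) (hP k hk2' hkp2)
        have hstep := h9Fold_step (c := c) ihk.1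
        have hcast1 : ((k + 1 : ℕ) : ℚ) * c = (k : ℚ) * c + c := by push_cast; ring
        have hcast2 : ((k - 1 : ℕ) : ℚ) * c = (k : ℚ) * c - c := by
          rw [Nat.cast_sub (by omega)]; push_cast; ring
        rw [hcast1]
        rw [hcast2] at hprev
        set f := h9D ord h (X k) with hf
        have hf0 : 0 ≤ f := h9D_nonneg
        have hfh : f ≤ h := h9D_le hh
        have hA0 : 0 ≤ |f - c| := abs_nonneg _
        have hAh : |f - c| ≤ h := by
          rw [abs_le]; constructor <;> linarith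
        have hB0 : 0 ≤ min (f + c) (2 * h - f - c) := le_min (by linarith) (by linarith)
        have hBh : min (f + c) (2 * h - f - c) ≤ h := by
          rcases le_total (f + c) (2 * h - f - c) with hle | hle
          · rw [min_eq_left hle]; linarith
          · rw [min_eq_right hle]; linarith
        rcases hcomp with ⟨e3, e4⟩ | ⟨e4, e3⟩ <;> rcases hstep with ⟨s1, s2⟩ | ⟨s1, s2⟩
        · -- f(k+1) = A, f(k-1) = B; Fold(+, B), Fold(-, A)
          rw [e4] at hprev
          have hAB := h9Fold_unique hh hA0 hAh hB0 hBh s2 hprev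
          rw [e3, hAB]; exact s1
        · rw [e3]; exact s1
        · rw [e3]; exact s1
        · rw [e4] at hprev
          have hAB := h9Fold_unique hh hB0 hBh hA0 hAh s2 hprev
          rw [e3, hAB]; exact s1
  -- conclusion
  have hm1 := (main (p - 1) (by omega) le_rfl)
  have hfp1 := hm1.1
  have hfp2 := hm1.2 (by omega)
  have e12 : p - 1 - 1 = p - 2 := by omega
  rw [e12, hend2] at hfp2
  rw [hend1, hf1] at hfp1
  have hc1 : ((p - 1 : ℕ) : ℚ) = (p : ℚ) - 1 := by rw [Nat.cast_sub (by omega)]; simp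
  have hc2 : ((p - 2 : ℕ) : ℚ) = (p : ℚ) - 2 := by rw [Nat.cast_sub (by omega)]; simp
  rw [hc1] at hfp1
  rw [hc2] at hfp2
  obtain ⟨n, hn | hn⟩ := hfp1
  · -- (p-1)c = 2hn + c, so (p-2)c = 2hn : contradiction
    exfalso
    -- (p-2) c is also ± f2, and f2 = ± 2c mod 2h
    have hf2' : ∃ m : ℤ, ((p : ℚ) - 2) * c = 2 * h * m + 2 * c ∨
        ((p : ℚ) - 2) * c = 2 * h * m - 2 * c := by
      obtain ⟨m, hm⟩ := hfp2
      rw [hf2] at hm
      rcases le_total (2 * c) (2 * h - 2 * c) with hle | hle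
      · rw [min_eq_left hle] at hm; exact ⟨m, hm⟩
      · rw [min_eq_right hle] at hm
        rcases hm with hm | hm
        · exact ⟨m + 1, Or.inr (by push_cast; linarith)⟩
        · exact ⟨m - 1, Or.inl (by push_cast; linarith)⟩
    obtain ⟨m, hm⟩ := hf2'
    -- c = ± h (n - m)
    have hcm : c = h * ((n - m : ℤ) : ℚ) ∨ c = - (h * ((n - m : ℤ) : ℚ)) := by
      rcases hm with hm | hm
      · left; push_cast; linarith
      · right; push_cast; linarith
    rcases le_or_gt (n - m) 0 with hle | hgt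
    · have h0 : ((n - m : ℤ) : ℚ) ≤ 0 := by exact_mod_cast hle
      rcases hcm with hcm | hcm
      · nlinarith
      · rcases eq_or_lt_of_le hle with heq | hlt
        · rw [heq] at hcm; simp at hcm; linarith
        · have : ((n - m : ℤ) : ℚ) ≤ -1 := by
            have : n - m ≤ -1 := by omega
            exact_mod_cast this
          nlinarith
    · have h1' : (1 : ℚ) ≤ ((n - m : ℤ) : ℚ) := by
        have : 1 ≤ n - m := by omega
        exact_mod_cast this
      rcases hcm with hcm | hcm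
      · nlinarith
      · nlinarith
  · exact ⟨n, by linarith⟩

/-- Integrality of the component when `h` is `p` times an integer. -/
theorem h9_torsion_comp_int (ho : H9Ord ord) {M N : K} {h c : ℚ}
    (hM : H9EQ ord M h) (hN : H9EQ ord N 0) (h2 : H9EQ ord (2 : K) 0)
    (p : ℕ) (hp : 4 ≤ p) (e : ℤ) (hhe : h = (p : ℚ) * e) (X : ℕ → K)
    (hX0 : ∀ k, 1 ≤ k → k ≤ p - 1 → X k ≠ 0)
    (h1 : H9EQ ord (X 1) c) (hc0 : 0 < c) (hch : c < h)
    (hdup : X 2 * (4 * X 1 * (X 1 + M) * (X 1 + N)) = (X 1 ^ 2 - M * N) ^ 2)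
    (hne : ∀ k, 2 ≤ k → k ≤ p - 2 → X 1 ≠ X k)
    (hS : ∀ k, 2 ≤ k → k ≤ p - 2 → (X (k + 1) + X (k - 1)) * (X 1 - X k) ^ 2 =
      2 * ((X 1 + X k) * (X 1 * X k + M * N) + 2 * (M + N) * X 1 * X k))
    (hP : ∀ k, 2 ≤ k → k ≤ p - 2 → X (k + 1) * X (k - 1) * (X 1 - X k) ^ 2 =
      (X 1 * X k - M * N) ^ 2)
    (hend1 : X (p - 1) = X 1) (hend2 : X (p - 2) = X 2) :
    ∃ m : ℤ, c = m := by
  obtain ⟨j, hj⟩ := h9_torsion_comp ho hM hN h2 p hp X hX0 h1 hc0 hch hdup hne hS hP hend1 hend2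
  refine ⟨2 * e * j, ?_⟩
  have hp0 : (p : ℚ) ≠ 0 := by
    have : 0 < p := by omega
    exact_mod_cast this.ne'
  rw [hhe] at hj
  have : (p : ℚ) * c = (p : ℚ) * (2 * e * j) := by rw [hj]; ring
  have := mul_left_cancel₀ hp0 this
  rw [this]; push_cast; ring


/-! ### The case `ord X1 ≥ h` and the unified statements -/

/-- Newton polygon, lower bound for both roots. -/
theorem h9_newton_both_ge (ho : H9Ord ord) {X3 X4 S P : K} {s t : ℚ} (hS : X3 + X4 = S)
    (hP : X3 * X4 = P) (hs : H9GE ord S s) (ht : H9EQ ord P t) (hge : 2 * s ≤ t) :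
    s ≤ ord X3 ∧ s ≤ ord X4 := by
  have h3 : X3 ≠ 0 := by rintro rfl; rw [zero_mul] at hP; exact ht.1 hP.symm
  have h4 : X4 ≠ 0 := by rintro rfl; rw [mul_zero] at hP; exact ht.1 hP.symm
  have hsum : ord X3 + ord X4 = t := by rw [← ho.mul h3 h4, hP, ht.2]
  rcases lt_trichotomy (ord X3) (ord X4) with hlt' | heq | hgt
  · have : H9EQ ord (X3 + X4) (ord X3) :=
      H9EQ.add_of_lt ho ⟨h3, rfl⟩ (Or.inr le_rfl : H9GE ord X4 (ord X4)) hlt'
    rw [hS] at this
    have h' := hs.le_of_ne this.1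
    rw [this.2] at h'
    exact ⟨h', by linarith⟩
  · constructor <;> linarith
  · have : H9EQ ord (X3 + X4) (ord X4) :=
      H9EQ.add_of_lt' ho ⟨h4, rfl⟩ (Or.inr le_rfl : H9GE ord X3 (ord X3)) hgt
    rw [hS] at this
    have h' := hs.le_of_ne this.1
    rw [this.2] at h'
    exact ⟨by linarith, h'⟩

/-- Newton polygon, both roots of nonpositive order. -/
theorem h9_newton_both_le (ho : H9Ord ord) {X3 X4 S P : K} {s t : ℚ} (hS : X3 + X4 = S)
    (hP : X3 * X4 = P) (hs : H9GE ord S s) (ht : H9EQ ord P t) (hts : t ≤ s) (ht0 : t ≤ 0) :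
    ord X3 ≤ 0 ∧ ord X4 ≤ 0 := by
  have h3 : X3 ≠ 0 := by rintro rfl; rw [zero_mul] at hP; exact ht.1 hP.symm
  have h4 : X4 ≠ 0 := by rintro rfl; rw [mul_zero] at hP; exact ht.1 hP.symm
  have hsum : ord X3 + ord X4 = t := by rw [← ho.mul h3 h4, hP, ht.2]
  rcases lt_trichotomy (ord X3) (ord X4) with hlt' | heq | hgt
  · have : H9EQ ord (X3 + X4) (ord X3) :=
      H9EQ.add_of_lt ho ⟨h3, rfl⟩ (Or.inr le_rfl : H9GE ord X4 (ord X4)) hlt'
    rw [hS] at this
    have h' := hs.le_of_ne this.1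
    rw [this.2] at h'
    constructor <;> linarith
  · constructor <;> linarith
  · have : H9EQ ord (X3 + X4) (ord X4) :=
      H9EQ.add_of_lt' ho ⟨h4, rfl⟩ (Or.inr le_rfl : H9GE ord X3 (ord X3)) hgt
    rw [hS] at this
    have h' := hs.le_of_ne this.1
    rw [this.2] at h'
    constructor <;> linarith

/-- Component addition when `P` lies on the component of `T = (0,0)` (`ord X1 ≥ h`):
both `P ± Q` have unsigned component `h - D(Q)`. -/
theorem h9_comp_add_top (ho : H9Ord ord) {M N X1 X2 X3 X4 : K} {h c : ℚ}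
    (hM : H9EQ ord M h) (hh : 0 < h) (hN : H9EQ ord N 0) (h2 : H9EQ ord (2 : K) 0)
    (h1 : H9EQ ord X1 c) (hch : h ≤ c) (hX2 : X2 ≠ 0) (hne : X1 ≠ X2)
    (hX3 : X3 ≠ 0) (hX4 : X4 ≠ 0)
    (hS : (X3 + X4) * (X1 - X2) ^ 2 =
      2 * ((X1 + X2) * (X1 * X2 + M * N) + 2 * (M + N) * X1 * X2))
    (hP : X3 * X4 * (X1 - X2) ^ 2 = (X1 * X2 - M * N) ^ 2) :
    h9D ord h X3 = h - h9D ord h X2 ∧ h9D ord h X4 = h - h9D ord h X2 := by
  set d := ord X2 with hd
  have hx2 : H9EQ ord X2 d := ⟨hX2, rfl⟩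
  have hMN : H9EQ ord (M * N) h := (hM.mul ho hN).congr (by ring)
  have hMpN : H9EQ ord (M + N) 0 := H9EQ.add_of_lt' ho hN (hM.toGE le_rfl) hh
  have hD0 : X1 - X2 ≠ 0 := sub_ne_zero.mpr hne
  set δ := ord (X1 - X2) with hδ
  have hDn : H9EQ ord ((X1 - X2) ^ 2) (2 * δ) := H9EQ.sq ho ⟨hD0, rfl⟩
  have hμ0 : X1 * X2 - M * N ≠ 0 := by
    intro h0
    rw [h0] at hP
    have : X3 * X4 * (X1 - X2) ^ 2 ≠ 0 := mul_ne_zero (mul_ne_zero hX3 hX4) hDn.1
    exact this (by rw [hP]; ring)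
  set μ := ord (X1 * X2 - M * N) with hμ
  have hPi : H9EQ ord (X3 * X4) (2 * μ - 2 * δ) :=
    H9EQ.of_mul_eq ho hP hDn (H9EQ.sq ho ⟨hμ0, rfl⟩)
  have hX12 : H9EQ ord (X1 * X2) (c + d) := h1.mul ho hx2
  have hT2 : H9EQ ord (2 * (M + N) * X1 * X2) (c + d) :=
    (((h2.mul ho hMpN).mul ho h1).mul ho hx2).congr (by ring)
  have h2ge : H9GE ord (2 : K) 0 := h2.toGE le_rfl
  have key_ge : ∀ {t : ℚ}, H9GE ord ((X1 + X2) * (X1 * X2 + M * N)) t → t ≤ c + d →
      H9GE ord (X3 + X4) (t - 2 * δ) := by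
    intro t ht hle
    have hsum : H9GE ord ((X1 + X2) * (X1 * X2 + M * N) + 2 * (M + N) * X1 * X2) t :=
      H9GE.add ho ht (hT2.toGE hle)
    exact H9GE.of_mul_eq ho hS hDn ((h2ge.mul ho hsum).mono (by linarith))
  rcases le_or_gt d 0 with hd0 | hd0
  · -- d ≤ 0 : both roots have ord ≥ h
    have e1 : H9EQ ord (X1 - X2) d := H9EQ.sub_of_lt' ho hx2 (h1.toGE le_rfl) (by linarith)
    have hδv : δ = d := e1.2
    have hμge : min (c + d) h ≤ μ :=
      (H9GE.sub ho (hX12.toGE (min_le_left _ _)) (hMN.toGE (min_le_right _ _))).le_of_ne hμ0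
    have g1 : H9GE ord (X1 + X2) d :=
      H9GE.add ho (h1.toGE (by linarith)) (hx2.toGE le_rfl)
    have g2 : H9GE ord (X1 * X2 + M * N) (min (c + d) h) :=
      H9GE.add ho (hX12.toGE (min_le_left _ _)) (hMN.toGE (min_le_right _ _))
    have hmin : h + d ≤ min (c + d) h := le_min (by linarith) (by linarith)
    have hSge := key_ge (g1.mul ho g2) (by have := min_le_left (c + d) h; linarith)
    have hn := h9_newton_both_ge ho rfl rfl (hSge.mono (show h ≤ d + min (c + d) h - 2 * δ by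
      linarith)) hPi (by linarith)
    rw [h9D_eq_zero hh hd0, h9D_eq_top hh hn.1, h9D_eq_top hh hn.2]
    constructor <;> ring
  rcases lt_or_ge d h with hdh | hdh
  · -- 0 < d < h
    have e1 : H9EQ ord (X1 - X2) d := H9EQ.sub_of_lt' ho hx2 (h1.toGE le_rfl) (by linarith)
    have hδv : δ = d := e1.2
    have e2 : H9EQ ord (X1 * X2 - M * N) h :=
      H9EQ.sub_of_lt' ho hMN (hX12.toGE le_rfl) (by linarith)
    have hμv : μ = h := e2.2
    have g1 : H9GE ord (X1 + X2) d :=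
      H9GE.add ho (h1.toGE (by linarith)) (hx2.toGE le_rfl)
    have g2 : H9GE ord (X1 * X2 + M * N) h :=
      H9GE.add ho (hX12.toGE (by linarith)) (hMN.toGE le_rfl)
    have hSge := key_ge (g1.mul ho g2) (by linarith)
    have hn := h9_newton_ge ho rfl rfl (hSge.mono (show h - d ≤ d + h - 2 * δ by linarith))
      hPi (by linarith)
    have o3 : ord X3 = h - d := by rw [hn.1.2]; linarith
    have o4 : ord X4 = h - d := by rw [hn.2.2]; linarith
    rw [h9D_eq_self hd0.le hdh.le, h9D_eq_self (by rw [o3]; linarith) (by rw [o3]; linarith),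
      h9D_eq_self (by rw [o4]; linarith) (by rw [o4]; linarith)]
    exact ⟨o3, o4⟩
  · -- h ≤ d : both roots have ord ≤ 0
    have hδge : h ≤ δ :=
      (H9GE.sub ho (h1.toGE hch) (hx2.toGE hdh)).le_of_ne hD0
    have e2 : H9EQ ord (X1 * X2 - M * N) h :=
      H9EQ.sub_of_lt' ho hMN (hX12.toGE le_rfl) (by linarith)
    have hμv : μ = h := e2.2
    have g1 : H9GE ord (X1 + X2) h := H9GE.add ho (h1.toGE hch) (hx2.toGE hdh)
    have g2 : H9GE ord (X1 * X2 + M * N) h :=
      H9GE.add ho (hX12.toGE (by linarith)) (hMN.toGE le_rfl)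
    have hSge := key_ge (g1.mul ho g2) (by linarith)
    have hn := h9_newton_both_le ho rfl rfl hSge hPi (by linarith) (by linarith)
    rw [h9D_eq_top hh hdh, h9D_eq_zero hh hn.1, h9D_eq_zero hh hn.2]
    constructor <;> ring

/-- Unified component addition rule (`0 < ord X1`, no upper bound). -/
theorem h9_comp_add_gen (ho : H9Ord ord) {M N X1 X2 X3 X4 : K} {h : ℚ}
    (hM : H9EQ ord M h) (hh : 0 < h) (hN : H9EQ ord N 0) (h2 : H9EQ ord (2 : K) 0)
    (hX1 : X1 ≠ 0) (hpos : 0 < ord X1) (hX2 : X2 ≠ 0) (hne : X1 ≠ X2)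
    (hX3 : X3 ≠ 0) (hX4 : X4 ≠ 0)
    (hS : (X3 + X4) * (X1 - X2) ^ 2 =
      2 * ((X1 + X2) * (X1 * X2 + M * N) + 2 * (M + N) * X1 * X2))
    (hP : X3 * X4 * (X1 - X2) ^ 2 = (X1 * X2 - M * N) ^ 2) :
    (h9D ord h X3 = |h9D ord h X2 - h9D ord h X1| ∧
        h9D ord h X4 = min (h9D ord h X2 + h9D ord h X1)
          (2 * h - h9D ord h X2 - h9D ord h X1)) ∨
      (h9D ord h X4 = |h9D ord h X2 - h9D ord h X1| ∧
        h9D ord h X3 = min (h9D ord h X2 + h9D ord h X1)
          (2 * h - h9D ord h X2 - h9D ord h X1)) := by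
  rcases lt_or_ge (ord X1) h with hlt | hge
  · rw [h9D_eq_self hpos.le hlt.le]
    exact h9_comp_add ho hM hh hN h2 ⟨hX1, rfl⟩ hpos hlt hX2 hne hX3 hX4 hS hP
  · rw [h9D_eq_top hh hge]
    have := h9_comp_add_top ho hM hh hN h2 ⟨hX1, rfl⟩ hge hX2 hne hX3 hX4 hS hP
    left
    have hd0 : 0 ≤ h9D ord h X2 := h9D_nonneg
    have hdh : h9D ord h X2 ≤ h := h9D_le hh
    rw [this.1, this.2, abs_of_nonpos (by linarith), min_eq_right (by linarith)]
    constructor <;> ring

/-- Unified duplication rule (`0 < ord X1`, no upper bound). -/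
theorem h9_comp_dup_gen (ho : H9Ord ord) {M N X1 X' : K} {h : ℚ}
    (hM : H9EQ ord M h) (hh : 0 < h) (hN : H9EQ ord N 0) (h2 : H9EQ ord (2 : K) 0)
    (hX1 : X1 ≠ 0) (hXM : X1 + M ≠ 0) (hpos : 0 < ord X1) (hX' : X' ≠ 0)
    (hdup : X' * (4 * X1 * (X1 + M) * (X1 + N)) = (X1 ^ 2 - M * N) ^ 2) :
    h9D ord h X' = min (2 * h9D ord h X1) (2 * h - 2 * h9D ord h X1) := by
  rcases lt_or_ge (ord X1) h with hlt | hge
  · rw [h9D_eq_self hpos.le hlt.le]
    exact h9_comp_dup ho hM hN h2 ⟨hX1, rfl⟩ hpos hlt hX' hdup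
  · rw [h9D_eq_top hh hge, min_eq_right (by linarith)]
    have h1 : H9EQ ord X1 (ord X1) := ⟨hX1, rfl⟩
    have hMN : H9EQ ord (M * N) h := (hM.mul ho hN).congr (by ring)
    have h4 : H9EQ ord (4 : K) 0 := by
      have := h2.mul ho h2
      have e : (2 : K) * 2 = 4 := by norm_num
      rw [e] at this
      exact this.congr (by ring)
    have hνge : h ≤ ord (X1 + M) :=
      (H9GE.add ho (h1.toGE hge) (hM.toGE le_rfl)).le_of_ne hXM
    have hXN : H9EQ ord (X1 + N) 0 := H9EQ.add_of_lt' ho hN (h1.toGE le_rfl) hpos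
    have hden : H9EQ ord (4 * X1 * (X1 + M) * (X1 + N)) (ord X1 + ord (X1 + M)) :=
      (((h4.mul ho h1).mul ho ⟨hXM, rfl⟩).mul ho hXN).congr (by ring)
    have hsq : H9EQ ord (X1 ^ 2) (2 * ord X1) := H9EQ.sq ho h1
    have hnum : H9EQ ord (X1 ^ 2 - M * N) h :=
      H9EQ.sub_of_lt' ho hMN (hsq.toGE le_rfl) (by linarith)
    have hX'e := H9EQ.of_mul_eq ho hdup hden (H9EQ.sq ho hnum)
    rw [h9D_eq_zero hh (by rw [hX'e.2]; linarith)]
    ring

/-- **Main tropical statement, general form.**  Let `X k` be the `X`-coordinate of `k • P`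
(`1 ≤ k ≤ p - 1`) for a point `P` of odd order `p` on `Y^2 = X (X + M) (X + N)`, with
`ord M = h > 0`, `ord N = 0`, and `0 < ord (X 1)`.  Then `ord (X 1) < h` and
`p * ord (X 1) ∈ 2 h ℤ`. -/
theorem h9_torsion_main (ho : H9Ord ord) {M N : K} {h : ℚ}
    (hM : H9EQ ord M h) (hh : 0 < h) (hN : H9EQ ord N 0) (h2 : H9EQ ord (2 : K) 0)
    (p : ℕ) (hp : 4 ≤ p) (hodd : Odd p) (X : ℕ → K)
    (hX0 : ∀ k, 1 ≤ k → k ≤ p - 1 → X k ≠ 0) (hXM : X 1 + M ≠ 0)
    (hpos : 0 < ord (X 1))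
    (hdup : X 2 * (4 * X 1 * (X 1 + M) * (X 1 + N)) = (X 1 ^ 2 - M * N) ^ 2)
    (hne : ∀ k, 2 ≤ k → k ≤ p - 2 → X 1 ≠ X k)
    (hS : ∀ k, 2 ≤ k → k ≤ p - 2 → (X (k + 1) + X (k - 1)) * (X 1 - X k) ^ 2 =
      2 * ((X 1 + X k) * (X 1 * X k + M * N) + 2 * (M + N) * X 1 * X k))
    (hP : ∀ k, 2 ≤ k → k ≤ p - 2 → X (k + 1) * X (k - 1) * (X 1 - X k) ^ 2 =
      (X 1 * X k - M * N) ^ 2)
    (hend1 : X (p - 1) = X 1) (hend2 : X (p - 2) = X 2) :
    ord (X 1) < h ∧ ∃ j : ℤ, (p : ℚ) * ord (X 1) = 2 * h * j := by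
  have hX1 : X 1 ≠ 0 := hX0 1 le_rfl (by omega)
  set c := h9D ord h (X 1) with hc
  have hc0 : 0 < c := by
    rcases lt_or_ge (ord (X 1)) h with hlt | hge
    · rw [hc, h9D_eq_self hpos.le hlt.le]; exact hpos
    · rw [hc, h9D_eq_top hh hge]; exact hh
  have hch : c ≤ h := h9D_le hh
  have hf2 : h9D ord h (X 2) = min (2 * c) (2 * h - 2 * c) :=
    h9_comp_dup_gen ho hM hh hN h2 hX1 hXM hpos (hX0 2 (by omega) (by omega)) hdup
  have hfold2 : h9Fold h (2 * c) (h9D ord h (X 2)) := by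
    rw [hf2]
    rcases le_total (2 * c) (2 * h - 2 * c) with hle | hle
    · rw [min_eq_left hle]; exact ⟨0, Or.inl (by push_cast; ring)⟩
    · rw [min_eq_right hle]; exact ⟨1, Or.inr (by push_cast; ring)⟩
  -- the main induction
  have main : ∀ k : ℕ, 1 ≤ k → k ≤ p - 1 →
      h9Fold h ((k : ℚ) * c) (h9D ord h (X k)) ∧
        (2 ≤ k → h9Fold h (((k - 1 : ℕ) : ℚ) * c) (h9D ord h (X (k - 1)))) := by
    intro k hk1
    induction k, hk1 using Nat.le_induction with
    | base =>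
      intro _
      refine ⟨?_, fun h => absurd h (by norm_num)⟩
      exact ⟨0, Or.inl (by push_cast; ring)⟩
    | succ k hk ih =>
      intro hkp
      have ihk := ih (by omega)
      refine ⟨?_, fun _ => by simpa using ihk.1⟩
      rcases Nat.eq_or_lt_of_le hk with hk1 | hk2
      · subst hk1
        have : ((1 + 1 : ℕ) : ℚ) * c = 2 * c := by push_cast; ring
        rw [this]; exact hfold2
      · have hk2' : 2 ≤ k := hk2
        have hkp2 : k ≤ p - 2 := by omega
        have hprev := ihk.2 hk2'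
        have hcomp := h9_comp_add_gen ho hM hh hN h2 hX1 hpos (hX0 k (by omega) (by omega))
          (hne k hk2' hkp2) (hX0 (k + 1) (by omega) (by omega))
          (hX0 (k - 1) (by omega) (by omega)) (hS k hk2' hkp2) (hP k hk2' hkp2)
        rw [← hc] at hcomp
        have hstep := h9Fold_step (c := c) ihk.1
        have hcast1 : ((k + 1 : ℕ) : ℚ) * c = (k : ℚ) * c + c := by push_cast; ring
        have hcast2 : ((k - 1 : ℕ) : ℚ) * c = (k : ℚ) * c - c := by
          rw [Nat.cast_sub (by omega)]; push_cast; ring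
        rw [hcast1]
        rw [hcast2] at hprev
        set f := h9D ord h (X k) with hf
        have hf0 : 0 ≤ f := h9D_nonneg
        have hfh : f ≤ h := h9D_le hh
        have hA0 : 0 ≤ |f - c| := abs_nonneg _
        have hAh : |f - c| ≤ h := by
          rw [abs_le]; constructor <;> linarith
        have hB0 : 0 ≤ min (f + c) (2 * h - f - c) := le_min (by linarith) (by linarith)
        have hBh : min (f + c) (2 * h - f - c) ≤ h := by
          rcases le_total (f + c) (2 * h - f - c) with hle | hle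
          · rw [min_eq_left hle]; linarith
          · rw [min_eq_right hle]; linarith
        rcases hcomp with ⟨e3, e4⟩ | ⟨e4, e3⟩ <;> rcases hstep with ⟨s1, s2⟩ | ⟨s1, s2⟩
        · rw [e4] at hprev
          have hAB := h9Fold_unique hh hA0 hAh hB0 hBh s2 hprev
          rw [e3, hAB]; exact s1
        · rw [e3]; exact s1
        · rw [e3]; exact s1
        · rw [e4] at hprev
          have hAB := h9Fold_unique hh hB0 hBh hA0 hAh s2 hprev
          rw [e3, hAB]; exact s1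
  -- conclusion
  have hm1 := (main (p - 1) (by omega) le_rfl)
  have hfp1 := hm1.1
  have hfp2 := hm1.2 (by omega)
  have e12 : p - 1 - 1 = p - 2 := by omega
  rw [e12, hend2] at hfp2
  rw [hend1, ← hc] at hfp1
  have hc1 : ((p - 1 : ℕ) : ℚ) = (p : ℚ) - 1 := by rw [Nat.cast_sub (by omega)]; simp
  have hc2 : ((p - 2 : ℕ) : ℚ) = (p : ℚ) - 2 := by rw [Nat.cast_sub (by omega)]; simp
  rw [hc1] at hfp1
  rw [hc2] at hfp2
  obtain ⟨r, hr⟩ := hodd
  have hpr : (p : ℚ) = 2 * r + 1 := by rw [hr]; push_cast; ring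
  -- p * c ∈ 2hℤ
  have hpc : ∃ j : ℤ, (p : ℚ) * c = 2 * h * j := by
    obtain ⟨n, hn | hn⟩ := hfp1
    · exfalso
      have hf2' : ∃ m : ℤ, ((p : ℚ) - 2) * c = 2 * h * m + 2 * c ∨
          ((p : ℚ) - 2) * c = 2 * h * m - 2 * c := by
        obtain ⟨m, hm⟩ := hfp2
        rw [hf2] at hm
        rcases le_total (2 * c) (2 * h - 2 * c) with hle | hle
        · rw [min_eq_left hle] at hm; exact ⟨m, hm⟩
        · rw [min_eq_right hle] at hm
          rcases hm with hm | hm
          · exact ⟨m + 1, Or.inr (by push_cast; linarith)⟩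
          · exact ⟨m - 1, Or.inl (by push_cast; linarith)⟩
      obtain ⟨m, hm⟩ := hf2'
      have hcm : c = h * ((n - m : ℤ) : ℚ) ∨ c = - (h * ((n - m : ℤ) : ℚ)) := by
        rcases hm with hm | hm
        · left; push_cast; linarith
        · right; push_cast; linarith
      -- hence c = h, and then (p - 2) h = 2 h n contradicts p odd
      have hceq : c = h := by
        rcases le_or_gt (n - m) 0 with hle | hgt
        · have h0 : ((n - m : ℤ) : ℚ) ≤ 0 := by exact_mod_cast hle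
          rcases hcm with hcm | hcm
          · nlinarith
          · rcases eq_or_lt_of_le hle with heq | hlt
            · rw [heq] at hcm; simp at hcm; linarith
            · have hle1 : ((n - m : ℤ) : ℚ) ≤ -1 := by
                have : n - m ≤ -1 := by omega
                exact_mod_cast this
              nlinarith
        · have h1' : (1 : ℚ) ≤ ((n - m : ℤ) : ℚ) := by
            have : 1 ≤ n - m := by omega
            exact_mod_cast this
          rcases hcm with hcm | hcm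
          · nlinarith
          · nlinarith
      rw [hceq] at hn
      have hpar : ((2 * (r : ℤ) - 1 : ℤ) : ℚ) = ((2 * n : ℤ) : ℚ) := by
        push_cast
        have hne' : h ≠ 0 := hh.ne'
        have : ((p : ℚ) - 2) * h = 2 * n * h := by linarith
        have := mul_right_cancel₀ hne' this
        rw [hpr] at this
        linarith
      have hpar' : (2 * (r : ℤ) - 1 : ℤ) = 2 * n := by exact_mod_cast hpar
      omega
    · exact ⟨n, by linarith⟩
  obtain ⟨j, hj⟩ := hpc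
  -- c < h, since p is odd
  have hclt : c < h := by
    rcases lt_or_eq_of_le hch with hlt | heq
    · exact hlt
    · exfalso
      rw [heq] at hj
      have hpar : ((2 * (r : ℤ) + 1 : ℤ) : ℚ) = ((2 * j : ℤ) : ℚ) := by
        push_cast
        have hne' : h ≠ 0 := hh.ne'
        have : (p : ℚ) * h = 2 * j * h := by linarith
        have := mul_right_cancel₀ hne' this
        rw [hpr] at this
        linarith
      have hpar' : (2 * (r : ℤ) + 1 : ℤ) = 2 * j := by exact_mod_cast hpar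
      omega
  have hord : ord (X 1) = c := by
    rcases lt_or_ge (ord (X 1)) h with hlt | hge
    · rw [hc, h9D_eq_self hpos.le hlt.le]
    · exfalso
      rw [hc, h9D_eq_top hh hge] at hclt
      exact lt_irrefl _ hclt
  rw [hord]
  exact ⟨hclt, j, hj⟩

end Tropical

end Fermat.Agent.S05
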