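import Fermat.Agent.S05.Defs
import Fermat.Agent.S05.Helper9Tropical

/-!
# S05: bridge between `OrdFn` (Defs) and the tropical core (`Helper9Tropical`), by helper9.
-/

set_option autoImplicit false

namespace Fermat.Agent.S05

variable {K : Type*} [Field K]

theorem h9_ordFn (v : OrdFn K) : H9Ord v.ord :=
  ⟨fun hx hy => v.map_mul' _ _ hx hy, fun hx hy hxy => v.map_add' _ _ hx hy hxy⟩

theorem h9_D_eq (v : OrdFn K) {h : ℚ} (hh : 0 < h) (y : K) : v.D h y = h9D v.ord h y := by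
  unfold OrdFn.D h9D
  rcases le_total (v.ord y) 0 with h0 | h0
  · rw [max_eq_right h0, min_eq_left hh.le, min_eq_left (by linarith), max_eq_left h0]
  · rw [max_eq_left h0]
    rcases le_total (v.ord y) h with h1 | h1
    · rw [min_eq_left h1, max_eq_right h0]
    · rw [min_eq_right h1, max_eq_right hh.le]

/-- Blueprint statement T4a (`key_quadratic`), proved from the tropical core. -/
theorem h9_key_quadratic (v : OrdFn K) {A B x₁ x₂ rp rm : K} {h : ℚ}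
    (hA : v.HasOrd A h) (hh : 0 < h) (hB : v.HasOrd B 0) (h2 : v.HasOrd (2 : K) 0)
    (hx₁ : x₁ ≠ 0) (hx₂ : x₂ ≠ 0) (hne : x₁ ≠ x₂) (hrp : rp ≠ 0) (hrm : rm ≠ 0)
    (hsum : (rp + rm) * (x₁ - x₂) ^ 2 =
      2 * ((x₁ + x₂) * (x₁ * x₂ - A * B) + 2 * (B - A) * x₁ * x₂))
    (hprod : rp * rm * (x₁ - x₂) ^ 2 = (x₁ * x₂ + A * B) ^ 2)
    (hpos : 0 < v.ord x₂) :
    (v.D h rp = |v.D h x₁ - v.D h x₂| ∧
        v.D h rm = min (v.D h x₁ + v.D h x₂) (2 * h - v.D h x₁ - v.D h x₂)) ∨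
      (v.D h rm = |v.D h x₁ - v.D h x₂| ∧
        v.D h rp = min (v.D h x₁ + v.D h x₂) (2 * h - v.D h x₁ - v.D h x₂)) := by
  have hM : H9EQ v.ord (-A) h := hA.neg
  have hS : (rp + rm) * (x₂ - x₁) ^ 2 =
      2 * ((x₂ + x₁) * (x₂ * x₁ + (-A) * B) + 2 * (-A + B) * x₂ * x₁) := by
    linear_combination hsum
  have hP : rp * rm * (x₂ - x₁) ^ 2 = (x₂ * x₁ - (-A) * B) ^ 2 := by
    linear_combination hprod
  have := h9_comp_add_gen (h9_ordFn v) hM hh hB h2 hx₂ hpos hx₁ hne.symm hrp hrm hS hP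
  simpa only [h9_D_eq v hh] using this

end Fermat.Agent.S05
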