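/-
S05, task T4b: the duplication case of the component lemma (proved by helper6 in
`KeyQuadratic.lean` as `h6_key_double`; re-exported here under the blueprint name).
-/
import Fermat.Agent.S05.KeyQuadratic

set_option autoImplicit false

namespace Fermat.Agent.S05

theorem key_double {K : Type*} [Field K] (v : OrdFn K) {A B x r : K} {h : ℚ}
    (hA : v.HasOrd A h) (hh : 0 < h) (hB : v.HasOrd B 0) (h2 : v.HasOrd (2 : K) 0)
    (hx : x * (x - A) * (x + B) ≠ 0) (hr : r ≠ 0)
    (hdbl : r * (4 * (x * (x - A) * (x + B))) = (x ^ 2 + A * B) ^ 2)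
    (hpos : 0 < v.ord x) :
    v.D h r = min (2 * v.D h x) (2 * h - 2 * v.D h x) :=
  h6_key_double v hA hh hB h2 hx hr hdbl hpos

end Fermat.Agent.S05
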